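import Mathlib

/-!
# Quadratic fields and the third quadratic field of a biquadratic field

`K` quadratic: `√(discr K) ∈ K`, and `|discr K| ≤ 4 |D|` for every `√D ∈ K`, `√D ∉ ℚ`.
`K₁ ≠ K₂` quadratic: the third quadratic subfield of `K₁ K₂` has discriminant at most
`4 |discr K₁| |discr K₂|`.
-/

set_option autoImplicit false

open NumberField Module Matrix IntermediateField

namespace Fermat.Agent.Cor.Siegel

/-! ### Any base field -/

section Base

variable {F : Type*} [Field F]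

theorem notMem_range_of_not_isSquare {K : Type*} [Field K] [Algebra F K] {x : K} {q : F}
    (hx : x ^ 2 = algebraMap F K q) (hq : ¬ IsSquare q) : x ∉ Set.range (algebraMap F K) := by
  rintro ⟨c, rfl⟩
  apply hq
  refine ⟨c, ?_⟩
  apply (algebraMap F K).injective
  rw [← hx, map_mul, sq]

theorem not_isSquare_of_notMem_range {K : Type*} [Field K] [Algebra F K] {x : K} {q : F}
    (hx : x ^ 2 = algebraMap F K q) (hx' : x ∉ Set.range (algebraMap F K)) : ¬ IsSquare q := by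
  rintro ⟨c, rfl⟩
  rw [map_mul] at hx
  have h : (x - algebraMap F K c) * (x + algebraMap F K c) = 0 := by linear_combination hx
  rcases mul_eq_zero.1 h with h | h
  · exact hx' ⟨c, (sub_eq_zero.1 h).symm⟩
  · exact hx' ⟨-c, by rw [map_neg]; exact (eq_neg_of_add_eq_zero_left h).symm⟩

variable {Ω : Type*} [Field Ω] [Algebra F Ω]

theorem adjoin_eq_of_quadratic {E : IntermediateField F Ω} (h : finrank F E = 2) {r : Ω}
    (hr : r ∈ E) (hr' : r ∉ Set.range (algebraMap F Ω)) : F⟮r⟯ = E := by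
  have : FiniteDimensional F E := FiniteDimensional.of_finrank_pos (by omega)
  have hle : F⟮r⟯ ≤ E := adjoin_simple_le_iff.2 hr
  have hint : IsIntegral F r := by
    have h1 : IsIntegral F (⟨r, hr⟩ : E) := IsIntegral.of_finite F _
    exact h1.map E.val
  have h1 : 2 ≤ finrank F F⟮r⟯ := by
    rw [adjoin.finrank hint]
    exact (minpoly.two_le_natDegree_iff hint).2 hr'
  refine IntermediateField.eq_of_le_of_finrank_le hle ?_
  rw [h]
  exact h1

theorem minpoly_sqrt {r : Ω} {q : F} (hr : r ^ 2 = algebraMap F Ω q)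
    (hr' : r ∉ Set.range (algebraMap F Ω)) :
    IsIntegral F r ∧ minpoly F r = Polynomial.X ^ 2 - Polynomial.C q := by
  have hmon : (Polynomial.X ^ 2 - Polynomial.C q : Polynomial F).Monic :=
    Polynomial.monic_X_pow_sub_C q two_ne_zero
  have h0 : Polynomial.aeval r (Polynomial.X ^ 2 - Polynomial.C q : Polynomial F) = 0 := by
    simp [hr]
  have hint : IsIntegral F r := ⟨_, hmon, by simpa [Polynomial.aeval_def] using h0⟩
  refine ⟨hint, (Polynomial.eq_of_monic_of_dvd_of_natDegree_le (minpoly.monic hint) hmon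
    (minpoly.dvd F r h0) ?_).symm⟩
  rw [Polynomial.natDegree_X_pow_sub_C]
  exact (minpoly.two_le_natDegree_iff hint).2 hr'

theorem finrank_adjoin_of_sq {r : Ω} {q : F} (hr : r ^ 2 = algebraMap F Ω q)
    (hr' : r ∉ Set.range (algebraMap F Ω)) : finrank F F⟮r⟯ = 2 := by
  obtain ⟨hint, hmin⟩ := minpoly_sqrt hr hr'
  rw [adjoin.finrank hint, hmin, Polynomial.natDegree_X_pow_sub_C]

/-- quadratic extensions with a common (irrational) square root are isomorphic -/
theorem nonempty_algEquiv_of_sq {K L : Type*} [Field K] [Algebra F K] [Field L] [Algebra F L]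
    (hK : finrank F K = 2) (hL : finrank F L = 2) {q : F} (hq : ¬ IsSquare q)
    {x : K} (hx : x ^ 2 = algebraMap F K q) {y : L} (hy : y ^ 2 = algebraMap F L q) :
    Nonempty (K ≃ₐ[F] L) := by
  have hx' := notMem_range_of_not_isSquare hx hq
  have : FiniteDimensional F K := FiniteDimensional.of_finrank_pos (by omega)
  have : FiniteDimensional F L := FiniteDimensional.of_finrank_pos (by omega)
  obtain ⟨hint, hmin⟩ := minpoly_sqrt hx hx'
  have htop : (⊤ : IntermediateField F K) = F⟮x⟯ := by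
    refine (IntermediateField.eq_of_le_of_finrank_le le_top ?_).symm
    rw [IntermediateField.finrank_top', finrank_adjoin_of_sq hx hx', hK]
  let pb := adjoin.powerBasis hint
  have hgen : minpoly F pb.gen = Polynomial.X ^ 2 - Polynomial.C q := by
    rw [adjoin.powerBasis_gen, minpoly_gen, hmin]
  let φ : F⟮x⟯ →ₐ[F] L := pb.lift y (by rw [hgen]; simp [hy])
  let e : K ≃ₐ[F] F⟮x⟯ := IntermediateField.topEquiv.symm.trans
    (IntermediateField.equivOfEq htop)
  let ψ : K →ₐ[F] L := φ.comp e.toAlgHom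
  have hinj : Function.Injective ψ := ψ.toRingHom.injective
  have hsurj : Function.Surjective ψ :=
    (LinearMap.injective_iff_surjective_of_finrank_eq_finrank (f := ψ.toLinearMap)
      (by rw [hK, hL])).1 hinj
  exact ⟨AlgEquiv.ofBijective ψ ⟨hinj, hsurj⟩⟩

end Base

/-! ### Quadratic extensions -/

section Quadratic

variable {K : Type*} [Field K] [Algebra ℚ K]

/-- in degree two every element satisfies `x² = t x - n` -/
theorem sq_eq_of_finrank_two (h2 : finrank ℚ K = 2) (x : K) :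
    x ^ 2 = algebraMap ℚ K (Algebra.trace ℚ K x) * x - algebraMap ℚ K (Algebra.norm ℚ x) := by
  have : FiniteDimensional ℚ K := FiniteDimensional.of_finrank_pos (by omega)
  let b : Basis (Fin 2) ℚ K := finBasisOfFinrankEq ℚ K h2
  set M := Algebra.leftMulMatrix b x with hM
  have h1 : M ^ 2 - M.trace • M + M.det • (1 : Matrix (Fin 2) (Fin 2) ℚ) = 0 := by
    have h3 := M.aeval_self_charpoly
    rw [M.charpoly_fin_two] at h3
    simpa [Algebra.algebraMap_eq_smul_one] using h3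
  have h4 : Algebra.leftMulMatrix b (x ^ 2 - M.trace • x + M.det • (1 : K)) = 0 := by
    rw [map_add, map_sub, map_smul, map_smul, map_pow, map_one]
    exact h1
  have h5 := (injective_iff_map_eq_zero _).1 (Algebra.leftMulMatrix_injective b) _ h4
  have h6 : M.trace = Algebra.trace ℚ K x := by
    rw [Algebra.trace_eq_matrix_trace b]
  have h7 : M.det = Algebra.norm ℚ x := by
    rw [Algebra.norm_eq_matrix_det b]
  rw [h6, h7, Algebra.smul_def, Algebra.smul_def, mul_one] at h5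
  linear_combination h5

theorem trace_eq_zero_of_sq (h2 : finrank ℚ K = 2) {x : K} {q : ℚ}
    (hx : x ^ 2 = algebraMap ℚ K q) (hx' : x ∉ Set.range (algebraMap ℚ K)) :
    Algebra.trace ℚ K x = 0 := by
  by_contra ht
  apply hx'
  have h1 := sq_eq_of_finrank_two h2 x
  refine ⟨(q + Algebra.norm ℚ x) / Algebra.trace ℚ K x, ?_⟩
  have ht' : algebraMap ℚ K (Algebra.trace ℚ K x) ≠ 0 := by
    rwa [Ne, map_eq_zero]
  rw [map_div₀, map_add, div_eq_iff ht', ← hx]
  linear_combination h1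

/-- a square root in a quadratic field -/
theorem exists_sq_mem (h2 : finrank ℚ K = 2) :
    ∃ (x : K) (q : ℚ), x ^ 2 = algebraMap ℚ K q ∧ x ∉ Set.range (algebraMap ℚ K) := by
  obtain ⟨y, hy⟩ : ∃ y : K, y ∉ Set.range (algebraMap ℚ K) := by
    by_contra h
    push Not at h
    have h3 : finrank ℚ K ≤ 1 := by
      refine finrank_le_one (1 : K) fun w => ?_
      obtain ⟨c, hc⟩ := h w
      exact ⟨c, by rw [Algebra.smul_def, mul_one, hc]⟩
    omega
  have h1 := sq_eq_of_finrank_two h2 y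
  refine ⟨y - algebraMap ℚ K (Algebra.trace ℚ K y / 2),
    (Algebra.trace ℚ K y) ^ 2 / 4 - Algebra.norm ℚ y, ?_, fun ⟨c, hc⟩ => hy
      ⟨c + Algebra.trace ℚ K y / 2, ?_⟩⟩
  · have e2 : algebraMap ℚ K (Algebra.trace ℚ K y / 2) =
        algebraMap ℚ K (Algebra.trace ℚ K y) / 2 := by rw [map_div₀, map_ofNat]
    have e3 : algebraMap ℚ K ((Algebra.trace ℚ K y) ^ 2 / 4 - Algebra.norm ℚ y) =
        algebraMap ℚ K (Algebra.trace ℚ K y) ^ 2 / 4 - algebraMap ℚ K (Algebra.norm ℚ y) := by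
      rw [map_sub, map_div₀, map_pow, map_ofNat]
    rw [e2, e3]
    have : CharZero K := algebraRat.charZero K
    linear_combination h1
  · rw [map_add, hc]
    ring

theorem linearIndependent_one_of_notMem {x : K} (hx' : x ∉ Set.range (algebraMap ℚ K)) :
    LinearIndependent ℚ ![(1 : K), x] := by
  rw [LinearIndependent.pair_iff]
  intro s t hst
  have ht : t = 0 := by
    by_contra ht
    apply hx'
    refine ⟨-s / t, ?_⟩
    have ht' : algebraMap ℚ K t ≠ 0 := by rwa [Ne, map_eq_zero]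
    rw [Algebra.smul_def, Algebra.smul_def, mul_one] at hst
    rw [map_div₀, map_neg, div_eq_iff ht']
    linear_combination -hst
  refine ⟨?_, ht⟩
  rw [ht, zero_smul, add_zero, Algebra.smul_def, mul_one, map_eq_zero] at hst
  exact hst

theorem discr_pair (h2 : finrank ℚ K = 2) {x : K} {q : ℚ}
    (hx : x ^ 2 = algebraMap ℚ K q) (hx' : x ∉ Set.range (algebraMap ℚ K)) :
    Algebra.discr ℚ ![(1 : K), x] = 4 * q := by
  have : FiniteDimensional ℚ K := FiniteDimensional.of_finrank_pos (by omega)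
  have h0 := trace_eq_zero_of_sq h2 hx hx'
  have h1 : Algebra.trace ℚ K 1 = 2 := by
    rw [← map_one (algebraMap ℚ K), Algebra.trace_algebraMap, h2]
    norm_num
  have h3 : Algebra.trace ℚ K (x * x) = 2 * q := by
    rw [← sq, hx, Algebra.trace_algebraMap, h2, nsmul_eq_mul]
    norm_num
  rw [Algebra.discr_def, Matrix.det_fin_two]
  simp only [Algebra.traceMatrix_apply, Algebra.traceForm_apply, Matrix.cons_val_zero,
    Matrix.cons_val_one, mul_one, one_mul, h0, h1, h3]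
  ring

end Quadratic

/-! ### The discriminant of a quadratic field -/

section Discr

variable {K : Type*} [Field K] [NumberField K]

/-- **`√(discr K) ∈ K`.** -/
theorem exists_sqrt_discr (h2 : finrank ℚ K = 2) :
    ∃ r : K, r ^ 2 = ((discr K : ℤ) : K) ∧ r ∉ Set.range (algebraMap ℚ K) := by
  obtain ⟨x, q, hx, hx'⟩ := exists_sq_mem h2
  let b : Basis (Fin 2) ℚ K := basisOfLinearIndependentOfCardEqFinrank
    (linearIndependent_one_of_notMem hx') (by rw [h2, Fintype.card_fin])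
  have hb : (b : Fin 2 → K) = ![(1 : K), x] := coe_basisOfLinearIndependentOfCardEqFinrank _ _
  let e : Free.ChooseBasisIndex ℤ (𝓞 K) ≃ Fin 2 := Basis.indexEquiv (integralBasis K) b
  let b' : Basis (Fin 2) ℚ K := (integralBasis K).reindex e
  have h1 : (discr K : ℚ) = Algebra.discr ℚ b' := by
    rw [coe_discr, Basis.coe_reindex, Algebra.discr_reindex]
  have h3 : Algebra.discr ℚ b' = (b.toMatrix b').det ^ 2 * (4 * q) := by
    rw [← discr_pair h2 hx hx', ← hb, ← Algebra.discr_of_matrix_vecMul,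
      Basis.toMatrix_map_vecMul]
  have h4 : (2 * (b.toMatrix b').det) ≠ 0 := by
    intro h
    have h5 : (discr K : ℚ) = 0 := by
      rw [h1, h3]
      linear_combination q * (2 * (b.toMatrix b').det) * h
    exact discr_ne_zero K (by exact_mod_cast h5)
  refine ⟨algebraMap ℚ K (2 * (b.toMatrix b').det) * x, ?_, fun ⟨c, hc⟩ => hx'
    ⟨c / (2 * (b.toMatrix b').det), ?_⟩⟩
  · have h5 : ((discr K : ℤ) : K) = algebraMap ℚ K (discr K : ℚ) := by
      rw [map_intCast]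
    rw [mul_pow, hx, ← map_pow, ← map_mul, h5, h1, h3]
    congr 1
    ring
  · have h6 : algebraMap ℚ K (2 * (b.toMatrix b').det) ≠ 0 := by rwa [Ne, map_eq_zero]
    rw [map_div₀, hc, mul_div_cancel_left₀ _ h6]

/-- **`4 D` is a square times `discr K`**, if `√D ∈ K`. -/
theorem sq_mul_discr (h2 : finrank ℚ K = 2) {x : K} {D : ℤ} (hx : x ^ 2 = (D : K))
    (hx' : x ∉ Set.range (algebraMap ℚ K)) :
    ∃ m : ℤ, m ≠ 0 ∧ 4 * D = m ^ 2 * discr K := by
  have hint : IsIntegral ℤ x := by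
    refine IsIntegral.of_pow (n := 2) two_pos ?_
    rw [hx]
    exact isIntegral_algebraMap (R := ℤ) (A := K) (x := D)
  let X : 𝓞 K := ⟨x, hint⟩
  let e : Free.ChooseBasisIndex ℤ (𝓞 K) ≃ Fin 2 := Fintype.equivFinOfCardEq (by
    rw [← finrank_eq_card_chooseBasisIndex, RingOfIntegers.rank, h2])
  let B : Basis (Fin 2) ℤ (𝓞 K) := (RingOfIntegers.basis K).reindex e
  have hq : x ^ 2 = algebraMap ℚ K (D : ℚ) := by rw [hx, map_intCast]
  have hXX : X * X = algebraMap ℤ (𝓞 K) D := by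
    apply RingOfIntegers.coe_injective
    rw [map_mul]
    change x * x = _
    rw [← sq, hx]
    simp
  have htr : Algebra.trace ℤ (𝓞 K) X = 0 := by
    have h := Algebra.coe_trace_int (K := K) X
    have h' : Algebra.trace ℚ K (X : K) = 0 := trace_eq_zero_of_sq h2 hq hx'
    rw [h'] at h
    exact_mod_cast h
  have hrk : finrank ℤ (𝓞 K) = 2 := by rw [RingOfIntegers.rank, h2]
  have h1 : Algebra.discr ℤ ![(1 : 𝓞 K), X] = 4 * D := by
    have e1 : Algebra.trace ℤ (𝓞 K) 1 = 2 := by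
      rw [← map_one (algebraMap ℤ (𝓞 K)), Algebra.trace_algebraMap, hrk]
      norm_num
    have e3 : Algebra.trace ℤ (𝓞 K) (X * X) = 2 * D := by
      rw [hXX, Algebra.trace_algebraMap, hrk, nsmul_eq_mul]
      norm_num
    rw [Algebra.discr_def, Matrix.det_fin_two]
    simp only [Algebra.traceMatrix_apply, Algebra.traceForm_apply, Matrix.cons_val_zero,
      Matrix.cons_val_one, mul_one, one_mul, htr, e1, e3]
    ring
  have h3 : Algebra.discr ℤ ![(1 : 𝓞 K), X] = (B.toMatrix ![(1 : 𝓞 K), X]).det ^ 2 * discr K := by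
    rw [← discr_eq_discr K B, ← Algebra.discr_of_matrix_vecMul, Basis.toMatrix_map_vecMul]
  refine ⟨(B.toMatrix ![(1 : 𝓞 K), X]).det, fun h => ?_, by rw [← h1, h3]⟩
  rw [h1, h] at h3
  have hD : D = 0 := by linarith
  rw [hD, Int.cast_zero, sq_eq_zero_iff] at hx
  exact hx' ⟨0, by rw [hx, map_zero]⟩

/-- **`|discr K| ≤ 4 |D|`** for every `√D ∈ K`, `√D ∉ ℚ`. -/
theorem abs_discr_le (h2 : finrank ℚ K = 2) {x : K} {D : ℤ} (hx : x ^ 2 = (D : K))
    (hx' : x ∉ Set.range (algebraMap ℚ K)) : |discr K| ≤ 4 * |D| := by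
  obtain ⟨m, hm, h⟩ := sq_mul_discr h2 hx hx'
  have h1 : 4 * |D| = m ^ 2 * |discr K| := by
    rw [← abs_of_pos (show (0 : ℤ) < 4 by norm_num), ← abs_mul, h, abs_mul, abs_pow, sq_abs]
  rw [h1]
  have h3 : 1 ≤ m ^ 2 := by
    have := sq_pos_of_ne_zero hm
    omega
  nlinarith [abs_nonneg (discr K)]

end Discr

/-! ### Any algebra structure -/

section Any

variable {K : Type*} [Field K] [NumberField K]

theorem exists_sqrt_discr' (A : Algebra ℚ K) (h2 : @finrank ℚ K _ _ A.toModule = 2) :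
    ∃ r : K, r ^ 2 = ((discr K : ℤ) : K) ∧ r ∉ Set.range (@algebraMap ℚ K _ _ A) := by
  obtain rfl : A = DivisionRing.toRatAlgebra := Subsingleton.elim _ _
  exact exists_sqrt_discr h2

theorem abs_discr_le' (A : Algebra ℚ K) (h2 : @finrank ℚ K _ _ A.toModule = 2) {x : K} {D : ℤ}
    (hx : x ^ 2 = (D : K)) (hx' : x ∉ Set.range (@algebraMap ℚ K _ _ A)) :
    |discr K| ≤ 4 * |D| := by
  obtain rfl : A = DivisionRing.toRatAlgebra := Subsingleton.elim _ _
  exact abs_discr_le h2 hx hx'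

end Any

theorem numberField_of_finrank_pos {K : Type*} [Field K] [CharZero K] (A : Algebra ℚ K)
    (h : 0 < @finrank ℚ K _ _ A.toModule) : NumberField K := by
  obtain rfl : A = DivisionRing.toRatAlgebra := Subsingleton.elim _ _
  exact { to_charZero := inferInstance, to_finiteDimensional := FiniteDimensional.of_finrank_pos h }

/-! ### The third quadratic field -/

section Three

variable {Ω : Type*} [Field Ω] [Algebra ℚ Ω]

/-- **The third quadratic field.** -/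
theorem exists_third {K₁ K₂ : IntermediateField ℚ Ω} [NumberField K₁] [NumberField K₂]
    (h₁ : finrank ℚ K₁ = 2) (h₂ : finrank ℚ K₂ = 2) (hne : K₁ ≠ K₂) :
    ∃ (r₁ r₂ : Ω) (K₃ : IntermediateField ℚ Ω) (_ : NumberField K₃),
      r₁ ^ 2 = (discr K₁ : Ω) ∧ r₂ ^ 2 = (discr K₂ : Ω) ∧ K₁ = ℚ⟮r₁⟯ ∧ K₂ = ℚ⟮r₂⟯ ∧
      K₃ = ℚ⟮r₁ * r₂⟯ ∧ finrank ℚ K₃ = 2 ∧ K₃ ≤ K₁ ⊔ K₂ ∧ K₃ ≠ K₁ ∧ K₃ ≠ K₂ ∧
      |discr K₃| ≤ 4 * |discr K₁| * |discr K₂| := by
  obtain ⟨⟨r₁, hr₁⟩, e₁, n₁⟩ := exists_sqrt_discr' K₁.algebra' h₁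
  obtain ⟨⟨r₂, hr₂⟩, e₂, n₂⟩ := exists_sqrt_discr' K₂.algebra' h₂
  have e₁' : r₁ ^ 2 = ((discr K₁ : ℤ) : Ω) := by
    have := congrArg K₁.val e₁
    simpa using this
  have e₂' : r₂ ^ 2 = ((discr K₂ : ℤ) : Ω) := by
    have := congrArg K₂.val e₂
    simpa using this
  have n₁' : r₁ ∉ Set.range (algebraMap ℚ Ω) := fun ⟨c, hc⟩ => n₁ ⟨c, Subtype.ext hc⟩
  have n₂' : r₂ ∉ Set.range (algebraMap ℚ Ω) := fun ⟨c, hc⟩ => n₂ ⟨c, Subtype.ext hc⟩
  have a₁ := adjoin_eq_of_quadratic h₁ hr₁ n₁'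
  have a₂ := adjoin_eq_of_quadratic h₂ hr₂ n₂'
  have z₁ : r₁ ≠ 0 := fun h => n₁' ⟨0, by rw [h, map_zero]⟩
  have z₂ : r₂ ≠ 0 := fun h => n₂' ⟨0, by rw [h, map_zero]⟩
  -- `r₁ r₂` is in neither field
  have m₁ : r₁ * r₂ ∉ K₁ := by
    intro h
    have h3 : r₂ ∈ K₁ := by
      have := K₁.mul_mem (K₁.inv_mem hr₁) h
      rwa [inv_mul_cancel_left₀ z₁] at this
    exact hne ((adjoin_eq_of_quadratic h₁ h3 n₂').symm.trans a₂)
  have m₂ : r₁ * r₂ ∉ K₂ := by
    intro h
    have h3 : r₁ ∈ K₂ := by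
      have := K₂.mul_mem h (K₂.inv_mem hr₂)
      rwa [mul_inv_cancel_right₀ z₂] at this
    exact hne (a₁.symm.trans (adjoin_eq_of_quadratic h₂ h3 n₁'))
  have n₃ : r₁ * r₂ ∉ Set.range (algebraMap ℚ Ω) := fun ⟨c, hc⟩ =>
    m₁ (hc ▸ K₁.algebraMap_mem c)
  have e₃ : (r₁ * r₂) ^ 2 = algebraMap ℚ Ω ((discr K₁ * discr K₂ : ℤ) : ℚ) := by
    rw [mul_pow, e₁', e₂', map_intCast, Int.cast_mul]
  have f₃ := finrank_adjoin_of_sq e₃ n₃
  have : CharZero Ω := algebraRat.charZero Ω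
  have : CharZero ℚ⟮r₁ * r₂⟯ := charZero_of_injective_algebraMap
    (algebraMap ℚ ℚ⟮r₁ * r₂⟯).injective
  have inst : NumberField ℚ⟮r₁ * r₂⟯ :=
    numberField_of_finrank_pos (ℚ⟮r₁ * r₂⟯).algebra' (by rw [f₃]; norm_num)
  refine ⟨r₁, r₂, ℚ⟮r₁ * r₂⟯, inst, e₁', e₂', a₁.symm, a₂.symm, rfl, f₃, ?_, ?_, ?_, ?_⟩
  · rw [adjoin_simple_le_iff]
    exact (K₁ ⊔ K₂).mul_mem ((le_sup_left : K₁ ≤ K₁ ⊔ K₂) hr₁) ((le_sup_right : K₂ ≤ K₁ ⊔ K₂) hr₂)
  · intro h
    exact m₁ (h ▸ mem_adjoin_simple_self ℚ (r₁ * r₂))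
  · intro h
    exact m₂ (h ▸ mem_adjoin_simple_self ℚ (r₁ * r₂))
  · have hx : (AdjoinSimple.gen ℚ (r₁ * r₂)) ^ 2 =
        (((discr K₁ * discr K₂ : ℤ)) : ℚ⟮r₁ * r₂⟯) := by
      apply Subtype.ext
      change (r₁ * r₂) ^ 2 = _
      rw [e₃, map_intCast]
      simp
    have hx' : AdjoinSimple.gen ℚ (r₁ * r₂) ∉
        Set.range (@algebraMap ℚ ℚ⟮r₁ * r₂⟯ _ _ (ℚ⟮r₁ * r₂⟯).algebra') :=
      fun ⟨c, hc⟩ => n₃ ⟨c, congrArg Subtype.val hc⟩
    have h := abs_discr_le' (ℚ⟮r₁ * r₂⟯).algebra' f₃ hx hx'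
    rwa [abs_mul, ← mul_assoc] at h

end Three

/-! ### Squares in `ℚ` -/

section Square

/-- **`√(discr K) ∈ K`, `∉ ℚ`**, for a quadratic field `K`. -/
theorem exists_sq_eq_discr (K : Type*) [Field K] [NumberField K] (h : Module.finrank ℚ K = 2) :
    ¬ IsSquare (((discr K : ℤ) : ℚ)) ∧ ∃ x : K, x ^ 2 = ((discr K : ℤ) : K) := by
  obtain ⟨r, hr, hr'⟩ := exists_sqrt_discr h
  refine ⟨not_isSquare_of_notMem_range (x := r) ?_ hr', r, hr⟩
  rw [hr, map_intCast]

/-- **`|discr K| ≤ 4 |m|`** if `√m ∈ K`, `m` not a square. -/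
theorem abs_discr_le_of_sq (K : Type*) [Field K] [NumberField K] (h : Module.finrank ℚ K = 2)
    {m : ℤ} (hm : ¬ IsSquare (m : ℚ)) (hx : ∃ x : K, x ^ 2 = (m : K)) :
    |discr K| ≤ 4 * |m| := by
  obtain ⟨x, hx⟩ := hx
  exact abs_discr_le h hx (notMem_range_of_not_isSquare (q := (m : ℚ))
    (by rw [hx, map_intCast]) hm)

/-- **`discr K ∣ 4 m`** if `√m ∈ K`, `m` not a square. -/
theorem discr_dvd_of_sq (K : Type*) [Field K] [NumberField K] (h : Module.finrank ℚ K = 2)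
    {m : ℤ} (hm : ¬ IsSquare (m : ℚ)) (hx : ∃ x : K, x ^ 2 = (m : K)) :
    discr K ∣ 4 * m := by
  obtain ⟨x, hx⟩ := hx
  obtain ⟨c, -, hc⟩ := sq_mul_discr h hx (notMem_range_of_not_isSquare (q := (m : ℚ))
    (by rw [hx, map_intCast]) hm)
  exact ⟨c ^ 2, by rw [hc, mul_comm]⟩

/-- **A quadratic field is determined by its discriminant up to squares.** -/
theorem nonempty_algEquiv_of_isSquare_discr_mul {K₁ K₂ : Type*} [Field K₁] [NumberField K₁] [Field K₂]
    [NumberField K₂] (h₁ : finrank ℚ K₁ = 2) (h₂ : finrank ℚ K₂ = 2)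
    (h : IsSquare ((discr K₁ * discr K₂ : ℤ) : ℚ)) : Nonempty (K₁ ≃ₐ[ℚ] K₂) := by
  obtain ⟨hn₁, x₁, hx₁⟩ := exists_sq_eq_discr K₁ h₁
  obtain ⟨-, x₂, hx₂⟩ := exists_sq_eq_discr K₂ h₂
  obtain ⟨c, hc⟩ := h
  have hd : ((discr K₂ : ℤ) : K₂) ≠ 0 := by exact_mod_cast discr_ne_zero K₂
  have hz : x₂ ≠ 0 := by
    rintro rfl
    rw [zero_pow two_ne_zero] at hx₂
    exact hd hx₂.symm
  refine nonempty_algEquiv_of_sq h₁ h₂ hn₁ (x := x₁) (y := algebraMap ℚ K₂ c / x₂) ?_ ?_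
  · rw [hx₁, map_intCast]
  · have hc' := congrArg (algebraMap ℚ K₂) hc
    rw [map_mul, map_intCast, Int.cast_mul] at hc'
    rw [div_pow, hx₂, div_eq_iff hd, map_intCast]
    linear_combination -hc'

theorem discr_eq_of_isSquare_discr_mul {K₁ K₂ : Type*} [Field K₁] [NumberField K₁] [Field K₂]
    [NumberField K₂] (h₁ : finrank ℚ K₁ = 2) (h₂ : finrank ℚ K₂ = 2)
    (h : IsSquare ((discr K₁ * discr K₂ : ℤ) : ℚ)) : discr K₁ = discr K₂ := by
  obtain ⟨e⟩ := nonempty_algEquiv_of_isSquare_discr_mul h₁ h₂ h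
  exact discr_eq_discr_of_algEquiv K₁ e

end Square

end Fermat.Agent.Cor.Siegel
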