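import Fermat.Agent.Corollaries.Siegel.Rabin
import Fermat.Agent.Corollaries.Bin.Disc

/-!
# The theorem of Rabinowitsch, with the existence of the field

`rabinowitsch_iff`: for `q ≥ 2` the values `n² + n + q`, `n = 0, 1, …, q - 2`, are prime numbers if
and only if there is a quadratic field of discriminant `1 - 4 q` and class number one.
-/

set_option autoImplicit false

noncomputable section

namespace Fermat.Agent.Cor.Siegel

open NumberField

/-- If `4 q - 1` is squarefree, `1 - 4 q` is a fundamental discriminant. -/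
theorem isFundDiscr_of_squarefree {q : ℕ} (hq : 2 ≤ q) (h : Squarefree (4 * q - 1)) :
    IsFundDiscr ((1 : ℤ) ^ 2 - 4 * (q : ℤ)) := by
  refine Or.inl ⟨by omega, ?_, by omega⟩
  rw [← Int.squarefree_natAbs]
  have h1 : ((1 : ℤ) ^ 2 - 4 * (q : ℤ)).natAbs = 4 * q - 1 := by omega
  rw [h1]
  exact h

/-- If `4 q - 1` is squarefree, there is a quadratic field of discriminant `1 - 4 q`. -/
theorem exists_field_of_squarefree {q : ℕ} (hq : 2 ≤ q) (h : Squarefree (4 * q - 1)) :
    ∃ (K : Type) (_ : Field K) (_ : NumberField K), Module.finrank ℚ K = 2 ∧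
      discr K = 1 - 4 * q := by
  have hD := isFundDiscr_of_squarefree hq h
  have hF : Fact (∀ r : ℚ, r ^ 2 ≠ -(((1 : ℤ) : ℚ) * (q : ℤ)) + -((1 : ℤ) : ℚ) * r) :=
    fact_of_not_isSquare (by
      rw [mul_one]
      exact hD.not_isSquare)
  refine ⟨QF 1 1 q, inferInstance, inferInstance, QuadraticAlgebra.finrank_eq_two _ _, ?_⟩
  have h1 := Bin.discr_QF hD
  rw [h1]
  norm_num

/-- **The theorem of Rabinowitsch** (1912): for `q ≥ 2` the values `n² + n + q`,
`n = 0, 1, …, q - 2`, are prime numbers if and only if `1 - 4 q` is the discriminant of a quadratic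
field and this field has class number one. -/
theorem rabinowitsch_iff {q : ℕ} (hq : 2 ≤ q) :
    (∀ n : ℕ, n + 2 ≤ q → (n ^ 2 + n + q).Prime) ↔
      ∃ (K : Type) (_ : Field K) (_ : NumberField K), Module.finrank ℚ K = 2 ∧
        discr K = 1 - 4 * q ∧ classNumber K = 1 := by
  constructor
  · intro h
    obtain ⟨K, i1, i2, h2, hd⟩ := exists_field_of_squarefree hq (squarefree_of_prime hq h)
    exact ⟨K, i1, i2, h2, hd, (rabinowitsch h2 hq hd).mpr h⟩
  · rintro ⟨K, i1, i2, h2, hd, h1⟩
    exact (rabinowitsch h2 hq hd).mp h1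

end Fermat.Agent.Cor.Siegel
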