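import Mathlib

/-!
# Two elementary facts for genus theory

* `even_of_sq_eq_span`: if the square of an ideal of `𝓞 K` is generated by a natural number `b`,
  then the exponent in `b` of every prime which does not divide the discriminant is even;
* `two_pow_primeFactors_le`: `2 ^ ω(d) ≤ 2 ^ 256 * d ^ (1 / 8)`.
-/

set_option autoImplicit false

namespace Fermat.Agent.Cor.Siegel

open NumberField

/-- A prime number which does not divide the discriminant does not lie in the square of a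
prime ideal. -/
theorem not_mem_sq_of_not_dvd {K : Type*} [Field K] [NumberField K] {p : ℕ} (hp : p.Prime)
    (hpd : ¬ (p : ℤ) ∣ discr K) {P : Ideal (𝓞 K)} (hP : P.IsPrime) (hpP : (p : 𝓞 K) ∈ P) :
    (p : 𝓞 K) ∉ P ^ 2 := by
  have hp' : Prime (p : ℤ) := Nat.prime_iff_prime_int.mp hp
  have hunr : Algebra.IsUnramifiedAt ℤ P :=
    (not_dvd_discr_iff_forall_mem K (𝓞 K) hp').mp hpd P hP (by simpa using hpP)
  have hover : P.LiesOver (Ideal.span {(p : ℤ)}) :=
    (Ideal.liesOver_span_iff hP.ne_top hp').mpr (by simpa using hpP)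
  have hbot : P ≠ ⊥ := by
    rintro rfl
    have h1 : (p : 𝓞 K) = 0 := by simpa using hpP
    exact hp.ne_zero (by exact_mod_cast h1)
  have hle : (Ideal.span {(p : ℤ)}).map (algebraMap ℤ (𝓞 K)) ≤ P := by
    rw [Ideal.map_span, Set.image_singleton, Ideal.span_singleton_le_iff_mem]
    simpa using hpP
  have hpr : (Ideal.span {(p : ℤ)}).IsPrime := (Ideal.span_singleton_prime hp'.ne_zero).mpr hp'
  let _ := Localization.AtPrime.algebraOfLiesOver (Ideal.span {(p : ℤ)}) P
  have h2 := ((Algebra.isUnramifiedAt_iff_map_eq ℤ (Ideal.span {(p : ℤ)}) P).mp hunr).2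
  have h3 := (Ideal.IsDedekindDomain.ramificationIdx'_eq_one_iff hbot hle).mpr h2
  intro h
  refine (Ideal.ramificationIdx'_ne_one_iff hle).mpr ?_ h3
  rw [Ideal.map_span, Set.image_singleton, Ideal.span_singleton_le_iff_mem]
  simpa using h

/-- If the square of an ideal is generated by the natural number `b`, the exponent in `b` of a
prime which does not divide the discriminant is even. -/
theorem even_of_sq_eq_span {K : Type*} [Field K] [NumberField K] {p : ℕ} (hp : p.Prime)
    (hpd : ¬ (p : ℤ) ∣ discr K) {I : Ideal (𝓞 K)} {b : ℕ} (hb : b ≠ 0)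
    (h : I ^ 2 = Ideal.span {(b : 𝓞 K)}) : Even (b.factorization p) := by
  have hp' : Prime (p : ℤ) := Nat.prime_iff_prime_int.mp hp
  have hp0 : (p : 𝓞 K) ≠ 0 := by exact_mod_cast hp.ne_zero
  -- a maximal ideal above `p`
  obtain ⟨P, hPm, hPo⟩ : ∃ P : Ideal (𝓞 K), P.IsMaximal ∧ P.LiesOver (Ideal.span {(p : ℤ)}) := by
    have : (Ideal.span {(p : ℤ)}).IsMaximal :=
      ((Ideal.span_singleton_prime hp'.ne_zero).mpr hp').isMaximal (by simpa using hp.ne_zero)
    exact Ideal.exists_maximal_ideal_liesOver_of_isIntegral (Ideal.span {(p : ℤ)})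
  have hPp := hPm.isPrime
  have hpP : (p : 𝓞 K) ∈ P := by
    have h1 := (Ideal.liesOver_span_iff hPp.ne_top hp').mp hPo
    simpa using h1
  have hbot : P ≠ ⊥ := by
    rintro rfl
    exact hp0 (by simpa using hpP)
  have hprime : Prime P := Ideal.prime_of_isPrime hbot hPp
  have hnot := not_mem_sq_of_not_dvd hp hpd hPp hpP
  -- the multiplicity of `P` in `(p)` is one
  have e1 : emultiplicity P (Ideal.span {(p : 𝓞 K)}) = 1 := by
    have h1 : emultiplicity P (Ideal.span {(p : 𝓞 K)}) = ((1 : ℕ) : ℕ∞) := by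
      rw [emultiplicity_eq_coe, pow_one, Ideal.dvd_span_singleton, Ideal.dvd_span_singleton]
      exact ⟨hpP, hnot⟩
    simpa using h1
  -- the cofactor
  obtain ⟨m, hm⟩ := Nat.ordProj_dvd b p
  have hpm : ¬ p ∣ m := by
    have h1 := Nat.not_dvd_ordCompl hp hb
    have h2 : b / p ^ b.factorization p = m :=
      Nat.div_eq_of_eq_mul_right (pow_pos hp.pos _) hm
    rwa [h2] at h1
  have hmP : (m : 𝓞 K) ∉ P := by
    intro hmem
    have hc : IsCoprime (p : ℤ) (m : ℤ) := by
      rw [Nat.isCoprime_iff_coprime]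
      exact (Nat.Prime.coprime_iff_not_dvd hp).mpr hpm
    obtain ⟨u, v, huv⟩ := hc
    apply hPp.ne_top
    rw [Ideal.eq_top_iff_one]
    have h1 : ((u * p + v * m : ℤ) : 𝓞 K) ∈ P := by
      push_cast
      exact P.add_mem (P.mul_mem_left _ hpP) (P.mul_mem_left _ hmem)
    rw [huv] at h1
    simpa using h1
  have e2 : emultiplicity P (Ideal.span {(m : 𝓞 K)}) = 0 := by
    rw [emultiplicity_eq_zero, Ideal.dvd_span_singleton]
    exact hmP
  have e3 : emultiplicity P (Ideal.span {(b : 𝓞 K)}) = ((b.factorization p : ℕ) : ℕ∞) := by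
    have h1 : Ideal.span {(b : 𝓞 K)} =
        Ideal.span {(p : 𝓞 K)} ^ (b.factorization p) * Ideal.span {(m : 𝓞 K)} := by
      rw [Ideal.span_singleton_pow, Ideal.span_singleton_mul_span_singleton]
      congr 2
      conv_lhs => rw [hm]
      push_cast
      rfl
    rw [h1, emultiplicity_mul hprime, emultiplicity_pow hprime, e1, e2]
    simp
  have e4 : emultiplicity P (I ^ 2) = ((b.factorization p : ℕ) : ℕ∞) := by rw [h, e3]
  rw [emultiplicity_pow hprime] at e4
  have hfin : emultiplicity P I ≠ ⊤ := by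
    intro htop
    rw [htop] at e4
    have : ((2 : ℕ) : ℕ∞) * ⊤ = ⊤ := ENat.mul_top (by norm_num)
    rw [this] at e4
    exact ENat.natCast_ne_top _ e4.symm
  obtain ⟨k, hk⟩ := ENat.ne_top_iff_exists.mp hfin
  rw [← hk] at e4
  have e5 : 2 * k = b.factorization p := by exact_mod_cast e4
  exact ⟨k, by omega⟩

/-- `2 ^ ω(d) ≤ 2 ^ 256 * d ^ (1 / 8)`. -/
theorem two_pow_primeFactors_le (d : ℕ) (hd : d ≠ 0) :
    (2 : ℝ) ^ d.primeFactors.card ≤ 2 ^ 256 * (d : ℝ) ^ (1 / 8 : ℝ) := by
  have h1 : ∀ p ∈ d.primeFactors,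
      (2 : ℝ) ≤ (if p < 256 then 2 else 1) * (p : ℝ) ^ (1 / 8 : ℝ) := by
    intro p hp
    have hp1 : 1 ≤ p := (Nat.prime_of_mem_primeFactors hp).pos
    by_cases h : p < 256
    · rw [if_pos h]
      have : (1 : ℝ) ≤ (p : ℝ) ^ (1 / 8 : ℝ) :=
        Real.one_le_rpow (by exact_mod_cast hp1) (by norm_num)
      linarith
    · rw [if_neg h, one_mul]
      have h256 : (256 : ℝ) ≤ (p : ℝ) := by exact_mod_cast not_lt.mp h
      calc (2 : ℝ) = ((2 : ℝ) ^ (8 : ℝ)) ^ (1 / 8 : ℝ) := by
            rw [← Real.rpow_mul (by norm_num)]; norm_num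
        _ = (256 : ℝ) ^ (1 / 8 : ℝ) := by norm_num
        _ ≤ (p : ℝ) ^ (1 / 8 : ℝ) :=
            Real.rpow_le_rpow (by norm_num) h256 (by norm_num)
  have h2 : (2 : ℝ) ^ d.primeFactors.card ≤
      ∏ p ∈ d.primeFactors, ((if p < 256 then (2 : ℝ) else 1) * (p : ℝ) ^ (1 / 8 : ℝ)) := by
    calc (2 : ℝ) ^ d.primeFactors.card = ∏ p ∈ d.primeFactors, (2 : ℝ) := by
          rw [Finset.prod_const]
      _ ≤ _ := Finset.prod_le_prod (fun _ _ => by norm_num) h1
  have h3 : ∏ p ∈ d.primeFactors, (if p < 256 then (2 : ℝ) else 1) ≤ 2 ^ 256 := by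
    rw [Finset.prod_ite, Finset.prod_const, Finset.prod_const_one, mul_one]
    apply pow_le_pow_right₀ (by norm_num)
    calc (d.primeFactors.filter (· < 256)).card ≤ (Finset.range 256).card := by
          apply Finset.card_le_card
          intro p hp
          simp only [Finset.mem_filter] at hp
          exact Finset.mem_range.mpr hp.2
      _ = 256 := by simp
  have h4 : ∏ p ∈ d.primeFactors, (p : ℝ) ^ (1 / 8 : ℝ) ≤ (d : ℝ) ^ (1 / 8 : ℝ) := by
    rw [Real.finsetProd_rpow _ _ (fun _ _ => by positivity)]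
    apply Real.rpow_le_rpow (by positivity) _ (by norm_num)
    have := Nat.le_of_dvd (Nat.pos_of_ne_zero hd) (Nat.prod_primeFactors_dvd d)
    rw [← Nat.cast_prod]
    exact_mod_cast this
  calc (2 : ℝ) ^ d.primeFactors.card ≤ _ := h2
    _ = (∏ p ∈ d.primeFactors, (if p < 256 then (2 : ℝ) else 1)) *
        ∏ p ∈ d.primeFactors, (p : ℝ) ^ (1 / 8 : ℝ) := Finset.prod_mul_distrib
    _ ≤ 2 ^ 256 * (d : ℝ) ^ (1 / 8 : ℝ) :=
        mul_le_mul h3 h4 (by positivity) (by positivity)

end Fermat.Agent.Cor.Siegel
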