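import Mathlib
import Fermat.Agent.Corollaries.Siegel.Even

/-!
# Genus theory of imaginary quadratic fields: the classes of order two

`K` is an imaginary quadratic field.

* `exists_sq_eq_span`: every class `C` with `C ^ 2 = 1` contains an ideal `I` of `𝓞 K` with
  `I ^ 2 = (b)`, `b` a positive integer;
* `mk0_eq_of_even`: the class of `I` is determined by the parities of the exponents in `b` of the
  primes which divide the discriminant;
* `card_sq_eq_one_le`: there are at most `2 ^ t` classes with `C ^ 2 = 1`, where `t` is the number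
  of primes which divide the discriminant.
-/

set_option autoImplicit false

noncomputable section

namespace Fermat.Agent.Cor.Siegel

open NumberField nonZeroDivisors

section Quad

variable {K : Type*} [Field K] [NumberField K]

/-- The quadratic equation of an integer of a quadratic field. -/
theorem sq_relation (h2 : Module.finrank ℚ K = 2) (x : 𝓞 K) :
    x ^ 2 - (Algebra.trace ℤ (𝓞 K) x : 𝓞 K) * x + (Algebra.norm ℤ x : 𝓞 K) = 0 := by
  classical
  have hr : Module.finrank ℤ (𝓞 K) = 2 := by rw [RingOfIntegers.rank, h2]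
  let b : Module.Basis (Fin 2) ℤ (𝓞 K) := Module.finBasisOfFinrankEq ℤ (𝓞 K) hr
  apply Algebra.leftMulMatrix_injective b
  have h := Matrix.aeval_self_charpoly (Algebra.leftMulMatrix b x)
  rw [Matrix.charpoly_fin_two, ← Algebra.trace_eq_matrix_trace b,
    ← Algebra.norm_eq_matrix_det b] at h
  rw [map_zero, ← h]
  simp

/-- The norm of a non-zero integer of an imaginary quadratic field is positive. -/
theorem norm_int_pos [IsTotallyComplex K] (h2 : Module.finrank ℚ K = 2) {x : 𝓞 K} (hx : x ≠ 0) :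
    0 < Algebra.norm ℤ x := by
  classical
  obtain ⟨φ⟩ : Nonempty (K →+* ℂ) := inferInstance
  have hne : φ ≠ ComplexEmbedding.conjugate φ := by
    intro h
    have h4 : ComplexEmbedding.IsReal φ := h.symm
    exact InfinitePlace.not_isReal_iff_isComplex.mpr
      (IsTotallyComplex.isComplex (InfinitePlace.mk φ)) ⟨φ, h4, rfl⟩
  have hcard : Fintype.card (K →+* ℂ) = 2 := by rw [Embeddings.card, h2]
  have huniv : ({φ, ComplexEmbedding.conjugate φ} : Finset (K →+* ℂ)) = Finset.univ := by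
    apply Finset.eq_univ_of_card
    rw [Finset.card_pair hne, hcard]
  have h1 : ((Algebra.norm ℚ (x : K) : ℚ) : ℂ) = ∏ σ : K →+* ℂ, σ (x : K) := by
    have h := Algebra.norm_eq_prod_embeddings ℚ ℂ (x : K)
    rw [eq_ratCast] at h
    rw [h]
    exact (Fintype.prod_equiv (RingHom.equivRatAlgHom (R := K) (S := ℂ)) _ _ (fun σ => rfl)).symm
  rw [← huniv, Finset.prod_pair hne] at h1
  have h5 : φ (x : K) * ComplexEmbedding.conjugate φ (x : K) =
      ((Complex.normSq (φ (x : K)) : ℝ) : ℂ) := by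
    rw [ComplexEmbedding.conjugate_coe_eq, Complex.mul_conj]
  rw [h5] at h1
  have h6 : ((Algebra.norm ℚ (x : K) : ℚ) : ℝ) = Complex.normSq (φ (x : K)) := by
    exact_mod_cast h1
  have h7 : (0 : ℝ) < Complex.normSq (φ (x : K)) :=
    Complex.normSq_pos.mpr ((map_ne_zero φ).mpr (by simpa using hx))
  rw [← h6, ← Algebra.coe_norm_int] at h7
  exact_mod_cast h7

omit [NumberField K] in
theorem span_natCast_natAbs (z : ℤ) :
    Ideal.span {((z.natAbs : ℕ) : 𝓞 K)} = Ideal.span {(z : 𝓞 K)} := by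
  rcases Int.natAbs_eq z with h | h
  · conv_rhs => rw [h]
    rw [Int.cast_natCast]
  · conv_rhs => rw [h]
    rw [Int.cast_neg, Int.cast_natCast, Ideal.span_singleton_neg]

/-- In an imaginary quadratic field a class `C` with `C ^ 2 = 1` contains an ideal whose square is
generated by a positive integer. -/
theorem exists_sq_eq_span [IsTotallyComplex K] (h2 : Module.finrank ℚ K = 2)
    (C : ClassGroup (𝓞 K)) (hC : C ^ 2 = 1) :
    ∃ (I : (Ideal (𝓞 K))⁰) (b : ℕ), ClassGroup.mk0 I = C ∧ b ≠ 0 ∧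
      (I : Ideal (𝓞 K)) ^ 2 = Ideal.span {(b : 𝓞 K)} := by
  obtain ⟨I, rfl⟩ := ClassGroup.mk0_surjective C
  have hI0 : (I : Ideal (𝓞 K)) ≠ 0 := nonZeroDivisors.coe_ne_zero I
  have hp : ((I : Ideal (𝓞 K)) ^ 2).IsPrincipal := by
    rw [← map_pow] at hC
    have hmem : (I : Ideal (𝓞 K)) ^ 2 ∈ (Ideal (𝓞 K))⁰ := pow_mem I.2 2
    have h1 : ClassGroup.mk0 (⟨(I : Ideal (𝓞 K)) ^ 2, hmem⟩ : (Ideal (𝓞 K))⁰) = 1 := hC
    exact (ClassGroup.mk0_eq_one_iff hmem).mp h1
  obtain ⟨α, hα⟩ := (Submodule.isPrincipal_iff _).mp hp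
  have hα' : (I : Ideal (𝓞 K)) ^ 2 = Ideal.span {α} := hα
  have hα0 : α ≠ 0 := by
    rintro rfl
    rw [Ideal.span_singleton_eq_bot.mpr rfl] at hα'
    exact hI0 (pow_eq_zero_iff two_ne_zero |>.mp hα')
  set a : ℕ := Ideal.absNorm (I : Ideal (𝓞 K)) with ha
  have ha0 : a ≠ 0 := by
    rw [ha, Ne, Ideal.absNorm_eq_zero_iff]
    exact hI0
  have hN : Algebra.norm ℤ α = (a : ℤ) ^ 2 := by
    have h1 : ((Algebra.norm ℤ α).natAbs : ℕ) = a ^ 2 := by
      rw [← Ideal.absNorm_span_singleton, ← hα', map_pow]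
    have h3 := norm_int_pos h2 hα0
    rw [← Int.natAbs_of_nonneg h3.le, h1]
    push_cast
    rfl
  have hrel := sq_relation h2 α
  rw [hN] at hrel
  set T : ℤ := Algebra.trace ℤ (𝓞 K) α with hT
  push_cast at hrel
  by_cases hb : T + 2 * a = 0
  · have hT' : (T : 𝓞 K) = -2 * (a : 𝓞 K) := by
      have : T = -2 * (a : ℤ) := by linarith
      rw [this]
      push_cast
      ring
    have h1 : (α + a) ^ 2 = 0 := by
      rw [hT'] at hrel
      linear_combination hrel
    have h3 : α = -(a : 𝓞 K) := eq_neg_of_add_eq_zero_left (pow_eq_zero_iff two_ne_zero |>.mp h1)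
    exact ⟨I, a, rfl, ha0, by rw [hα', h3, Ideal.span_singleton_neg]⟩
  · set b : ℤ := (T + 2 * a) * (a : ℤ) ^ 4 with hbdef
    have hb0 : b ≠ 0 := mul_ne_zero hb (pow_ne_zero _ (by exact_mod_cast ha0))
    set β : 𝓞 K := (α + a) * (T - α) with hβ
    have hβ2 : α * β ^ 2 = (b : 𝓞 K) := by
      rw [hβ, hbdef]
      push_cast
      have hs : α * (T - α) = (a : 𝓞 K) ^ 2 := by linear_combination -hrel
      have h1 : (α + a) ^ 2 = (T + 2 * a) * α := by linear_combination hrel
      calc α * ((α + a) * (T - α)) ^ 2 = (α + a) ^ 2 * (α * (T - α)) * (T - α) := by ring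
        _ = ((T + 2 * a) * α) * (a : 𝓞 K) ^ 2 * (T - α) := by rw [h1, hs]
        _ = (T + 2 * a) * (a : 𝓞 K) ^ 2 * (α * (T - α)) := by ring
        _ = (T + 2 * a) * (a : 𝓞 K) ^ 4 := by rw [hs]; ring
    have hβ0 : β ≠ 0 := by
      intro h0
      rw [h0] at hβ2
      apply hb0
      have : (b : 𝓞 K) = 0 := by rw [← hβ2]; ring
      exact_mod_cast this
    have hJ : Ideal.span {β} ∈ (Ideal (𝓞 K))⁰ :=
      mem_nonZeroDivisors_of_ne_zero (by simpa using hβ0)
    refine ⟨I * ⟨Ideal.span {β}, hJ⟩, b.natAbs, ?_, Int.natAbs_ne_zero.mpr hb0, ?_⟩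
    · rw [map_mul, (ClassGroup.mk0_eq_one_iff hJ).mpr ⟨⟨β, rfl⟩⟩, mul_one]
    · rw [span_natCast_natAbs, Submonoid.coe_mul, mul_pow, hα']
      change Ideal.span {α} * Ideal.span {β} ^ 2 = _
      rw [Ideal.span_singleton_pow, Ideal.span_singleton_mul_span_singleton, hβ2]

end Quad

section General

variable {K : Type*} [Field K] [NumberField K]

/-- A positive integer all of whose exponents are even is a square. -/
theorem exists_sq_of_even {n : ℕ} (hn : n ≠ 0) (h : ∀ p, p.Prime → Even (n.factorization p)) :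
    ∃ m : ℕ, n = m ^ 2 := by
  refine ⟨∏ p ∈ n.primeFactors, p ^ (n.factorization p / 2), ?_⟩
  conv_lhs => rw [← Nat.prod_factorization_pow_eq_self hn]
  rw [← Finset.prod_pow, Finsupp.prod, Nat.support_factorization]
  refine Finset.prod_congr rfl fun p hp => ?_
  rw [← pow_mul, Nat.div_mul_cancel (h p (Nat.prime_of_mem_primeFactors hp)).two_dvd]

/-- If `I ^ 2 = (b)`, `J ^ 2 = (c)` and the exponents of `b` and `c` at the primes which divide the
discriminant have the same parity, then `I J` is generated by a positive integer. -/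
theorem mul_eq_span_of_even {I J : Ideal (𝓞 K)} {b c : ℕ} (hb : b ≠ 0) (hc : c ≠ 0)
    (hI : I ^ 2 = Ideal.span {(b : 𝓞 K)}) (hJ : J ^ 2 = Ideal.span {(c : 𝓞 K)})
    (h : ∀ p : ℕ, p.Prime → (p : ℤ) ∣ discr K →
      (Even (b.factorization p) ↔ Even (c.factorization p))) :
    ∃ m : ℕ, m ≠ 0 ∧ I * J = Ideal.span {(m : 𝓞 K)} := by
  have hev : ∀ p, p.Prime → Even ((b * c).factorization p) := by
    intro p hp
    rw [Nat.factorization_mul hb hc, Finsupp.add_apply, Nat.even_add]
    by_cases hpd : (p : ℤ) ∣ discr K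
    · exact h p hp hpd
    · exact iff_of_true (even_of_sq_eq_span hp hpd hb hI) (even_of_sq_eq_span hp hpd hc hJ)
  obtain ⟨m, hm⟩ := exists_sq_of_even (mul_ne_zero hb hc) hev
  have hm0 : m ≠ 0 := by
    rintro rfl
    exact mul_ne_zero hb hc (by rw [hm]; rfl)
  refine ⟨m, hm0, ?_⟩
  have h1 : (I * J) ^ 2 = Ideal.span {(m : 𝓞 K)} ^ 2 := by
    rw [mul_pow, hI, hJ, Ideal.span_singleton_mul_span_singleton, Ideal.span_singleton_pow,
      ← Nat.cast_mul, hm, Nat.cast_pow]
  exact dvd_antisymm ((UniqueFactorizationMonoid.pow_dvd_pow_iff_dvd two_ne_zero).mp h1.dvd)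
    ((UniqueFactorizationMonoid.pow_dvd_pow_iff_dvd two_ne_zero).mp h1.symm.dvd)

/-- The class of an ideal `I` with `I ^ 2 = (b)` is determined by the parities of the exponents of
`b` at the primes which divide the discriminant. -/
theorem mk0_eq_of_even {I J : (Ideal (𝓞 K))⁰} {b c : ℕ} (hb : b ≠ 0) (hc : c ≠ 0)
    (hI : (I : Ideal (𝓞 K)) ^ 2 = Ideal.span {(b : 𝓞 K)})
    (hJ : (J : Ideal (𝓞 K)) ^ 2 = Ideal.span {(c : 𝓞 K)})
    (h : ∀ p : ℕ, p.Prime → (p : ℤ) ∣ discr K →
      (Even (b.factorization p) ↔ Even (c.factorization p))) :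
    ClassGroup.mk0 I = ClassGroup.mk0 J := by
  obtain ⟨m, _, hm⟩ := mul_eq_span_of_even hb hc hI hJ h
  have h1 : ClassGroup.mk0 I * ClassGroup.mk0 J = 1 := by
    rw [← map_mul]
    exact (ClassGroup.mk0_eq_one_iff (I * J).2).mpr ⟨⟨(m : 𝓞 K), hm⟩⟩
  have h2 : ClassGroup.mk0 J * ClassGroup.mk0 J = 1 := by
    rw [← map_mul]
    refine (ClassGroup.mk0_eq_one_iff (J * J).2).mpr ⟨⟨(c : 𝓞 K), ?_⟩⟩
    rw [Submonoid.coe_mul, ← pow_two]
    exact hJ
  exact mul_right_cancel (h1.trans h2.symm)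

end General

/-- **Genus theory, upper bound**: in an imaginary quadratic field the number of classes with
`C ^ 2 = 1` is at most `2 ^ t`, `t` the number of primes which divide the discriminant. -/
theorem card_sq_eq_one_le (K : Type*) [Field K] [NumberField K] [IsTotallyComplex K]
    (h2 : Module.finrank ℚ K = 2) :
    Nat.card {C : ClassGroup (𝓞 K) // C ^ 2 = 1} ≤ 2 ^ (discr K).natAbs.primeFactors.card := by
  classical
  choose I b hI hb hIb using fun C : {C : ClassGroup (𝓞 K) // C ^ 2 = 1} =>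
    exists_sq_eq_span h2 C.1 C.2
  let f : {C : ClassGroup (𝓞 K) // C ^ 2 = 1} → (discr K).natAbs.primeFactors.powerset :=
    fun C => ⟨(discr K).natAbs.primeFactors.filter fun p => Even ((b C).factorization p),
      Finset.mem_powerset.mpr (Finset.filter_subset _ _)⟩
  have hf : Function.Injective f := by
    intro C D h
    have h1 : (discr K).natAbs.primeFactors.filter (fun p => Even ((b C).factorization p)) =
        (discr K).natAbs.primeFactors.filter (fun p => Even ((b D).factorization p)) :=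
      congrArg Subtype.val h
    apply Subtype.ext
    rw [← hI C, ← hI D]
    refine mk0_eq_of_even (hb C) (hb D) (hIb C) (hIb D) fun p hp hpd => ?_
    have hmem : p ∈ (discr K).natAbs.primeFactors :=
      Nat.mem_primeFactors.mpr ⟨hp, Int.natCast_dvd.mp hpd,
        Int.natAbs_ne_zero.mpr (discr_ne_zero K)⟩
    have h3 := Finset.ext_iff.mp h1 p
    simpa [hmem] using h3
  have h1 := Nat.card_le_card_of_injective f hf
  rwa [Nat.card_eq_fintype_card (α := (discr K).natAbs.primeFactors.powerset), Fintype.card_coe,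
    Finset.card_powerset] at h1

end Fermat.Agent.Cor.Siegel
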