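import Fermat.Agent.Corollaries.Siegel.Chowla
import Fermat.Agent.Corollaries.Siegel.Genus

/-!
# Chowla's theorem: the number of classes per genus tends to infinity

`chowla`: for every `N` there are only finitely many imaginary quadratic fields with at most `N`
classes per genus (`#Cl ^ 2 ≤ N`), in particular only finitely many whose class group has exponent at
most two (Chowla 1934).
-/

set_option autoImplicit false

noncomputable section

open NumberField NumberField.InfinitePlace

namespace Fermat.Agent.Cor.Siegel

theorem genusStmt : GenusStmt := fun K _ _ _ h2 => card_sq_eq_one_le K h2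

/-- **Chowla's theorem**: the number of classes per genus of an imaginary quadratic field tends to
infinity with the absolute value of the discriminant. -/
theorem chowla (N : ℕ) : ∃ B : ℕ,
    ∀ (K : Type) [Field K] [NumberField K] [IsTotallyComplex K], Module.finrank ℚ K = 2 →
      Nat.card (powMonoidHom 2 : ClassGroup (𝓞 K) →* ClassGroup (𝓞 K)).range ≤ N →
        |discr K| ≤ B :=
  chowla_of genusStmt N

/-- There are only finitely many imaginary quadratic fields whose class group has exponent at most
two: the absolute values of their discriminants are bounded. -/
theorem chowla_exponent_two : ∃ B : ℕ,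
    ∀ (K : Type) [Field K] [NumberField K] [IsTotallyComplex K], Module.finrank ℚ K = 2 →
      (∀ C : ClassGroup (𝓞 K), C ^ 2 = 1) → |discr K| ≤ B := by
  obtain ⟨B, hB⟩ := chowla 1
  exact ⟨B, fun K _ _ _ h2 h => hB K h2 (card_range_pow_two_le_one h)⟩

/-- Only finitely many integers are discriminants of imaginary quadratic fields with at most `N`
classes per genus. -/
theorem finite_discr_genus_le (N : ℕ) :
    {d : ℤ | ∃ (K : Type) (_ : Field K) (_ : NumberField K), Module.finrank ℚ K = 2 ∧
      IsTotallyComplex K ∧ discr K = d ∧
      Nat.card (powMonoidHom 2 : ClassGroup (𝓞 K) →* ClassGroup (𝓞 K)).range ≤ N}.Finite :=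
  finite_discr_squares_le genusStmt N

/-- In a field of characteristic zero there are only finitely many imaginary quadratic subfields
with at most `N` classes per genus. -/
theorem finite_fields_genus_le (A : Type) [Field A] [CharZero A] (N : ℕ) :
    {K : {F : IntermediateField ℚ A // FiniteDimensional ℚ F} |
      haveI : NumberField K := @NumberField.mk _ _ inferInstance K.prop
      Module.finrank ℚ K = 2 ∧ IsTotallyComplex K ∧
      Nat.card (powMonoidHom 2 : ClassGroup (𝓞 K) →* ClassGroup (𝓞 K)).range ≤ N}.Finite :=
  finite_fields_squares_le genusStmt A N

/-- **Chowla's theorem** (1934): in a field of characteristic zero there are only finitely many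
imaginary quadratic subfields whose class group has exponent at most two. -/
theorem finite_fields_one_class_per_genus (A : Type) [Field A] [CharZero A] :
    {K : {F : IntermediateField ℚ A // FiniteDimensional ℚ F} |
      haveI : NumberField K := @NumberField.mk _ _ inferInstance K.prop
      Module.finrank ℚ K = 2 ∧ IsTotallyComplex K ∧
      ∀ C : ClassGroup (𝓞 K), C ^ 2 = 1}.Finite :=
  finite_fields_exponent_two genusStmt A

/-- Only finitely many integers are discriminants of imaginary quadratic fields whose class group has
exponent at most two. -/
theorem finite_discr_one_class_per_genus :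
    {d : ℤ | ∃ (K : Type) (_ : Field K) (_ : NumberField K), Module.finrank ℚ K = 2 ∧
      IsTotallyComplex K ∧ discr K = d ∧ ∀ C : ClassGroup (𝓞 K), C ^ 2 = 1}.Finite :=
  finite_discr_exponent_two genusStmt

end Fermat.Agent.Cor.Siegel
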