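import Fermat.Agent.Corollaries.Siegel.RelFin

/-!
# Brauer relations between the subfields of a Galois extension of `ℚ`

`brauer_galois`: for subfields `E i`, `E' j` of a Galois number field `M` with
`∑ i, 1_{Gal(M/E i)}^G = ∑ j, 1_{Gal(M/E' j)}^G` (`G = Gal(M/ℚ)`) the products of the zeta functions,
of the absolute values of the discriminants and of the numbers `h R / w` are equal;
`biquadratic_galois`: Dirichlet's relation for a field of degree four with three different
quadratic subfields; `cubic_galois`: Dedekind's relation for a Galois field of degree six with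
a cubic subfield which is not Galois and a quadratic subfield.
-/

set_option autoImplicit false

noncomputable section

open NumberField NumberField.InfinitePlace NumberField.Units Module
open Fermat.Agent.Classic.Disc Fermat.Agent.Classic.Zeta Fermat.Agent.FrobDensity
open Fermat.Agent.Frob Fermat.Agent.Cor.ZetaK Fermat.Agent.Classic.Level

namespace Fermat.Agent.Cor.Brauer

/-! ### Permutation characters of finite groups -/

section Group

variable {G : Type*} [Group G]

/-- the permutation character of a normal subgroup -/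
theorem pH_of_normal (H : Subgroup G) [hH : H.Normal] (g : G) [Decidable (g ∈ H)] :
    pH H g = if g ∈ H then H.index else 0 := by
  have key : ∀ x : G ⧸ H, g • x = x ↔ g ∈ H := by
    intro x
    induction x using QuotientGroup.induction_on with
    | H a =>
      rw [MulAction.Quotient.smul_mk, QuotientGroup.eq_iff_div_mem, smul_eq_mul, mul_div_cancel_right]
  unfold pH
  split_ifs with h
  · rw [Subgroup.index]
    exact Nat.card_congr (Equiv.subtypeUnivEquiv fun x => (key x).mpr h)
  · have : IsEmpty {x : G ⧸ H // g • x = x} := ⟨fun x => h ((key x.1).mp x.2)⟩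
    exact Nat.card_of_isEmpty

/-- a group of order two has exactly one element `≠ 1` -/
theorem exists_of_card_two {H : Subgroup G} (h : Nat.card H = 2) :
    ∃ t : G, t ≠ 1 ∧ ∀ x, x ∈ H ↔ x = 1 ∨ x = t := by
  obtain ⟨⟨t, ht⟩, h1, h2⟩ := (Nat.card_eq_two_iff' (1 : H)).mp h
  refine ⟨t, fun h0 => h1 (Subtype.ext h0), fun x => ⟨fun hx => ?_, ?_⟩⟩
  · by_cases h3 : x = 1
    · exact Or.inl h3
    · exact Or.inr (congrArg Subtype.val (h2 ⟨x, hx⟩ fun h4 => h3 (congrArg Subtype.val h4)))
  · rintro (rfl | rfl)
    · exact H.one_mem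
    · exact ht

/-- the relation of the Klein four group -/
theorem pH_klein (hG : Nat.card G = 4) {H₁ H₂ H₃ : Subgroup G} (h1 : Nat.card H₁ = 2)
    (h2 : Nat.card H₂ = 2) (h3 : Nat.card H₃ = 2) (h12 : H₁ ≠ H₂) (h13 : H₁ ≠ H₃)
    (h23 : H₂ ≠ H₃) (g : G) : pH ⊥ g + 2 = pH H₁ g + pH H₂ g + pH H₃ g := by
  classical
  have hfin : Finite G := Nat.finite_of_card_ne_zero (by omega)
  have : Fintype G := Fintype.ofFinite G
  have hidx : ∀ H : Subgroup G, Nat.card H = 2 → H.index = 2 := by
    intro H hH
    have := H.card_mul_index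
    rw [hH, hG] at this
    omega
  have n1 : H₁.Normal := Subgroup.normal_of_index_eq_two (hidx _ h1)
  have n2 : H₂.Normal := Subgroup.normal_of_index_eq_two (hidx _ h2)
  have n3 : H₃.Normal := Subgroup.normal_of_index_eq_two (hidx _ h3)
  obtain ⟨a, ha, ha'⟩ := exists_of_card_two h1
  obtain ⟨b, hb, hb'⟩ := exists_of_card_two h2
  obtain ⟨c, hc, hc'⟩ := exists_of_card_two h3
  have hab : a ≠ b := by
    rintro rfl
    exact h12 (Subgroup.ext fun x => (ha' x).trans (hb' x).symm)
  have hac : a ≠ c := by
    rintro rfl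
    exact h13 (Subgroup.ext fun x => (ha' x).trans (hc' x).symm)
  have hbc : b ≠ c := by
    rintro rfl
    exact h23 (Subgroup.ext fun x => (hb' x).trans (hc' x).symm)
  have huniv : ({1, a, b, c} : Finset G) = Finset.univ := by
    rw [← Finset.card_eq_iff_eq_univ, ← Nat.card_eq_fintype_card, hG]
    rw [Finset.card_insert_of_notMem, Finset.card_insert_of_notMem, Finset.card_insert_of_notMem,
      Finset.card_singleton]
    · simpa using hbc
    · simpa using ⟨hab, hac⟩
    · simpa using ⟨ha.symm, hb.symm, hc.symm⟩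
  have hg : g = 1 ∨ g = a ∨ g = b ∨ g = c := by
    have h0 : g ∈ ({1, a, b, c} : Finset G) := by rw [huniv]; exact Finset.mem_univ g
    simpa using h0
  rw [pH_of_normal, pH_of_normal, pH_of_normal, pH_of_normal, hidx _ h1, hidx _ h2, hidx _ h3,
    Subgroup.index_bot, hG]
  simp only [Subgroup.mem_bot, ha', hb', hc']
  rcases hg with rfl | rfl | rfl | rfl
  · simp
  · simp [ha, hab, hac]
  · simp [hb, hab.symm, hbc]
  · simp [hc, hac.symm, hbc.symm]

theorem perm_three (p : Equiv.Perm (Fin 3)) :
    Fintype.card {x : Fin 3 // p x = x} = 1 ∨ p ^ 3 = 1 := by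
  revert p
  decide

/-- the relation of the symmetric group `S₃` -/
theorem pH_S3 (hG : Nat.card G = 6) {H N : Subgroup G} (h2 : Nat.card H = 2) (hH : ¬ H.Normal)
    (h3 : Nat.card N = 3) (g : G) : pH ⊥ g + 2 = 2 * pH H g + pH N g := by
  classical
  have hfin : Finite G := Nat.finite_of_card_ne_zero (by omega)
  have hiH : H.index = 3 := by
    have := H.card_mul_index
    rw [h2, hG] at this
    omega
  have hiN : N.index = 2 := by
    have := N.card_mul_index
    rw [h3, hG] at this
    omega
  have nN : N.Normal := Subgroup.normal_of_index_eq_two hiN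
  have hdis : ∀ x, x ∈ H → x ∈ N → x = 1 := by
    intro x hxH hxN
    have h4 : orderOf x ∣ 2 := h2 ▸ Subgroup.orderOf_dvd_natCard H hxH
    have h5 : orderOf x ∣ 3 := h3 ▸ Subgroup.orderOf_dvd_natCard N hxN
    have h6 : orderOf x ∣ 1 := by
      have := Nat.dvd_gcd h4 h5
      simpa using this
    exact orderOf_eq_one_iff.mp (Nat.dvd_one.mp h6)
  rw [pH_of_normal ⊥, pH_of_normal N, Subgroup.index_bot, hG, hiN]
  simp only [Subgroup.mem_bot]
  by_cases hg1 : g = 1
  · subst hg1
    have h7 : pH H (1 : G) = 3 := by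
      rw [pH, ← hiH, Subgroup.index]
      exact Nat.card_congr (Equiv.subtypeUnivEquiv fun x => one_smul G x)
    rw [h7]
    simp
  by_cases hgN : g ∈ N
  · have h7 : pH H g = 0 := by
      have : IsEmpty {x : G ⧸ H // g • x = x} := by
        refine ⟨fun x => ?_⟩
        obtain ⟨x, hx⟩ := x
        induction x using QuotientGroup.induction_on with
        | H a =>
          rw [MulAction.Quotient.smul_mk, eq_comm, QuotientGroup.eq, smul_eq_mul] at hx
          have h8 : a⁻¹ * g * a⁻¹⁻¹ ∈ N := nN.conj_mem g hgN a⁻¹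
          rw [inv_inv] at h8
          rw [← mul_assoc] at hx
          have h9 := hdis _ hx h8
          apply hg1
          have h10 : g = a * (a⁻¹ * g * a) * a⁻¹ := by group
          rw [h10, h9]
          group
      exact Nat.card_of_isEmpty
    rw [h7]
    simp [hg1, hgN]
  · have h7 : pH H g = 1 := by
      have e0 : Nat.card (G ⧸ H) = 3 := hiH
      have hfq : Finite (G ⧸ H) := Nat.finite_of_card_ne_zero (by omega)
      let e : (G ⧸ H) ≃ Fin 3 := Nat.equivFinOfCardPos (by omega) |>.trans (finCongr e0)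
      let p : Equiv.Perm (Fin 3) := e.symm.trans ((MulAction.toPerm g).trans e)
      have hp : ∀ x : Fin 3, p x = e (g • e.symm x) := fun x => rfl
      rcases perm_three p with h8 | h8
      · rw [pH, ← h8, ← Nat.card_eq_fintype_card]
        refine Nat.card_congr (e.subtypeEquiv fun x => ?_)
        rw [hp, e.symm_apply_apply, e.injective.eq_iff]
      · exfalso
        have h9 : ∀ x : G ⧸ H, g ^ 3 • x = x := by
          intro x
          have h10 : ∀ y : Fin 3, (p ^ 3) y = e (g ^ 3 • e.symm y) := by
            intro y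
            rw [pow_succ, pow_two, Equiv.Perm.mul_apply, Equiv.Perm.mul_apply, hp, hp, hp,
              e.symm_apply_apply, e.symm_apply_apply, smul_smul, smul_smul, pow_succ g, pow_two]
          have h11 := h10 (e x)
          rw [h8, Equiv.Perm.one_apply, e.symm_apply_apply] at h11
          exact (e.injective h11).symm
        have h12 : g ^ 3 ∈ H.normalCore := by
          rw [Subgroup.normalCore_eq_ker, MonoidHom.mem_ker]
          exact Equiv.ext h9
        have h13 : H.normalCore = ⊥ := by
          have h14 : Nat.card H.normalCore ∣ 2 := h2 ▸ Subgroup.card_dvd_of_le H.normalCore_le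
          rcases (Nat.dvd_prime Nat.prime_two).mp h14 with h15 | h15
          · exact Subgroup.card_eq_one.mp h15
          · exfalso
            apply hH
            have h16 : H.normalCore = H :=
              Subgroup.eq_of_le_of_card_ge H.normalCore_le (by rw [h2, h15])
            rw [← h16]
            infer_instance
        rw [h13, Subgroup.mem_bot] at h12
        apply hgN
        have h17 : g ^ 2 ∈ N := by
          have := N.pow_index_mem g
          rwa [hiN] at this
        have h18 : g = g ^ 3 * (g ^ 2)⁻¹ := by group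
        rw [h18, h12, one_mul]
        exact N.inv_mem h17
    rw [h7]
    simp [hg1, hgN]

end Group

/-! ### Subfields of a Galois extension -/

section Galois

variable {M : Type} [Field M] [NumberField M] [IsGalois ℚ M]

/-- the restriction of the automorphisms of `ℚ̄` to `M` -/
theorem exists_res (M : Type) [Field M] [NumberField M] [IsGalois ℚ M] :
    ∃ (i : M →+* AlgebraicClosure ℚ) (ρ : GQ →* (M ≃ₐ[ℚ] M)),
      Function.Surjective ρ ∧ ∀ σ x, i (ρ σ x) = σ (i x) := by
  let i : M →ₐ[ℚ] AlgebraicClosure ℚ := IsAlgClosed.lift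
  let _ : Algebra M (AlgebraicClosure ℚ) := i.toRingHom.toAlgebra
  have : IsScalarTower ℚ M (AlgebraicClosure ℚ) :=
    IsScalarTower.of_algebraMap_eq' i.comp_algebraMap.symm
  exact ⟨i, AlgEquiv.restrictNormalHom M, AlgEquiv.restrictNormalHom_surjective _,
    fun σ x => AlgEquiv.restrictNormal_commutes σ M x⟩

omit [IsGalois ℚ M] in
theorem fix_iff {i : M →+* AlgebraicClosure ℚ} {ρ : GQ →* (M ≃ₐ[ℚ] M)}
    (h : ∀ σ x, i (ρ σ x) = σ (i x)) (E : IntermediateField ℚ M) (σ : GQ) :
    (∀ x : E, σ (i x) = i x) ↔ ρ σ ∈ E.fixingSubgroup := by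
  rw [IntermediateField.mem_fixingSubgroup_iff]
  constructor
  · intro H x hx
    apply i.injective
    rw [h]
    exact H ⟨x, hx⟩
  · intro H x
    rw [← h, H x x.2]

/-- a subfield and its fixing group -/
def ffOf {i : M →+* AlgebraicClosure ℚ} {ρ : GQ →* (M ≃ₐ[ℚ] M)}
    (h : ∀ σ x, i (ρ σ x) = σ (i x)) (E : IntermediateField ℚ M) :
    FixField ρ E.fixingSubgroup where
  F := E
  i := i.comp (algebraMap E M)
  fix σ := fix_iff h E σ

/-- the field itself -/
def ffTop {i : M →+* AlgebraicClosure ℚ} {ρ : GQ →* (M ≃ₐ[ℚ] M)}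
    (h : ∀ σ x, i (ρ σ x) = σ (i x)) : FixField ρ (⊥ : Subgroup (M ≃ₐ[ℚ] M)) where
  F := M
  i := i
  fix σ := by
    rw [Subgroup.mem_bot]
    constructor
    · intro H
      ext x
      apply i.injective
      rw [h]
      exact H x
    · intro H x
      rw [← h, H]
      rfl

/-- **Brauer relations** for subfields of a Galois extension `M` of `ℚ`: if the sums of the
permutation characters of `Gal(M/ℚ)` on the cosets of `Gal(M/E i)` and of `Gal(M/E' j)` are equal,
then the products of the zeta functions, of the absolute values of the discriminants and of the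
numbers `h R / w` are equal. -/
theorem brauer_galois {ι κ : Type*} [Fintype ι] [Fintype κ] (E : ι → IntermediateField ℚ M)
    (E' : κ → IntermediateField ℚ M) (h : ∀ g : M ≃ₐ[ℚ] M,
      ∑ i, Nat.card {x : (M ≃ₐ[ℚ] M) ⧸ (E i).fixingSubgroup // g • x = x} =
        ∑ i, Nat.card {x : (M ≃ₐ[ℚ] M) ⧸ (E' i).fixingSubgroup // g • x = x}) :
    (∀ s : ℂ, s ≠ 1 → ∏ i, zetaK (E i) s = ∏ i, zetaK (E' i) s) ∧
    ∏ i, |discr (E i)| = ∏ i, |discr (E' i)| ∧
    ∏ i, (classNumber (E i) : ℝ) * regulator (E i) / torsionOrder (E i) =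
      ∏ i, (classNumber (E' i) : ℝ) * regulator (E' i) / torsionOrder (E' i) := by
  obtain ⟨i, ρ, hs, hi⟩ := exists_res M
  exact brauer_group hs (fun j => ffOf hi (E j)) (fun j => ffOf hi (E' j)) h

/-- **Dirichlet's relation for biquadratic fields** (Dirichlet 1842): `M` a Galois field of degree four
with three different quadratic subfields. -/
theorem biquadratic_galois (hM : finrank ℚ M = 4) {K₁ K₂ K₃ : IntermediateField ℚ M}
    (h1 : finrank ℚ K₁ = 2) (h2 : finrank ℚ K₂ = 2) (h3 : finrank ℚ K₃ = 2) (h12 : K₁ ≠ K₂)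
    (h13 : K₁ ≠ K₃) (h23 : K₂ ≠ K₃) :
    (∀ s : ℂ, s ≠ 1 → zetaK M s * riemannZeta s ^ 2 = zetaK K₁ s * zetaK K₂ s * zetaK K₃ s) ∧
    |discr M| = |discr K₁| * |discr K₂| * |discr K₃| ∧
    (classNumber M : ℝ) * regulator M / torsionOrder M =
      4 * ((classNumber K₁ : ℝ) * regulator K₁ / torsionOrder K₁) *
        ((classNumber K₂ : ℝ) * regulator K₂ / torsionOrder K₂) *
        ((classNumber K₃ : ℝ) * regulator K₃ / torsionOrder K₃) := by
  obtain ⟨i, ρ, hs, hi⟩ := exists_res M
  have hinj : Function.Injective (fun K : IntermediateField ℚ M => K.fixingSubgroup) :=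
    fun K K' h => by
      rw [← IsGalois.fixedField_fixingSubgroup K, ← IsGalois.fixedField_fixingSubgroup K']
      exact congrArg _ h
  have hc : ∀ K : IntermediateField ℚ M, finrank ℚ K = 2 → Nat.card K.fixingSubgroup = 2 := by
    intro K hK
    rw [IsGalois.card_fixingSubgroup_eq_finrank]
    have := finrank_mul_finrank ℚ K M
    rw [hK, hM] at this
    omega
  have hG : Nat.card (M ≃ₐ[ℚ] M) = 4 := by rw [IsGalois.card_aut_eq_finrank, hM]
  refine biquadratic (M := M) (K₁ := K₁) (K₂ := K₂) (K₃ := K₃) fun σ => ?_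
  have c0 := (ffTop hi).card_fixed hs σ
  have c1 := (ffOf hi K₁).card_fixed hs σ
  have c2 := (ffOf hi K₂).card_fixed hs σ
  have c3 := (ffOf hi K₃).card_fixed hs σ
  have key := pH_klein hG (hc _ h1) (hc _ h2) (hc _ h3) (fun h => h12 (hinj h))
    (fun h => h13 (hinj h)) (fun h => h23 (hinj h)) (ρ σ)
  rw [← c0, ← c1, ← c2, ← c3] at key
  exact key

/-- **Dedekind's relation**: `M` a Galois field of degree six, `K` a cubic subfield which is not
Galois over `ℚ`, `k` the quadratic subfield. -/
theorem cubic_galois (hM : finrank ℚ M = 6) {K k : IntermediateField ℚ M}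
    (hK : finrank ℚ K = 3) (hK' : ¬ IsGalois ℚ K) (hk : finrank ℚ k = 2) :
    (∀ s : ℂ, s ≠ 1 → zetaK M s * riemannZeta s ^ 2 = zetaK K s ^ 2 * zetaK k s) ∧
    |discr M| = |discr K| ^ 2 * |discr k| ∧
    (classNumber M : ℝ) * regulator M / torsionOrder M =
      4 * ((classNumber K : ℝ) * regulator K / torsionOrder K) ^ 2 *
        ((classNumber k : ℝ) * regulator k / torsionOrder k) := by
  obtain ⟨i, ρ, hs, hi⟩ := exists_res M
  have hcK : Nat.card K.fixingSubgroup = 2 := by
    rw [IsGalois.card_fixingSubgroup_eq_finrank]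
    have := finrank_mul_finrank ℚ K M
    rw [hK, hM] at this
    omega
  have hck : Nat.card k.fixingSubgroup = 3 := by
    rw [IsGalois.card_fixingSubgroup_eq_finrank]
    have := finrank_mul_finrank ℚ k M
    rw [hk, hM] at this
    omega
  have hG : Nat.card (M ≃ₐ[ℚ] M) = 6 := by rw [IsGalois.card_aut_eq_finrank, hM]
  have hn : ¬ K.fixingSubgroup.Normal := fun h => hK' ((InfiniteGalois.normal_iff_isGalois K).mp h)
  refine cubic (M := M) (K := K) (k := k) fun σ => ?_
  have c0 := (ffTop hi).card_fixed hs σ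
  have c1 := (ffOf hi K).card_fixed hs σ
  have c2 := (ffOf hi k).card_fixed hs σ
  have key := pH_S3 hG hcK hn hck (ρ σ)
  rw [← c0, ← c1, ← c2] at key
  exact key

end Galois

end Fermat.Agent.Cor.Brauer

end
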