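import Mathlib

/-!
# The Riemann zeta function is negative on `(0, 1)`

Piece (S4) of the block SIEGEL.  For `Re s > 0` we have
`ζ(s) = 1 / (s - 1) + 1 - s ∫_1^∞ {t} t^(-s-1) dt`; hence `1 / (σ - 1) ≤ ζ(σ) ≤ σ / (σ - 1)` for
all real `σ > 0`, `σ ≠ 1`, and in particular `ζ(σ) < 0` for `0 < σ < 1`.
-/

set_option autoImplicit false

noncomputable section

open Complex Filter Set MeasureTheory
open scoped Topology ComplexConjugate

namespace Fermat.Agent.Cor.Siegel

/-- The fractional part of `t`, for `t > 1`. -/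
def fr (t : ℝ) : ℂ := (Ioi (1 : ℝ)).indicator (fun t => ((Int.fract t : ℝ) : ℂ)) t

theorem measurable_fr : Measurable fr := by
  refine Measurable.indicator ?_ measurableSet_Ioi
  exact measurable_ofReal.comp measurable_fract

theorem norm_fr_le (t : ℝ) : ‖fr t‖ ≤ 1 := by
  rw [fr]
  refine (norm_indicator_le_norm_self _ _).trans ?_
  rw [norm_real, Real.norm_eq_abs, abs_of_nonneg (Int.fract_nonneg t)]
  exact (Int.fract_lt_one t).le

theorem locInt_fr : LocallyIntegrableOn fr (Ioi 0) := by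
  have h : LocallyIntegrable fr := by
    refine (locallyIntegrable_const (1 : ℝ)).mono measurable_fr.aestronglyMeasurable ?_
    filter_upwards with t
    simpa using norm_fr_le t
  exact h.locallyIntegrableOn _

/-- `∫_1^∞ {t} t^(-s-1) dt` -/
def G (s : ℂ) : ℂ := mellin fr (-s)

theorem differentiableAt_G {s : ℂ} (hs : 0 < s.re) : DifferentiableAt ℂ G s := by
  have h : DifferentiableAt ℂ (mellin fr) (-s) := by
    refine mellin_differentiableAt_of_isBigO_rpow (a := 0) (b := (-s).re - 1) locInt_fr ?_ ?_ ?_ ?_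
    · refine Asymptotics.IsBigO.of_bound 1 ?_
      filter_upwards with t
      simpa using norm_fr_le t
    · simpa using hs
    · refine Asymptotics.IsBigO.of_bound 1 ?_
      have h1 : ∀ᶠ t : ℝ in 𝓝[>] 0, t < 1 :=
        (eventually_lt_nhds (by norm_num : (0 : ℝ) < 1)).filter_mono nhdsWithin_le_nhds
      filter_upwards [h1] with t ht
      rw [fr, indicator_of_notMem (by simpa using ht.le), norm_zero]
      positivity
    · simp
  exact DifferentiableAt.comp s h differentiableAt_id.neg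

theorem G_eq_integral (s : ℂ) :
    G s = ∫ t in Ioi (1 : ℝ), ((Int.fract t : ℝ) : ℂ) * (t : ℂ) ^ (-(s + 1)) := by
  have h1 : G s = ∫ t in Ioi (0 : ℝ), (Ioi (1 : ℝ)).indicator
      (fun t => ((Int.fract t : ℝ) : ℂ) * (t : ℂ) ^ (-(s + 1))) t := by
    rw [G, mellin]
    refine setIntegral_congr_fun measurableSet_Ioi fun t _ => ?_
    have e : -s - 1 = -(s + 1) := by ring
    simp only [fr, indicator, smul_eq_mul, e]
    split_ifs
    · ring
    · simp
  rw [h1, setIntegral_indicator measurableSet_Ioi]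
  congr 2
  ext x
  simp only [mem_inter_iff, mem_Ioi, and_iff_right_iff_imp]
  intro h
  linarith

theorem zeta_eq_of_one_lt {s : ℂ} (hs : 1 < s.re) : riemannZeta₀ s = 1 - s * G s := by
  have hs1 : s ≠ 1 := by
    rintro rfl
    simp at hs
  have hs0 : s - 1 ≠ 0 := sub_ne_zero.mpr hs1
  have hO : (fun n : ℕ => ∑ k ∈ Finset.Icc 1 n, (1 : ℕ → ℂ) k) =O[atTop]
      fun n : ℕ => (n : ℝ) ^ (1 : ℝ) := by
    refine Asymptotics.IsBigO.of_bound 1 ?_
    filter_upwards with n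
    simp
  have h := LSeries_eq_mul_integral (1 : ℕ → ℂ) zero_le_one hs
    (LSeriesSummable_one_iff.mpr hs) hO
  rw [LSeries_one_eq_riemannZeta hs] at h
  have hint : IntegrableOn (fun t : ℝ => (t : ℂ) ^ (-s)) (Ioi 1) :=
    integrableOn_Ioi_cpow_of_lt (by simpa using hs) zero_lt_one
  have hfrac : IntegrableOn (fun t : ℝ => ((Int.fract t : ℝ) : ℂ) * (t : ℂ) ^ (-(s + 1)))
      (Ioi 1) := by
    have h1 : IntegrableOn (fun t : ℝ => (t : ℂ) ^ (-(s + 1))) (Ioi 1) :=
      integrableOn_Ioi_cpow_of_lt (by simp; linarith) zero_lt_one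
    refine Integrable.bdd_mul (c := 1) h1 ?_ ?_
    · exact (measurable_ofReal.comp measurable_fract).aestronglyMeasurable
    · filter_upwards with t
      rw [norm_real, Real.norm_eq_abs, abs_of_nonneg (Int.fract_nonneg t)]
      exact (Int.fract_lt_one t).le
  have hsum : ∫ t in Ioi (1 : ℝ), (∑ k ∈ Finset.Icc 1 ⌊t⌋₊, (1 : ℕ → ℂ) k) *
      (t : ℂ) ^ (-(s + 1)) = (∫ t in Ioi (1 : ℝ), (t : ℂ) ^ (-s)) - G s := by
    rw [G_eq_integral, ← integral_sub hint hfrac]
    refine setIntegral_congr_fun measurableSet_Ioi fun t ht => ?_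
    have ht0 : (0 : ℝ) < t := lt_trans zero_lt_one ht
    have ht0' : (t : ℂ) ≠ 0 := by exact_mod_cast ht0.ne'
    have e1 : (∑ k ∈ Finset.Icc 1 ⌊t⌋₊, (1 : ℕ → ℂ) k) = ((⌊t⌋₊ : ℕ) : ℂ) := by simp
    have e2 : ((⌊t⌋₊ : ℕ) : ℂ) = (t : ℂ) - ((Int.fract t : ℝ) : ℂ) := by
      have h2 : ((⌊t⌋₊ : ℕ) : ℝ) = t - Int.fract t := by
        rw [natCast_floor_eq_intCast_floor ht0.le]
        rw [Int.fract]
        ring
      rw [← ofReal_natCast, h2, ofReal_sub]
    have e3 : (t : ℂ) ^ (-s) = (t : ℂ) * (t : ℂ) ^ (-(s + 1)) := by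
      have : -s = 1 + -(s + 1) := by ring
      conv_lhs => rw [this, cpow_add _ _ ht0', cpow_one]
    simp only [e1, e2, e3]
    ring
  rw [hsum, integral_Ioi_cpow_of_lt (by simpa using hs) zero_lt_one] at h
  have hs2 : -s + 1 ≠ 0 := by
    intro h0
    exact hs0 (by linear_combination -h0)
  rw [riemannZeta_eq_inv_sub_add hs1] at h
  simp only [ofReal_one, one_cpow] at h
  have h3 : s * (-1 / (-s + 1)) = 1 + (s - 1)⁻¹ := by
    field_simp
    ring
  linear_combination h + h3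

theorem riemannZeta₀_eq {s : ℂ} (hs : 0 < s.re) : riemannZeta₀ s = 1 - s * G s := by
  have hU : IsOpen {s : ℂ | 0 < s.re} := isOpen_lt continuous_const continuous_re
  have h1 : AnalyticOnNhd ℂ riemannZeta₀ {s : ℂ | 0 < s.re} :=
    differentiable_riemannZeta₀.differentiableOn.analyticOnNhd hU
  have h2 : AnalyticOnNhd ℂ (fun s => 1 - s * G s) {s : ℂ | 0 < s.re} := by
    refine DifferentiableOn.analyticOnNhd (fun s hs => ?_) hU
    refine DifferentiableAt.differentiableWithinAt ?_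
    exact (differentiableAt_const _).sub (differentiableAt_id.mul (differentiableAt_G hs))
  refine h1.eqOn_of_preconnected_of_eventuallyEq h2 (convex_halfSpace_re_gt 0).isPreconnected
    (z₀ := 2) (by simp) ?_ hs
  filter_upwards [(isOpen_lt continuous_const continuous_re).mem_nhds
    (by norm_num : (1 : ℝ) < (2 : ℂ).re)] with z hz
  exact zeta_eq_of_one_lt hz

/-- **The formula for `ζ` on `Re s > 0`.** -/
theorem riemannZeta_eq {s : ℂ} (hs : 0 < s.re) (hs1 : s ≠ 1) :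
    riemannZeta s = 1 / (s - 1) + 1 -
      s * ∫ t in Ioi (1 : ℝ), ((Int.fract t : ℝ) : ℂ) * (t : ℂ) ^ (-(s + 1)) := by
  rw [riemannZeta_eq_inv_sub_add hs1, riemannZeta₀_eq hs, G_eq_integral, one_div]
  ring

/-- The integral for a real argument. -/
def Gr (σ : ℝ) : ℝ := ∫ t in Ioi (1 : ℝ), Int.fract t * t ^ (-(σ + 1))

theorem G_ofReal (σ : ℝ) : G σ = (Gr σ : ℂ) := by
  rw [G_eq_integral, Gr, ← integral_complex_ofReal]
  refine setIntegral_congr_fun measurableSet_Ioi fun t ht => ?_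
  have ht0 : (0 : ℝ) ≤ t := (lt_trans zero_lt_one ht).le
  simp only [ofReal_mul]
  congr 1
  have e : (-((σ : ℂ) + 1)) = ((-(σ + 1) : ℝ) : ℂ) := by push_cast; ring
  rw [e]
  exact (ofReal_cpow ht0 _).symm

theorem Gr_nonneg (σ : ℝ) : 0 ≤ Gr σ := by
  refine setIntegral_nonneg measurableSet_Ioi fun t ht => ?_
  have ht0 : (0 : ℝ) ≤ t := (lt_trans zero_lt_one ht).le
  exact mul_nonneg (Int.fract_nonneg t) (Real.rpow_nonneg ht0 _)

theorem Gr_le {σ : ℝ} (hσ : 0 < σ) : Gr σ ≤ 1 / σ := by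
  have hint : IntegrableOn (fun t : ℝ => t ^ (-(σ + 1))) (Ioi 1) :=
    integrableOn_Ioi_rpow_of_lt (by linarith) zero_lt_one
  have h1 : ∫ t in Ioi (1 : ℝ), t ^ (-(σ + 1)) = 1 / σ := by
    rw [integral_Ioi_rpow_of_lt (by linarith) zero_lt_one, Real.one_rpow]
    have : -(σ + 1) + 1 = -σ := by ring
    rw [this]
    field_simp
  rw [← h1, Gr]
  have hfr : IntegrableOn (fun t : ℝ => Int.fract t * t ^ (-(σ + 1))) (Ioi 1) := by
    refine Integrable.bdd_mul (c := 1) hint ?_ ?_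
    · exact measurable_fract.aestronglyMeasurable
    · filter_upwards with t
      rw [Real.norm_eq_abs, abs_of_nonneg (Int.fract_nonneg t)]
      exact (Int.fract_lt_one t).le
  refine setIntegral_mono_on hfr hint measurableSet_Ioi fun t ht => ?_
  have ht0 : (0 : ℝ) ≤ t := (lt_trans zero_lt_one ht).le
  exact mul_le_of_le_one_left (Real.rpow_nonneg ht0 _) (Int.fract_lt_one t).le

theorem riemannZeta_ofReal {σ : ℝ} (hσ : 0 < σ) (hσ1 : σ ≠ 1) :
    riemannZeta σ = ((1 / (σ - 1) + 1 - σ * Gr σ : ℝ) : ℂ) := by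
  have h1 : (σ : ℂ) ≠ 1 := by exact_mod_cast hσ1
  rw [riemannZeta_eq_inv_sub_add h1, riemannZeta₀_eq (by simpa using hσ), G_ofReal]
  push_cast
  ring

/-- `ζ` is real on the real axis. -/
theorem riemannZeta_im (σ : ℝ) : (riemannZeta σ).im = 0 := by
  have h := riemannZeta_conj (σ : ℂ)
  rw [conj_ofReal] at h
  exact conj_eq_iff_im.mp h.symm

theorem riemannZeta_re_le {σ : ℝ} (hσ : 0 < σ) (hσ1 : σ ≠ 1) :
    (riemannZeta σ).re ≤ σ / (σ - 1) := by
  rw [riemannZeta_ofReal hσ hσ1, ofReal_re]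
  have h0 : σ - 1 ≠ 0 := sub_ne_zero.mpr hσ1
  have h1 : σ / (σ - 1) = 1 / (σ - 1) + 1 := by
    field_simp
    ring
  have h2 : 0 ≤ σ * Gr σ := mul_nonneg hσ.le (Gr_nonneg σ)
  linarith

theorem le_riemannZeta_re {σ : ℝ} (hσ : 0 < σ) (hσ1 : σ ≠ 1) :
    1 / (σ - 1) ≤ (riemannZeta σ).re := by
  rw [riemannZeta_ofReal hσ hσ1, ofReal_re]
  have h2 : σ * Gr σ ≤ 1 := by
    calc σ * Gr σ ≤ σ * (1 / σ) := mul_le_mul_of_nonneg_left (Gr_le hσ) hσ.le
      _ = 1 := by field_simp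
  linarith

/-- **`ζ(σ) < 0` for `0 < σ < 1`.** -/
theorem riemannZeta_re_neg {σ : ℝ} (h0 : 0 < σ) (h1 : σ < 1) : (riemannZeta σ).re < 0 :=
  (riemannZeta_re_le h0 h1.ne).trans_lt (div_neg_of_pos_of_neg h0 (by linarith))

theorem riemannZeta_ne_zero_of_mem_Ioo {σ : ℝ} (h0 : 0 < σ) (h1 : σ < 1) :
    riemannZeta σ ≠ 0 := by
  intro h
  have := riemannZeta_re_neg h0 h1
  rw [h, zero_re] at this
  exact lt_irrefl _ this

end Fermat.Agent.Cor.Siegel

end
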