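import Fermat.Agent.Corollaries.Siegel.Bounds
import Fermat.Agent.Corollaries.Siegel.ZetaNeg

/-!
# Siegel's theorem for quadratic fields, from the relation of the biquadratic field
-/

set_option autoImplicit false

noncomputable section

open NumberField NumberField.InfinitePlace NumberField.Units Set Filter
open scoped Real Topology

namespace Fermat.Agent.Cor.Siegel

/-- The relation between the zeta functions of two quadratic fields, their third field and their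
compositum. -/
def RelStmt : Prop := ∀ (K₁ K₂ : Type) [Field K₁] [NumberField K₁] [Field K₂] [NumberField K₂],
  Module.finrank ℚ K₁ = 2 → Module.finrank ℚ K₂ = 2 →
    (∀ s : ℂ, s ≠ 1 → zetaK K₂ s = zetaK K₁ s) ∨
    ∃ (M K₃ : Type) (_ : Field M) (_ : NumberField M) (_ : Field K₃) (_ : NumberField K₃),
      Module.finrank ℚ M = 4 ∧ Module.finrank ℚ K₃ = 2 ∧
      (∀ s : ℂ, s ≠ 1 → zetaK M s * riemannZeta s ^ 2 =
        zetaK K₁ s * zetaK K₂ s * zetaK K₃ s) ∧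
      |discr M| = |discr K₁| * |discr K₂| * |discr K₃| ∧
      |discr K₃| ≤ 4 * (|discr K₁| * |discr K₂|)

theorem final_arith {D₁ D₂ D₃ HM H₁ H₂ H₃ b η C c₀ P : ℝ} (hD₁ : 1 ≤ D₁) (hD₂ : 1 ≤ D₂)
    (hD₃ : 1 ≤ D₃) (h3 : D₃ ≤ 4 * (D₁ * D₂)) (hb0 : 0 < b) (hb1 : b < 1) (hη : 0 < η)
    (hc : 0 < c₀) (hC : 0 < C) (hP : 0 < P) (hH₁ : 0 < H₁) (hH₂ : 0 < H₂)
    (hM : c₀ * (D₁ * D₂ * D₃) ^ (b / 2) ≤ HM) (hr : HM ≤ P * (H₁ * H₂ * H₃))
    (hu : H₃ ≤ C * D₃ ^ ((1 + η) / 2)) :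
    c₀ * D₂ ^ (b - (1 + η) / 2) ≤ P * H₁ * C * (4 * D₁) ^ ((1 + η - b) / 2) * H₂ := by
  have p1 : 0 < D₁ := zero_lt_one.trans_le hD₁
  have p2 : 0 < D₂ := zero_lt_one.trans_le hD₂
  have p3 : 0 < D₃ := zero_lt_one.trans_le hD₃
  have e1 : D₃ ^ ((1 + η) / 2) = D₃ ^ (b / 2) * D₃ ^ ((1 + η - b) / 2) := by
    rw [← Real.rpow_add p3]
    congr 1
    ring
  have e2 : D₂ ^ (b / 2) = D₂ ^ (b - (1 + η) / 2) * D₂ ^ ((1 + η - b) / 2) := by
    rw [← Real.rpow_add p2]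
    congr 1
    ring
  have e3 : (D₂ * D₃) ^ (b / 2) = D₂ ^ (b / 2) * D₃ ^ (b / 2) := Real.mul_rpow p2.le p3.le
  have e4 : (D₂ * D₃) ^ (b / 2) ≤ (D₁ * D₂ * D₃) ^ (b / 2) := by
    refine Real.rpow_le_rpow (by positivity) ?_ (by linarith)
    rw [mul_assoc]
    exact le_mul_of_one_le_left (by positivity) hD₁
  have e5 : D₃ ^ ((1 + η - b) / 2) ≤ (4 * D₁) ^ ((1 + η - b) / 2) * D₂ ^ ((1 + η - b) / 2) := by
    rw [← Real.mul_rpow (by positivity) p2.le]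
    refine Real.rpow_le_rpow p3.le (h3.trans_eq (by ring)) (by linarith)
  have a2 : 0 < D₂ ^ ((1 + η - b) / 2) := Real.rpow_pos_of_pos p2 _
  have a3 : 0 < D₃ ^ (b / 2) := Real.rpow_pos_of_pos p3 _
  have f1 : D₃ ^ (b / 2) * (c₀ * D₂ ^ (b / 2)) ≤
      D₃ ^ (b / 2) * (P * H₁ * C * D₃ ^ ((1 + η - b) / 2) * H₂) := by
    calc D₃ ^ (b / 2) * (c₀ * D₂ ^ (b / 2)) = c₀ * (D₂ * D₃) ^ (b / 2) := by rw [e3]; ring
      _ ≤ c₀ * (D₁ * D₂ * D₃) ^ (b / 2) := mul_le_mul_of_nonneg_left e4 hc.le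
      _ ≤ HM := hM
      _ ≤ P * (H₁ * H₂ * H₃) := hr
      _ ≤ P * (H₁ * H₂ * (C * D₃ ^ ((1 + η) / 2))) := by gcongr
      _ = _ := by rw [e1]; ring
  have f2 := le_of_mul_le_mul_left f1 a3
  have f3 : D₂ ^ ((1 + η - b) / 2) * (c₀ * D₂ ^ (b - (1 + η) / 2)) ≤
      D₂ ^ ((1 + η - b) / 2) * (P * H₁ * C * (4 * D₁) ^ ((1 + η - b) / 2) * H₂) := by
    calc D₂ ^ ((1 + η - b) / 2) * (c₀ * D₂ ^ (b - (1 + η) / 2)) = c₀ * D₂ ^ (b / 2) := by
          rw [e2]; ring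
      _ ≤ P * H₁ * C * D₃ ^ ((1 + η - b) / 2) * H₂ := f2
      _ ≤ P * H₁ * C * ((4 * D₁) ^ ((1 + η - b) / 2) * D₂ ^ ((1 + η - b) / 2)) * H₂ := by gcongr
      _ = _ := by ring
  exact le_of_mul_le_mul_left f3 a2

/-- **Siegel's theorem** for quadratic fields, from the relation. -/
theorem siegel_of (hrel : RelStmt) {ε : ℝ} (hε : 0 < ε) : ∃ c : ℝ, 0 < c ∧
    ∀ (K : Type) [Field K] [NumberField K], Module.finrank ℚ K = 2 →
      c * |(discr K : ℝ)| ^ (1 / 2 - ε) ≤ hk K := by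
  -- the auxiliary exponent
  obtain ⟨η, hη0, hη1, hηε⟩ : ∃ η : ℝ, 0 < η ∧ η < 1 ∧ 3 / 2 * η ≤ ε :=
    ⟨min ε 1 / 2, by positivity, by
      have := min_le_right ε 1
      linarith, by
      have := min_le_left ε 1
      have h0 : 0 < min ε 1 := lt_min hε one_pos
      linarith⟩
  have hpi : 0 < (2 * π ^ 2 : ℝ) := by positivity
  -- smaller exponents are harmless
  have hpow : ∀ (K : Type) [Field K] [NumberField K] {e : ℝ}, 1 / 2 - ε ≤ e →
      |(discr K : ℝ)| ^ (1 / 2 - ε) ≤ |(discr K : ℝ)| ^ e := fun K _ _ e he =>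
    Real.rpow_le_rpow_of_exponent_le (one_le_absDisc K) he
  by_cases hcase : ∀ (K : Type) [Field K] [NumberField K], Module.finrank ℚ K = 2 →
      ∀ x : ℝ, 1 - η ≤ x → x < 1 → zetaK K x ≠ 0
  · -- no real zero near `1`
    refine ⟨4 / 9 * ((1 - η) * (1 - (1 - η))) / (2 * π ^ 2) ^ 2, ?_, ?_⟩
    · have : 0 < 1 - η := by linarith
      have h' : 0 < 1 - (1 - η) := by linarith
      positivity
    · intro K _ _ hK
      have h1 := lower_of_no_zero K (b := 1 - η) (by linarith) (by linarith) (hcase K hK)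
      rw [hK] at h1
      refine le_trans (mul_le_mul_of_nonneg_left (hpow K (by linarith)) ?_) h1
      have : 0 < 1 - η := by linarith
      have h' : 0 < 1 - (1 - η) := by linarith
      positivity
  · -- a real zero near `1`
    push Not at hcase
    obtain ⟨K₁, _, _, hK₁, b, hb, hb1, hz⟩ := hcase
    have hb0 : 0 < b := by linarith
    have hbb : 0 < b * (1 - b) := mul_pos hb0 (by linarith)
    have hb1C : (b : ℂ) ≠ 1 := fun h => hb1.ne (by exact_mod_cast h)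
    obtain ⟨C, hC, hup⟩ := exists_upper.{0} 2 (σ := 1 + η) (by linarith)
    have hH₁ := hk_pos' K₁
    set c₁ : ℝ := 4 / 9 * (b * (1 - b)) / (2 * π ^ 2) ^ 2 with hc₁
    set c₀ : ℝ := 4 / 9 * (b * (1 - b)) / (2 * π ^ 2) ^ 4 with hc₀
    set Q : ℝ := π ^ 3 * hk K₁ * C * (4 * |(discr K₁ : ℝ)|) ^ ((1 + η - b) / 2) with hQ
    have hD₁ := one_le_absDisc K₁
    have hQ0 : 0 < Q := by
      have : 0 < (4 * |(discr K₁ : ℝ)|) ^ ((1 + η - b) / 2) :=
        Real.rpow_pos_of_pos (by linarith) _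
      positivity
    have hc₁0 : 0 < c₁ := by positivity
    have hc₀0 : 0 < c₀ := by positivity
    refine ⟨min c₁ (c₀ / Q), lt_min hc₁0 (div_pos hc₀0 hQ0), ?_⟩
    intro K _ _ hK
    have hDK : 0 < |(discr K : ℝ)| ^ (1 / 2 - ε) :=
      Real.rpow_pos_of_pos (zero_lt_one.trans_le (one_le_absDisc K)) _
    rcases hrel K₁ K hK₁ hK with h | ⟨M, K₃, _, _, _, _, hM4, hK₃, hzeta, hdM, hd₃⟩
    · -- `K` has the zeta function of `K₁`
      have h0 : (zetaK K b).re ≤ 0 := by rw [h b hb1C, hz, Complex.zero_re]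
      have h1 := lower_of_re_le K hb0 hb1 h0
      rw [hK] at h1
      calc min c₁ (c₀ / Q) * |(discr K : ℝ)| ^ (1 / 2 - ε)
          ≤ c₁ * |(discr K : ℝ)| ^ (1 / 2 - ε) :=
            mul_le_mul_of_nonneg_right (min_le_left _ _) hDK.le
        _ ≤ c₁ * |(discr K : ℝ)| ^ (b / 2) :=
            mul_le_mul_of_nonneg_left (hpow K (by linarith)) hc₁0.le
        _ ≤ _ := h1
    · -- the biquadratic field
      have hζ : riemannZeta (b : ℂ) ≠ 0 := riemannZeta_ne_zero_of_mem_Ioo hb0 hb1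
      have h0 : (zetaK M b).re ≤ 0 := by
        have h1 := hzeta b hb1C
        rw [hz, zero_mul, zero_mul] at h1
        rw [(mul_eq_zero.1 h1).resolve_right (pow_ne_zero 2 hζ), Complex.zero_re]
      have h1 := lower_of_re_le M hb0 hb1 h0
      rw [hM4] at h1
      have hdMR : |(discr M : ℝ)| = |(discr K₁ : ℝ)| * |(discr K : ℝ)| * |(discr K₃ : ℝ)| := by
        exact_mod_cast hdM
      have hd₃R : |(discr K₃ : ℝ)| ≤ 4 * (|(discr K₁ : ℝ)| * |(discr K : ℝ)|) := by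
        exact_mod_cast hd₃
      rw [hdMR] at h1
      have h2 := hk_rel_le hK₁ hK hK₃ hzeta hdM
      have h3 := hup K₃ hK₃
      have h4 := final_arith hD₁ (one_le_absDisc K) (one_le_absDisc K₃) hd₃R hb0 hb1 hη0 hc₀0 hC
        (pow_pos Real.pi_pos 3) hH₁ (hk_pos' K) h1 h2 h3
      calc min c₁ (c₀ / Q) * |(discr K : ℝ)| ^ (1 / 2 - ε)
          ≤ c₀ / Q * |(discr K : ℝ)| ^ (1 / 2 - ε) :=
            mul_le_mul_of_nonneg_right (min_le_right _ _) hDK.le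
        _ ≤ c₀ / Q * |(discr K : ℝ)| ^ (b - (1 + η) / 2) :=
            mul_le_mul_of_nonneg_left (hpow K (by linarith)) (div_pos hc₀0 hQ0).le
        _ ≤ hk K := by
            rw [div_mul_eq_mul_div, div_le_iff₀ hQ0]
            linarith

end Fermat.Agent.Cor.Siegel
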