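import Fermat.Agent.Corollaries.Siegel.Ineq

/-!
# Bounds for `h R / w`, and the residues of a relation of zeta functions

`exists_upper`: `h 2^(r₁+r₂) R / w ≤ C(n, σ) |d|^(σ/2)` for `σ > 1` and all number fields of
degree `n`; `lower_of_re_le`, `re_neg_of_no_zero`, `lower_of_no_zero` (Hecke);
`hk_rel_le`: the relation of the biquadratic field.
-/

set_option autoImplicit false

noncomputable section

open NumberField NumberField.InfinitePlace NumberField.Units MeasureTheory Set Filter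
open Fermat.Agent.Classic.Zeta
open scoped Real Topology

namespace Fermat.Agent.Cor.Siegel

universe u

/-- `h 2^(r₁+r₂) R / w` -/
def hk (K : Type u) [Field K] [NumberField K] : ℝ := classNumber K * clConst K

section One

variable (K : Type u) [Field K] [NumberField K]

theorem hk_pos' : 0 < hk K := hk_pos K

theorem nrReal_le : nrRealPlaces K ≤ Module.finrank ℚ K := by
  have := card_add_two_mul_card_eq_rank K
  omega

theorem nrComplex_le : nrComplexPlaces K ≤ Module.finrank ℚ K := by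
  have := card_add_two_mul_card_eq_rank K
  omega

theorem residue_eq_hk : dedekindZeta_residue K =
    (√|(discr K : ℝ)|)⁻¹ * π ^ nrComplexPlaces K * hk K := residue_eq_clConst K

/-- the zeta function is real on the positive real line -/
theorem zetaK_im {s : ℝ} (h0 : 0 < s) (h1 : s ≠ 1) : (zetaK K s).im = 0 := by
  have h0' : (s : ℂ) ≠ 0 := Complex.ofReal_ne_zero.2 h0.ne'
  have h1' : (s : ℂ) ≠ 1 := fun h => h1 (by exact_mod_cast h)
  have hg : gam K (s : ℂ) ≠ 0 := by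
    rw [gam_ofReal]
    exact Complex.ofReal_ne_zero.2 (gamR_pos K h0).ne'
  have h2 := J_spec K s
  rw [XiF_eq_LF _ h0' h1' hg, gam_ofReal] at h2
  have h5 : (((|(discr K : ℝ)| : ℝ) : ℂ)) ^ ((s : ℂ) / 2) =
      ((|(discr K : ℝ)| ^ (s / 2) : ℝ) : ℂ) := by
    rw [Complex.ofReal_cpow (abs_nonneg _)]
    push_cast
    rfl
  rw [h5] at h2
  have h3 : ((s * (1 - s) * J K s - classNumber K * clConst K : ℝ) : ℂ) =
      ((s * (1 - s) * (|(discr K : ℝ)| ^ (s / 2) * gamR K s) : ℝ) : ℂ) * zetaK K s := by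
    rw [zetaK]
    push_cast
    linear_combination h2
  have h4 := congrArg Complex.im h3
  rw [Complex.ofReal_im, Complex.im_ofReal_mul] at h4
  have h6 : s * (1 - s) * (|(discr K : ℝ)| ^ (s / 2) * gamR K s) ≠ 0 :=
    mul_ne_zero (mul_ne_zero h0.ne' (sub_ne_zero.2 (Ne.symm h1)))
      (mul_pos (Real.rpow_pos_of_pos (disc_pos K) _) (gamR_pos K h0)).ne'
  exact (mul_eq_zero.1 h4.symm).resolve_left h6

/-- to the left of `1` the zeta function is negative -/
theorem eventually_re_neg : ∀ᶠ s : ℝ in 𝓝[<] 1, (zetaK K s).re < 0 := by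
  have h1 : Tendsto (fun s : ℝ => (s : ℂ)) (𝓝[<] 1) (𝓝[≠] 1) := by
    refine tendsto_nhdsWithin_iff.2 ⟨?_, ?_⟩
    · have h := (Complex.continuous_ofReal.tendsto (1 : ℝ)).mono_left
        (nhdsWithin_le_nhds (s := Set.Iio 1))
      rwa [Complex.ofReal_one] at h
    · filter_upwards [self_mem_nhdsWithin] with s hs
      have h1 : s < (1 : ℝ) := hs
      simpa using h1.ne
  have h2 := (Complex.continuous_re.tendsto _).comp ((tendsto_sub_one_mul_zetaK K).comp h1)
  have h3 := h2.eventually_const_lt (show (0 : ℝ) < ((dedekindZeta_residue K : ℝ) : ℂ).re by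
    rw [Complex.ofReal_re]
    exact dedekindZeta_residue_pos K)
  filter_upwards [h3, self_mem_nhdsWithin] with s hs hs1
  have hs1' : s < (1 : ℝ) := hs1
  have h4 : (((s : ℂ) - 1) * zetaK K s).re = (s - 1) * (zetaK K s).re := by
    rw [show ((s : ℂ) - 1) = ((s - 1 : ℝ) : ℂ) by push_cast; ring, Complex.re_ofReal_mul]
  simp only [Function.comp_apply] at hs
  rw [h4] at hs
  by_contra hn
  have : (s - 1) * (zetaK K s).re ≤ 0 :=
    mul_nonpos_of_nonpos_of_nonneg (by linarith) (not_lt.1 hn)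
  linarith

/-- no real zero on `[b, 1)` implies `ζ_K(b) < 0` -/
theorem re_neg_of_no_zero {b : ℝ} (h0 : 0 < b) (h1 : b < 1)
    (hz : ∀ x : ℝ, b ≤ x → x < 1 → zetaK K x ≠ 0) : (zetaK K b).re < 0 := by
  by_contra hn
  rw [not_lt] at hn
  obtain ⟨x, hx, hbx, hx1⟩ : ∃ x : ℝ, (zetaK K x).re < 0 ∧ b < x ∧ x < 1 := by
    have h2 : ∀ᶠ s : ℝ in 𝓝[<] 1, b < s ∧ s < 1 :=
      Ioo_mem_nhdsLT h1
    obtain ⟨x, hx⟩ := ((eventually_re_neg K).and h2).exists
    exact ⟨x, hx.1, hx.2.1, hx.2.2⟩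
  have hcont : ContinuousOn (fun s : ℝ => (zetaK K s).re) (Icc b x) := by
    intro s hs
    have hs1 : (s : ℂ) ≠ 1 := by
      have : s < 1 := hs.2.trans_lt hx1
      intro h
      exact this.ne (by exact_mod_cast h)
    have h3 : ContinuousAt (zetaK K) (s : ℂ) :=
      (differentiableAt_LF (K := K) (fun _ => 1) hs1).continuousAt
    exact (Complex.continuous_re.continuousAt.comp
      (h3.comp (f := fun s : ℝ => (s : ℂ)) Complex.continuous_ofReal.continuousAt)).continuousWithinAt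
  obtain ⟨y, hy, hy0⟩ := intermediate_value_Icc' hbx.le hcont ⟨hx.le, hn⟩
  have hy1 : y < 1 := hy.2.trans_lt hx1
  exact hz y hy.1 hy1 (Complex.ext hy0 (zetaK_im K (h0.trans_le hy.1) hy1.ne))

/-- **Lower bound** for all number fields of degree `n`. -/
theorem lower_of_re_le {b : ℝ} (h0 : 0 < b) (h1 : b < 1) (hb : (zetaK K b).re ≤ 0) :
    4 / 9 * (b * (1 - b)) / (2 * π ^ 2) ^ Module.finrank ℚ K * |(discr K : ℝ)| ^ (b / 2) ≤
      hk K := by
  refine le_trans ?_ (siegel_ineq K h0 h1 hb)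
  have hpi := Real.pi_gt_three
  have h2 : π ^ nrRealPlaces K * (2 * π ^ 2) ^ nrComplexPlaces K ≤
      (2 * π ^ 2) ^ Module.finrank ℚ K := by
    have h3 : π ^ nrRealPlaces K ≤ (2 * π ^ 2) ^ nrRealPlaces K :=
      pow_le_pow_left₀ (by positivity) (by nlinarith) _
    calc π ^ nrRealPlaces K * (2 * π ^ 2) ^ nrComplexPlaces K
        ≤ (2 * π ^ 2) ^ nrRealPlaces K * (2 * π ^ 2) ^ nrComplexPlaces K := by gcongr
      _ = (2 * π ^ 2) ^ (nrRealPlaces K + nrComplexPlaces K) := by rw [pow_add]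
      _ ≤ _ := pow_le_pow_right₀ (by nlinarith) (by
          have := card_add_two_mul_card_eq_rank K
          omega)
  have hbb : 0 < b * (1 - b) := mul_pos h0 (sub_pos.2 h1)
  rw [div_mul_eq_mul_div]
  exact div_le_div_of_nonneg_left (by positivity) (by positivity) h2

/-- **Hecke's theorem**: no real zero on `[b, 1)`. -/
theorem lower_of_no_zero {b : ℝ} (h0 : 0 < b) (h1 : b < 1)
    (hz : ∀ x : ℝ, b ≤ x → x < 1 → zetaK K x ≠ 0) :
    4 / 9 * (b * (1 - b)) / (2 * π ^ 2) ^ Module.finrank ℚ K * |(discr K : ℝ)| ^ (b / 2) ≤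
      hk K :=
  lower_of_re_le K h0 h1 (re_neg_of_no_zero K h0 h1 hz).le

end One

/-- **Upper bound** for all number fields of degree `n`. -/
theorem exists_upper (n : ℕ) {σ : ℝ} (hσ : 1 < σ) : ∃ C : ℝ, 0 < C ∧
    ∀ (K : Type u) [Field K] [NumberField K], Module.finrank ℚ K = n →
      hk K ≤ C * |(discr K : ℝ)| ^ (σ / 2) := by
  have hσ0 : 0 < σ := zero_lt_one.trans hσ
  set a : ℝ := max 1 (π ^ (-σ / 2) * Real.Gamma (σ / 2)) with ha
  set b : ℝ := max 1 (2 * (2 * π) ^ (-σ) * Real.Gamma σ) with hb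
  have ha1 : 1 ≤ a := le_max_left _ _
  have hb1 : 1 ≤ b := le_max_left _ _
  refine ⟨σ * (σ - 1) * (a ^ n * b ^ n) * (σ / (σ - 1)) ^ n, ?_, ?_⟩
  · have : 0 < σ - 1 := sub_pos.2 hσ
    positivity
  · intro K _ _ hK
    have h1 := class_le K hσ
    have h2 := norm_dedekindZeta_le_div K hσ
    rw [norm_dedekindZeta_eq_re K hσ, hK] at h2
    have hG1 := Real.Gamma_pos_of_pos (half_pos hσ0)
    have hG2 := Real.Gamma_pos_of_pos hσ0
    have h3 : gamR K σ ≤ a ^ n * b ^ n := by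
      unfold gamR
      have h4 : (π ^ (-σ / 2) * Real.Gamma (σ / 2)) ^ nrRealPlaces K ≤ a ^ n :=
        (pow_le_pow_left₀ (by positivity) (le_max_right _ _) _).trans
          (pow_le_pow_right₀ ha1 (hK ▸ nrReal_le K))
      have h5 : (2 * (2 * π) ^ (-σ) * Real.Gamma σ) ^ nrComplexPlaces K ≤ b ^ n :=
        (pow_le_pow_left₀ (by positivity) (le_max_right _ _) _).trans
          (pow_le_pow_right₀ hb1 (hK ▸ nrComplex_le K))
      exact mul_le_mul h4 h5 (by positivity) (by positivity)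
    have hs : 0 < σ * (σ - 1) := mul_pos hσ0 (sub_pos.2 hσ)
    have hD : 0 < |(discr K : ℝ)| ^ (σ / 2) := Real.rpow_pos_of_pos (disc_pos K) _
    have hz0 : 0 ≤ (dedekindZeta K (σ : ℂ)).re := zero_le_one.trans (one_le_re_dedekindZeta K hσ)
    calc hk K ≤ _ := h1
      _ ≤ σ * (σ - 1) * (|(discr K : ℝ)| ^ (σ / 2) * (a ^ n * b ^ n) * (σ / (σ - 1)) ^ n) := by
          refine mul_le_mul_of_nonneg_left ?_ hs.le
          refine mul_le_mul ?_ h2 hz0 (by positivity)
          exact mul_le_mul_of_nonneg_left h3 hD.le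
      _ = _ := by ring

/-! ### The relation of the biquadratic field -/

section Rel

variable {M K₁ K₂ K₃ : Type u} [Field M] [NumberField M] [Field K₁] [NumberField K₁]
  [Field K₂] [NumberField K₂] [Field K₃] [NumberField K₃]

theorem residue_rel (h : ∀ s : ℂ, s ≠ 1 → zetaK M s * riemannZeta s ^ 2 =
    zetaK K₁ s * zetaK K₂ s * zetaK K₃ s) :
    dedekindZeta_residue M =
      dedekindZeta_residue K₁ * dedekindZeta_residue K₂ * dedekindZeta_residue K₃ := by
  have h1 := (tendsto_sub_one_mul_zetaK M).mul (riemannZeta_residue_one.pow 2)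
  have h2 := ((tendsto_sub_one_mul_zetaK K₁).mul (tendsto_sub_one_mul_zetaK K₂)).mul
    (tendsto_sub_one_mul_zetaK K₃)
  have h3 : Tendsto (fun s : ℂ => (s - 1) * zetaK M s * ((s - 1) * riemannZeta s) ^ 2) (𝓝[≠] 1)
      (𝓝 ((dedekindZeta_residue K₁ : ℂ) * dedekindZeta_residue K₂ * dedekindZeta_residue K₃)) := by
    refine h2.congr' ?_
    filter_upwards [self_mem_nhdsWithin] with s hs
    have := h s hs
    linear_combination -(s - 1) ^ 3 * this
  have h4 := tendsto_nhds_unique h1 h3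
  rw [one_pow, mul_one] at h4
  exact_mod_cast h4

theorem hk_rel_le (h₁ : Module.finrank ℚ K₁ = 2) (h₂ : Module.finrank ℚ K₂ = 2)
    (h₃ : Module.finrank ℚ K₃ = 2)
    (h : ∀ s : ℂ, s ≠ 1 → zetaK M s * riemannZeta s ^ 2 =
      zetaK K₁ s * zetaK K₂ s * zetaK K₃ s)
    (hd : |discr M| = |discr K₁| * |discr K₂| * |discr K₃|) :
    hk M ≤ π ^ 3 * (hk K₁ * hk K₂ * hk K₃) := by
  have h1 := residue_rel h
  rw [residue_eq_hk, residue_eq_hk, residue_eq_hk, residue_eq_hk] at h1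
  have hdR : |(discr M : ℝ)| = |(discr K₁ : ℝ)| * |(discr K₂ : ℝ)| * |(discr K₃ : ℝ)| := by
    exact_mod_cast hd
  have hs : √|(discr M : ℝ)| = √|(discr K₁ : ℝ)| * √|(discr K₂ : ℝ)| * √|(discr K₃ : ℝ)| := by
    rw [hdR, Real.sqrt_mul (by positivity), Real.sqrt_mul (by positivity)]
  have p1 : 0 < √|(discr K₁ : ℝ)| := Real.sqrt_pos.2 (disc_pos K₁)
  have p2 : 0 < √|(discr K₂ : ℝ)| := Real.sqrt_pos.2 (disc_pos K₂)
  have p3 : 0 < √|(discr K₃ : ℝ)| := Real.sqrt_pos.2 (disc_pos K₃)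
  have q1 := hk_pos' K₁
  have q2 := hk_pos' K₂
  have q3 := hk_pos' K₃
  have qM := hk_pos' M
  rw [hs] at h1
  have h2 : π ^ nrComplexPlaces M * hk M = π ^ nrComplexPlaces K₁ * π ^ nrComplexPlaces K₂ *
      π ^ nrComplexPlaces K₃ * (hk K₁ * hk K₂ * hk K₃) := by
    field_simp at h1
    linarith
  have hpi : (1 : ℝ) ≤ π := by linarith [Real.pi_gt_three]
  have hr : ∀ (K : Type u) [Field K] [NumberField K], Module.finrank ℚ K = 2 →
      π ^ nrComplexPlaces K ≤ π := by
    intro K _ _ hK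
    have := card_add_two_mul_card_eq_rank K
    calc π ^ nrComplexPlaces K ≤ π ^ 1 := pow_le_pow_right₀ hpi (by omega)
      _ = π := pow_one _
  have r1 := hr K₁ h₁
  have r2 := hr K₂ h₂
  have r3 := hr K₃ h₃
  have hM : 1 ≤ π ^ nrComplexPlaces M := one_le_pow₀ hpi
  calc hk M ≤ π ^ nrComplexPlaces M * hk M := le_mul_of_one_le_left qM.le hM
    _ = _ := h2
    _ ≤ π * π * π * (hk K₁ * hk K₂ * hk K₃) := by gcongr
    _ = _ := by ring

end Rel

end Fermat.Agent.Cor.Siegel
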