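import Fermat.Agent.Corollaries.Siegel.Final
import Fermat.Agent.Corollaries.Siegel.Even

/-!
# Chowla's theorem on the number of classes in a genus

`chowla_of`: if the class group of an imaginary quadratic field of discriminant `d` has at most
`2^ω(d)` elements of order at most two (genus theory), then there are only finitely many imaginary
quadratic fields with at most `N` squares in the class group, i.e. with at most `N` classes per
genus. In particular only finitely many have a class group of exponent at most two.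
-/

set_option autoImplicit false

noncomputable section

open NumberField NumberField.InfinitePlace Set Filter

namespace Fermat.Agent.Cor.Siegel

/-- The bound of genus theory for the number of classes of order at most two. -/
def GenusStmt : Prop := ∀ (K : Type) [Field K] [NumberField K] [IsTotallyComplex K],
  Module.finrank ℚ K = 2 →
    Nat.card {C : ClassGroup (𝓞 K) // C ^ 2 = 1} ≤ 2 ^ (discr K).natAbs.primeFactors.card

/-- The class number is the number of classes of order at most two times the number of squares. -/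
theorem classNumber_eq_mul (K : Type*) [Field K] [NumberField K] :
    classNumber K = Nat.card {C : ClassGroup (𝓞 K) // C ^ 2 = 1} *
      Nat.card (powMonoidHom 2 : ClassGroup (𝓞 K) →* ClassGroup (𝓞 K)).range := by
  have h1 := (powMonoidHom 2 : ClassGroup (𝓞 K) →* ClassGroup (𝓞 K)).ker.card_mul_index
  rw [Subgroup.index_ker] at h1
  rw [classNumber, ← Nat.card_eq_fintype_card, ← h1]
  rfl

/-- **Chowla's theorem**: the number of classes per genus tends to infinity. -/
theorem chowla_of (hgen : GenusStmt) (N : ℕ) : ∃ B : ℕ,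
    ∀ (K : Type) [Field K] [NumberField K] [IsTotallyComplex K], Module.finrank ℚ K = 2 →
      Nat.card (powMonoidHom 2 : ClassGroup (𝓞 K) →* ClassGroup (𝓞 K)).range ≤ N →
        |discr K| ≤ B := by
  obtain ⟨c, hc, h⟩ := siegel_imaginary (ε := 1 / 4) (by norm_num)
  refine ⟨⌈(2 ^ 256 * N / c : ℝ) ^ (8 : ℝ)⌉₊, fun K _ _ _ hK hN => ?_⟩
  have h1 := h K hK
  have hD : 0 < |(discr K : ℝ)| := zero_lt_one.trans_le (one_le_absDisc K)
  have h2 : (classNumber K : ℝ) ≤ 2 ^ (discr K).natAbs.primeFactors.card * N := by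
    rw [classNumber_eq_mul]
    exact_mod_cast Nat.mul_le_mul (hgen K hK) hN
  have h3 := two_pow_primeFactors_le (discr K).natAbs
    (Int.natAbs_ne_zero.mpr (discr_ne_zero K))
  have h4 : (((discr K).natAbs : ℕ) : ℝ) = |(discr K : ℝ)| := by
    rw [Nat.cast_natAbs, Int.cast_abs]
  rw [h4] at h3
  rw [show (1 / 2 - 1 / 4 : ℝ) = 1 / 8 + 1 / 8 by norm_num, Real.rpow_add hD] at h1
  have hE : 0 < |(discr K : ℝ)| ^ (1 / 8 : ℝ) := Real.rpow_pos_of_pos hD _
  have h5 : |(discr K : ℝ)| ^ (1 / 8 : ℝ) ≤ 2 ^ 256 * N / c := by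
    rw [le_div_iff₀ hc]
    refine le_of_mul_le_mul_right ?_ hE
    calc |(discr K : ℝ)| ^ (1 / 8 : ℝ) * c * |(discr K : ℝ)| ^ (1 / 8 : ℝ)
        = c * (|(discr K : ℝ)| ^ (1 / 8 : ℝ) * |(discr K : ℝ)| ^ (1 / 8 : ℝ)) := by ring
      _ ≤ classNumber K := h1
      _ ≤ 2 ^ (discr K).natAbs.primeFactors.card * N := h2
      _ ≤ (2 ^ 256 * |(discr K : ℝ)| ^ (1 / 8 : ℝ)) * N :=
          mul_le_mul_of_nonneg_right h3 (Nat.cast_nonneg N)
      _ = 2 ^ 256 * N * |(discr K : ℝ)| ^ (1 / 8 : ℝ) := by ring
  have h6 : |(discr K : ℝ)| ≤ (2 ^ 256 * N / c : ℝ) ^ (8 : ℝ) := by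
    calc |(discr K : ℝ)| = (|(discr K : ℝ)| ^ (1 / 8 : ℝ)) ^ (8 : ℝ) := by
          rw [← Real.rpow_mul hD.le, show (1 / 8 * 8 : ℝ) = 1 by norm_num, Real.rpow_one]
      _ ≤ _ := Real.rpow_le_rpow hE.le h5 (by norm_num)
  have h7 : |(discr K : ℝ)| ≤ (⌈(2 ^ 256 * N / c : ℝ) ^ (8 : ℝ)⌉₊ : ℝ) := h6.trans (Nat.le_ceil _)
  exact_mod_cast h7

/-- Only finitely many integers are discriminants of imaginary quadratic fields with at most `N`
classes per genus. -/
theorem finite_discr_squares_le (hgen : GenusStmt) (N : ℕ) :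
    {d : ℤ | ∃ (K : Type) (_ : Field K) (_ : NumberField K), Module.finrank ℚ K = 2 ∧
      IsTotallyComplex K ∧ discr K = d ∧
      Nat.card (powMonoidHom 2 : ClassGroup (𝓞 K) →* ClassGroup (𝓞 K)).range ≤ N}.Finite := by
  obtain ⟨B, hB⟩ := chowla_of hgen N
  refine (Set.finite_Icc (-(B : ℤ)) B).subset ?_
  rintro d ⟨K, _, _, hK, hc, rfl, hN⟩
  exact abs_le.1 (hB K hK hN)

/-- In a field of characteristic zero there are only finitely many imaginary quadratic subfields
with at most `N` classes per genus. -/
theorem finite_fields_squares_le (hgen : GenusStmt) (A : Type) [Field A] [CharZero A] (N : ℕ) :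
    {K : {F : IntermediateField ℚ A // FiniteDimensional ℚ F} |
      haveI : NumberField K := @NumberField.mk _ _ inferInstance K.prop
      Module.finrank ℚ K = 2 ∧ IsTotallyComplex K ∧
      Nat.card (powMonoidHom 2 : ClassGroup (𝓞 K) →* ClassGroup (𝓞 K)).range ≤ N}.Finite := by
  obtain ⟨B, hB⟩ := chowla_of hgen N
  refine (finite_of_discr_bdd A B).subset ?_
  rintro K ⟨hK, hc, hN⟩
  have : NumberField K := @NumberField.mk _ _ inferInstance K.prop
  exact hB K hK hN

/-- The squares of a group of exponent at most two. -/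
theorem card_range_pow_two_le_one {G : Type*} [CommGroup G] (h : ∀ C : G, C ^ 2 = 1) :
    Nat.card (powMonoidHom 2 : G →* G).range ≤ 1 := by
  have h1 : (powMonoidHom 2 : G →* G) = 1 := MonoidHom.ext h
  rw [h1, MonoidHom.range_one, Subgroup.card_bot]

/-- **Chowla's theorem** (1934): only finitely many imaginary quadratic fields have a class group
of exponent at most two (one class per genus). -/
theorem finite_fields_exponent_two (hgen : GenusStmt) (A : Type) [Field A] [CharZero A] :
    {K : {F : IntermediateField ℚ A // FiniteDimensional ℚ F} |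
      haveI : NumberField K := @NumberField.mk _ _ inferInstance K.prop
      Module.finrank ℚ K = 2 ∧ IsTotallyComplex K ∧
      ∀ C : ClassGroup (𝓞 K), C ^ 2 = 1}.Finite :=
  (finite_fields_squares_le hgen A 1).subset fun _ h =>
    ⟨h.1, h.2.1, card_range_pow_two_le_one h.2.2⟩

/-- The discriminants of the imaginary quadratic fields whose class group has exponent at most
two. -/
theorem finite_discr_exponent_two (hgen : GenusStmt) :
    {d : ℤ | ∃ (K : Type) (_ : Field K) (_ : NumberField K), Module.finrank ℚ K = 2 ∧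
      IsTotallyComplex K ∧ discr K = d ∧ ∀ C : ClassGroup (𝓞 K), C ^ 2 = 1}.Finite := by
  refine (finite_discr_squares_le hgen 1).subset ?_
  rintro d ⟨K, i1, i2, hK, hc, hd, h⟩
  exact ⟨K, i1, i2, hK, hc, hd, card_range_pow_two_le_one h⟩

end Fermat.Agent.Cor.Siegel
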