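import Fermat.Agent.Corollaries.ZetaK.Trivial
import Fermat.Agent.Corollaries.ZetaK.Rat

/-!
# Isomorphic number fields have the same zeta function
-/

set_option autoImplicit false

open NumberField Ideal

namespace Fermat.Agent.Cor.Siegel

universe u v

variable {K : Type u} {K' : Type v} [Field K] [NumberField K] [Field K'] [NumberField K']

theorem absNorm_map_ringEquiv (f : 𝓞 K ≃+* 𝓞 K') (I : Ideal (𝓞 K)) :
    absNorm (I.map (f : 𝓞 K →+* 𝓞 K')) = absNorm I := by
  rw [absNorm_apply, absNorm_apply, Submodule.cardQuot_apply, Submodule.cardQuot_apply]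
  exact (Nat.card_congr (Ideal.quotientEquiv I _ f rfl).toEquiv).symm

/-- the ideals of norm `n` of isomorphic rings of integers -/
noncomputable def idealsEquiv (f : 𝓞 K ≃+* 𝓞 K') (n : ℕ) :
    {I : Ideal (𝓞 K) // absNorm I = n} ≃ {I : Ideal (𝓞 K') // absNorm I = n} where
  toFun I := ⟨I.1.map (f : 𝓞 K →+* 𝓞 K'), by rw [absNorm_map_ringEquiv]; exact I.2⟩
  invFun I := ⟨I.1.map (f.symm : 𝓞 K' →+* 𝓞 K), by rw [absNorm_map_ringEquiv]; exact I.2⟩
  left_inv I := by
    apply Subtype.ext
    change (I.1.map (f : 𝓞 K →+* 𝓞 K')).map (f.symm : 𝓞 K' →+* 𝓞 K) = I.1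
    rw [Ideal.map_map, RingEquiv.symm_comp, Ideal.map_id]
  right_inv I := by
    apply Subtype.ext
    change (I.1.map (f.symm : 𝓞 K' →+* 𝓞 K)).map (f : 𝓞 K →+* 𝓞 K') = I.1
    rw [Ideal.map_map, RingEquiv.comp_symm, Ideal.map_id]

/-- isomorphic number fields have the same number of ideals of norm `n` -/
theorem card_ideals_congr (e : K ≃+* K') (n : ℕ) :
    Nat.card {I : Ideal (𝓞 K) // absNorm I = n} = Nat.card {I : Ideal (𝓞 K') // absNorm I = n} :=
  Nat.card_congr (idealsEquiv (RingOfIntegers.mapRingEquiv e) n)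

theorem dedekindZeta_congr (e : K ≃+* K') (s : ℂ) : dedekindZeta K s = dedekindZeta K' s := by
  unfold dedekindZeta
  congr 1
  funext n
  rw [card_ideals_congr e n]

/-- **Isomorphic number fields have the same Dedekind zeta function.** -/
theorem zetaK_congr (e : K ≃+* K') {s : ℂ} (hs : s ≠ 1) : zetaK K s = zetaK K' s := by
  refine eq_of_eq_re_gt_one (f := zetaK K) (g := zetaK K')
    (fun s hs => differentiableAt_LF _ hs) (fun s hs => differentiableAt_LF _ hs)
    (fun s hs => ?_) hs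
  rw [zetaK_eq_dedekindZeta hs, zetaK_eq_dedekindZeta hs, dedekindZeta_congr e]

end Fermat.Agent.Cor.Siegel
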