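import Fermat.Agent.Corollaries.Siegel.Rel
import Fermat.Agent.Corollaries.ZetaK.RatZeta
import Fermat.Agent.Classic.Level.FixField

/-!
# Brauer relations: families, biquadratic fields, fields of type `S₃`

`brauer_fintype`: Brauer relations for two finite families of number fields;
`biquadratic`: Dirichlet's relation between a biquadratic field and its three quadratic subfields;
`brauer_group`: Brauer's relations in terms of the permutation characters of a finite group.
-/

set_option autoImplicit false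

noncomputable section

open NumberField NumberField.InfinitePlace NumberField.Units
open Fermat.Agent.Classic.Disc Fermat.Agent.Classic.Zeta Fermat.Agent.FrobDensity
open Fermat.Agent.Frob Fermat.Agent.Cor.ZetaK Filter Topology

namespace Fermat.Agent.Cor.Brauer

universe u v

/-! ### Families -/

section Family

variable {ι : Type*} {κ : Type*} [Fintype ι] [Fintype κ] (K : ι → Type u) [∀ i, Field (K i)]
  [∀ i, NumberField (K i)] (K' : κ → Type v) [∀ i, Field (K' i)] [∀ i, NumberField (K' i)]

/-- the list of a family -/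
def toL : List NF.{u} := (Finset.univ : Finset ι).toList.map fun i => ⟨K i⟩

theorem toL_prod {M : Type*} [CommMonoid M] (f : NF.{u} → M) :
    ((toL K).map f).prod = ∏ i, f ⟨K i⟩ := by
  rw [toL, List.map_map, ← Finset.prod_map_toList]
  rfl

theorem toL_sum {M : Type*} [AddCommMonoid M] (f : NF.{u} → M) :
    ((toL K).map f).sum = ∑ i, f ⟨K i⟩ := by
  rw [toL, List.map_map, ← Finset.sum_map_toList]
  rfl

theorem toL_length : (toL K).length = Fintype.card ι := by
  rw [toL, List.length_map, Finset.length_toList, Finset.card_univ]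

/-- **Brauer relations** for two finite families of number fields: if every automorphism `σ` of `ℚ̄`
fixes as many embeddings of the fields `K i` in `ℚ̄` as of the fields `K' j`, then the products of
the Dedekind zeta functions, of the absolute values of the discriminants and of the numbers
`h R / w` are equal, and so are the numbers of fields and the sums of the degrees, of the numbers of
real places and of the numbers of complex places. -/
theorem brauer_fintype (h : ∀ σ : GQ,
    ∑ i, Nat.card {j : K i →+* AlgebraicClosure ℚ // ∀ x, σ (j x) = j x} =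
      ∑ i, Nat.card {j : K' i →+* AlgebraicClosure ℚ // ∀ x, σ (j x) = j x}) :
    (∀ s : ℂ, s ≠ 1 → ∏ i, zetaK (K i) s = ∏ i, zetaK (K' i) s) ∧
    ∏ i, |discr (K i)| = ∏ i, |discr (K' i)| ∧
    ∏ i, (classNumber (K i) : ℝ) * regulator (K i) / torsionOrder (K i) =
      ∏ i, (classNumber (K' i) : ℝ) * regulator (K' i) / torsionOrder (K' i) ∧
    Fintype.card ι = Fintype.card κ ∧
    ∑ i, Module.finrank ℚ (K i) = ∑ i, Module.finrank ℚ (K' i) ∧
    ∑ i, nrRealPlaces (K i) = ∑ i, nrRealPlaces (K' i) ∧
    ∑ i, nrComplexPlaces (K i) = ∑ i, nrComplexPlaces (K' i) := by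
  have hR : Rel (toL K) (toL K') := fun σ => by
    rw [toL_sum, toL_sum]
    exact h σ
  obtain ⟨h1, h2, h3, h4, h5, h6, h7⟩ := brauer hR
  simp only [toL_prod, toL_sum, toL_length] at h1 h2 h3 h4 h5 h6 h7
  refine ⟨h1, ?_, h3, h4, h5, h6, h7⟩
  have h8 := congrArg (fun n : ℕ => (n : ℤ)) h2
  simpa only [Nat.cast_prod, Int.natCast_natAbs] using h8

end Family

/-! ### The field `ℚ` -/

theorem fixEmb_rat (σ : GQ) : fixEmb σ ⟨ℚ⟩ = 1 := by
  rw [fixEmb, Nat.card_eq_one_iff_unique]
  exact ⟨⟨fun a b => Subtype.ext (Subsingleton.elim _ _)⟩,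
    ⟨⟨algebraMap ℚ (AlgebraicClosure ℚ), fun x => σ.commutes x⟩⟩⟩

theorem places_rat : nrRealPlaces ℚ = 1 ∧ nrComplexPlaces ℚ = 0 := by
  have h : nrRealPlaces ℚ + 2 * nrComplexPlaces ℚ = Module.finrank ℚ ℚ :=
    card_add_two_mul_card_eq_rank ℚ
  rw [Module.finrank_self] at h
  omega

theorem hRw_rat : (classNumber ℚ : ℝ) * regulator ℚ / torsionOrder ℚ = 1 / 2 := by
  have h1 : rank ℚ = 0 := by
    have h := rank_add_one (K := ℚ)
    rw [places_rat.1, places_rat.2] at h
    omega
  rw [Rat.classNumber_eq, regulator_of_rank_eq_zero ℚ h1,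
    torsionOrder_eq_two_of_odd_finrank (by rw [Module.finrank_self]; exact odd_one)]
  norm_num

/-! ### Biquadratic fields -/

section Biquadratic

variable {M : Type} {K₁ K₂ K₃ : Type v} [Field M] [NumberField M] [Field K₁] [NumberField K₁]
  [Field K₂] [NumberField K₂] [Field K₃] [NumberField K₃]

/-- **Dirichlet's relation for biquadratic fields**: `M` a biquadratic field with quadratic
subfields `K₁`, `K₂`, `K₃`. The hypothesis is the relation `1_{1} + 2 · 1_{V} = ∑ 1_{Hᵢ}` between the
permutation characters of the Klein four group. -/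
theorem biquadratic (h : ∀ σ : GQ,
    Nat.card {j : M →+* AlgebraicClosure ℚ // ∀ x, σ (j x) = j x} + 2 =
      Nat.card {j : K₁ →+* AlgebraicClosure ℚ // ∀ x, σ (j x) = j x} +
      Nat.card {j : K₂ →+* AlgebraicClosure ℚ // ∀ x, σ (j x) = j x} +
      Nat.card {j : K₃ →+* AlgebraicClosure ℚ // ∀ x, σ (j x) = j x}) :
    (∀ s : ℂ, s ≠ 1 → zetaK M s * riemannZeta s ^ 2 = zetaK K₁ s * zetaK K₂ s * zetaK K₃ s) ∧
    |discr M| = |discr K₁| * |discr K₂| * |discr K₃| ∧
    (classNumber M : ℝ) * regulator M / torsionOrder M =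
      4 * ((classNumber K₁ : ℝ) * regulator K₁ / torsionOrder K₁) *
        ((classNumber K₂ : ℝ) * regulator K₂ / torsionOrder K₂) *
        ((classNumber K₃ : ℝ) * regulator K₃ / torsionOrder K₃) := by
  have hR : Rel [⟨M⟩, ⟨ℚ⟩, ⟨ℚ⟩] [⟨K₁⟩, ⟨K₂⟩, ⟨K₃⟩] := fun σ => by
    have h1 := h σ
    simp only [List.map_cons, List.map_nil, List.sum_cons, List.sum_nil, fixEmb_rat]
    simp only [fixEmb]
    omega
  obtain ⟨h1, h2, h3, -, -, -, -⟩ := brauer hR
  simp only [List.map_cons, List.map_nil, List.prod_cons, List.prod_nil, mul_one] at h1 h2 h3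
  refine ⟨fun s hs => ?_, ?_, ?_⟩
  · have h4 := h1 s hs
    rw [zetaK_rat hs] at h4
    rw [pow_two, h4, mul_assoc]
  · rw [discr_rat, Int.natAbs_one, mul_one, mul_one] at h2
    have h8 := congrArg (fun n : ℕ => (n : ℤ)) h2
    simp only [Nat.cast_mul, Int.natCast_natAbs] at h8
    rw [h8, mul_assoc]
  · rw [hRw_rat] at h3
    linear_combination 4 * h3

end Biquadratic

/-! ### Fields of type `S₃` -/

section S3

variable {M K : Type} {k : Type} [Field M] [NumberField M] [Field K] [NumberField K]
  [Field k] [NumberField k]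

/-- **Dedekind's relation for non-cyclic cubic fields**: `M` a Galois field with group `S₃`, `K` a
cubic and `k` the quadratic subfield. The hypothesis is the relation `1_{1} + 2 · 1_{S₃} = 2 · 1_{C₂} + 1_{C₃}`
between the permutation characters of `S₃`. -/
theorem cubic (h : ∀ σ : GQ,
    Nat.card {j : M →+* AlgebraicClosure ℚ // ∀ x, σ (j x) = j x} + 2 =
      2 * Nat.card {j : K →+* AlgebraicClosure ℚ // ∀ x, σ (j x) = j x} +
      Nat.card {j : k →+* AlgebraicClosure ℚ // ∀ x, σ (j x) = j x}) :
    (∀ s : ℂ, s ≠ 1 → zetaK M s * riemannZeta s ^ 2 = zetaK K s ^ 2 * zetaK k s) ∧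
    |discr M| = |discr K| ^ 2 * |discr k| ∧
    (classNumber M : ℝ) * regulator M / torsionOrder M =
      4 * ((classNumber K : ℝ) * regulator K / torsionOrder K) ^ 2 *
        ((classNumber k : ℝ) * regulator k / torsionOrder k) := by
  obtain ⟨h1, h2, h3⟩ := biquadratic (M := M) (K₁ := K) (K₂ := K) (K₃ := k) (fun σ => by
    have := h σ
    omega)
  refine ⟨fun s hs => ?_, ?_, ?_⟩
  · rw [h1 s hs, pow_two]
  · rw [h2, pow_two]
  · rw [h3, pow_two]
    ring

end S3

/-! ### Relations between permutation characters of a finite group -/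

section Group

open Fermat.Agent.Classic.Level

variable {ι : Type*} {κ : Type*} [Fintype ι] [Fintype κ] {G : Type*} [Group G] {ρ : GQ →* G}
  {H : ι → Subgroup G} {H' : κ → Subgroup G}

/-- **Brauer relations**, group form: `G` a quotient of `Gal(ℚ̄/ℚ)`, `H i`, `H' j` subgroups with
`∑ i, 1_{H i}^G = ∑ j, 1_{H' j}^G` (`pH H g` is the number of fixed points of `g` on `G ⧸ H`),
`T i`, `T' j` the corresponding number fields. -/
theorem brauer_group (hs : Function.Surjective ρ) (T : ∀ i, FixField ρ (H i))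
    (T' : ∀ i, FixField ρ (H' i)) (h : ∀ g : G, ∑ i, pH (H i) g = ∑ i, pH (H' i) g) :
    (∀ s : ℂ, s ≠ 1 → ∏ i, zetaK (T i).F s = ∏ i, zetaK (T' i).F s) ∧
    ∏ i, |discr (T i).F| = ∏ i, |discr (T' i).F| ∧
    ∏ i, (classNumber (T i).F : ℝ) * regulator (T i).F / torsionOrder (T i).F =
      ∏ i, (classNumber (T' i).F : ℝ) * regulator (T' i).F / torsionOrder (T' i).F := by
  obtain ⟨h1, h2, h3, -⟩ := brauer_fintype (fun i => (T i).F) (fun i => (T' i).F) (fun σ => by
    rw [Finset.sum_congr rfl fun i _ => (T i).card_fixed hs σ,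
      Finset.sum_congr rfl fun i _ => (T' i).card_fixed hs σ]
    exact h (ρ σ))
  exact ⟨h1, h2, h3⟩

end Group

end Fermat.Agent.Cor.Brauer

end
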