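import Mathlib

/-!
# The biquadratic field of two quadratic fields

`exists_v4`: `K₁ ∋ √d₁`, `K₂ ∋ √d₂` quadratic, `d₁`, `d₂`, `d₁ d₂` no squares.  Then there are a
field `M` of degree four and a quadratic field `K₃ ∋ √(d₁ d₂)` such that for every
automorphism `σ` of `ℚ̄` the numbers of embeddings fixed by `σ` satisfy `#M + 2 = #K₁ + #K₂ + #K₃`.
-/

set_option autoImplicit false

open Module NumberField IntermediateField

namespace Fermat.Agent.Cor.Siegel

local notation "Qbar" => AlgebraicClosure ℚ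

section Count

variable {F : Type} [Field F] [NumberField F] {σ : Qbar ≃ₐ[ℚ] Qbar}

theorem card_fix_all (h : ∀ j : F →+* Qbar, ∀ x, σ (j x) = j x) :
    Nat.card {j : F →+* Qbar // ∀ x, σ (j x) = j x} = finrank ℚ F := by
  rw [← Embeddings.card F Qbar, ← Nat.card_eq_fintype_card]
  exact Nat.card_congr (Equiv.subtypeUnivEquiv h)

omit [NumberField F] in
theorem card_fix_none (h : ∀ j : F →+* Qbar, ¬ ∀ x, σ (j x) = j x) :
    Nat.card {j : F →+* Qbar // ∀ x, σ (j x) = j x} = 0 := by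
  have : IsEmpty {j : F →+* Qbar // ∀ x, σ (j x) = j x} := ⟨fun j => h j.1 j.2⟩
  exact Nat.card_of_isEmpty

/-- a fixed embedding is determined on generators -/
theorem fix_of_adjoin {s : Set F} (hs : IntermediateField.adjoin ℚ s = ⊤) (j : F →+* Qbar)
    (h : ∀ x ∈ s, σ (j x) = j x) : ∀ x, σ (j x) = j x := by
  let φ : F →ₐ[ℚ] Qbar := j.toRatAlgHom
  let φ' : F →ₐ[ℚ] Qbar := (σ : Qbar →ₐ[ℚ] Qbar).comp φ
  have h1 : φ'.comp (IntermediateField.adjoin ℚ s).val = φ.comp (IntermediateField.adjoin ℚ s).val :=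
    IntermediateField.adjoin_algHom_ext ℚ fun x hx => h x hx
  intro x
  have hx : x ∈ IntermediateField.adjoin ℚ s := by
    rw [hs]
    exact IntermediateField.mem_top
  exact DFunLike.congr_fun h1 ⟨x, hx⟩

end Count

theorem sq_eq_sq_or {E : Type*} [Field E] {x y : E} (h : x ^ 2 = y ^ 2) : x = y ∨ x = -y :=
  sq_eq_sq_iff_eq_or_eq_neg.mp h

/-- adjoining a square root -/
theorem finrank_adjoin_sqrt {F E : Type*} [Field F] [Field E] [Algebra F E] {b : E} {c : F}
    (hb : b ^ 2 = algebraMap F E c) (hc : ¬ IsSquare c) : finrank F F⟮b⟯ = 2 := by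
  have hirr : Irreducible (Polynomial.X ^ 2 - Polynomial.C c) :=
    X_pow_sub_C_irreducible_of_prime Nat.prime_two fun y hy => hc ⟨y, by rw [← hy, sq]⟩
  have hmin : Polynomial.X ^ 2 - Polynomial.C c = minpoly F b := by
    refine minpoly.eq_of_irreducible_of_monic hirr ?_ (Polynomial.monic_X_pow_sub_C c two_ne_zero)
    simp [hb]
  have hint : IsIntegral F b :=
    ⟨Polynomial.X ^ 2 - Polynomial.C c, Polynomial.monic_X_pow_sub_C c two_ne_zero, by simp [hb]⟩
  rw [IntermediateField.adjoin.finrank hint, ← hmin, Polynomial.natDegree_X_pow_sub_C]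

/-- a quadratic field is generated by the square root of a non-square -/
theorem adjoin_eq_top {F : Type*} [Field F] [NumberField F] (h : finrank ℚ F = 2) {d : ℤ} {x : F}
    (hx : x ^ 2 = (d : F)) (hd : ¬ IsSquare (d : ℚ)) : IntermediateField.adjoin ℚ {x} = ⊤ := by
  have h1 : finrank ℚ ℚ⟮x⟯ = 2 := finrank_adjoin_sqrt (c := (d : ℚ)) (by rw [hx]; simp) hd
  refine IntermediateField.eq_of_le_of_finrank_eq le_top ?_
  rw [h1, IntermediateField.finrank_top', h]

/-- the count for a quadratic field -/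
theorem card_quad {F : Type} [Field F] [NumberField F] (h : finrank ℚ F = 2) {d : ℤ}
    (hx : ∃ x : F, x ^ 2 = (d : F)) (hd : ¬ IsSquare (d : ℚ)) {r : Qbar} (hr : r ^ 2 = (d : Qbar))
    (σ : Qbar ≃ₐ[ℚ] Qbar) [Decidable (σ r = r)] :
    Nat.card {j : F →+* Qbar // ∀ x, σ (j x) = j x} = if σ r = r then 2 else 0 := by
  obtain ⟨x, hx⟩ := hx
  have htop := adjoin_eq_top h hx hd
  have hj : ∀ j : F →+* Qbar, j x = r ∨ j x = -r := fun j => by
    refine sq_eq_sq_or ?_
    rw [← map_pow, hx, hr, map_intCast]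
  split_ifs with hs
  · rw [card_fix_all, h]
    intro j
    refine fix_of_adjoin htop j ?_
    rintro y rfl
    rcases hj j with e | e
    · rw [e, hs]
    · rw [e, map_neg, hs]
  · rw [card_fix_none]
    intro j hall
    apply hs
    have h1 := hall x
    rcases hj j with e | e
    · rwa [e] at h1
    · rw [e, map_neg] at h1
      exact neg_injective h1

/-- **The field `ℚ(√d₁, √d₂)`.** -/
theorem exists_v4 (K₁ K₂ : Type) [Field K₁] [NumberField K₁] [Field K₂] [NumberField K₂]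
    {d₁ d₂ : ℤ} (h₁ : finrank ℚ K₁ = 2) (h₂ : finrank ℚ K₂ = 2)
    (hx₁ : ∃ x : K₁, x ^ 2 = (d₁ : K₁)) (hx₂ : ∃ x : K₂, x ^ 2 = (d₂ : K₂))
    (hd₁ : ¬ IsSquare (d₁ : ℚ)) (hd₂ : ¬ IsSquare (d₂ : ℚ))
    (h12 : ¬ IsSquare ((d₁ * d₂ : ℤ) : ℚ)) :
    ∃ (M K₃ : Type) (_ : Field M) (_ : NumberField M) (_ : Field K₃) (_ : NumberField K₃),
      finrank ℚ M = 4 ∧ finrank ℚ K₃ = 2 ∧ (∃ x : K₃, x ^ 2 = ((d₁ * d₂ : ℤ) : K₃)) ∧
      ∀ σ : AlgebraicClosure ℚ ≃ₐ[ℚ] AlgebraicClosure ℚ,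
        Nat.card {j : M →+* AlgebraicClosure ℚ // ∀ x, σ (j x) = j x} + 2 =
          Nat.card {j : K₁ →+* AlgebraicClosure ℚ // ∀ x, σ (j x) = j x} +
          Nat.card {j : K₂ →+* AlgebraicClosure ℚ // ∀ x, σ (j x) = j x} +
          Nat.card {j : K₃ →+* AlgebraicClosure ℚ // ∀ x, σ (j x) = j x} := by
  classical
  obtain ⟨a, ha⟩ := IsAlgClosed.exists_pow_nat_eq (d₁ : Qbar) (n := 2) (by norm_num)
  obtain ⟨b, hb⟩ := IsAlgClosed.exists_pow_nat_eq (d₂ : Qbar) (n := 2) (by norm_num)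
  have hab : (a * b) ^ 2 = ((d₁ * d₂ : ℤ) : Qbar) := by
    rw [mul_pow, ha, hb]
    push_cast
    rfl
  have hinta : IsIntegral ℚ a := ⟨Polynomial.X ^ 2 - Polynomial.C (d₁ : ℚ),
    Polynomial.monic_X_pow_sub_C _ two_ne_zero, by
      rw [Polynomial.eval₂_sub, Polynomial.eval₂_X_pow, Polynomial.eval₂_C, ha, map_intCast, sub_self]⟩
  have hintab : IsIntegral ℚ (a * b) := ⟨Polynomial.X ^ 2 - Polynomial.C ((d₁ * d₂ : ℤ) : ℚ),
    Polynomial.monic_X_pow_sub_C _ two_ne_zero, by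
      rw [Polynomial.eval₂_sub, Polynomial.eval₂_X_pow, Polynomial.eval₂_C, hab, map_intCast, sub_self]⟩
  -- the quadratic field `K₃`
  have hfab : finrank ℚ ℚ⟮a * b⟯ = 2 :=
    finrank_adjoin_sqrt (c := ((d₁ * d₂ : ℤ) : ℚ)) (by rw [hab]; simp) h12
  have hfa : finrank ℚ ℚ⟮a⟯ = 2 := finrank_adjoin_sqrt (c := (d₁ : ℚ)) (by rw [ha]; simp) hd₁
  have : FiniteDimensional ℚ ℚ⟮a * b⟯ := IntermediateField.adjoin.finiteDimensional hintab
  have hfda : FiniteDimensional ℚ ℚ⟮a⟯ := IntermediateField.adjoin.finiteDimensional hinta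
  -- `d₂` is no square in `ℚ(a)`
  have hnsq : ¬ IsSquare ((d₂ : ℚ⟮a⟯)) := by
    rintro ⟨y, hy⟩
    -- the map `σ` on `ℚ(a)`
    have hgen : IntermediateField.adjoin ℚ {IntermediateField.AdjoinSimple.gen ℚ a} =
        (⊤ : IntermediateField ℚ ℚ⟮a⟯) := by
      have hnf : NumberField ℚ⟮a⟯ := { to_charZero := inferInstance, to_finiteDimensional := hfda }
      refine adjoin_eq_top hfa (d := d₁) ?_ hd₁
      apply Subtype.ext
      simpa using ha
    -- coordinates
    have hcoord : ∃ p q : ℚ, (y : Qbar) = p + q * a := by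
      have hy2 : y ∈ (⊤ : IntermediateField ℚ ℚ⟮a⟯) := IntermediateField.mem_top
      have hpb := (IntermediateField.adjoin.powerBasis hinta)
      have hdeg : (minpoly ℚ a).natDegree = 2 := by
        rw [← IntermediateField.adjoin.finrank hinta, hfa]
      obtain ⟨f, hf1, hf2⟩ := (IntermediateField.adjoin.powerBasis hinta).exists_eq_aeval y
      rw [IntermediateField.adjoin.powerBasis_dim, hdeg] at hf1
      rw [IntermediateField.adjoin.powerBasis_gen] at hf2
      obtain ⟨q, p, rfl⟩ := Polynomial.exists_eq_X_add_C_of_natDegree_le_one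
        (show f.natDegree ≤ 1 by omega)
      refine ⟨p, q, ?_⟩
      rw [hf2]
      simp
      ring
    obtain ⟨p, q, hpq⟩ := hcoord
    have h1 : (y : Qbar) * y = (d₂ : Qbar) := by
      have := congrArg (fun z : ℚ⟮a⟯ => (z : Qbar)) hy
      simpa using this.symm
    rw [hpq] at h1
    have h2 : ((2 * p * q : ℚ) : Qbar) * a = (((d₂ : ℚ) - p ^ 2 - q ^ 2 * d₁ : ℚ) : Qbar) := by
      push_cast
      linear_combination h1 - (q : Qbar) ^ 2 * ha
    have hairr : ∀ r : ℚ, (r : Qbar) ≠ a := by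
      intro r hr
      apply hd₁
      refine ⟨r, ?_⟩
      have : ((d₁ : ℚ) : Qbar) = ((r * r : ℚ) : Qbar) := by
        push_cast
        rw [hr, ← ha, sq]
      exact_mod_cast this
    have h3 : 2 * p * q = 0 := by
      by_contra h0
      apply hairr (((d₂ : ℚ) - p ^ 2 - q ^ 2 * d₁) / (2 * p * q))
      have h0' : ((2 * p * q : ℚ) : Qbar) ≠ 0 := by exact_mod_cast h0
      rw [Rat.cast_div, ← h2, mul_div_cancel_left₀ _ h0']
    rw [h3] at h2
    have h4 : (d₂ : ℚ) - p ^ 2 - q ^ 2 * d₁ = 0 := by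
      have : (((d₂ : ℚ) - p ^ 2 - q ^ 2 * d₁ : ℚ) : Qbar) = 0 := by rw [← h2]; simp
      exact_mod_cast this
    rcases mul_eq_zero.mp h3 with h5 | h5
    · have hp : p = 0 := by linarith
      apply h12
      refine ⟨q * d₁, ?_⟩
      rw [hp] at h4
      push_cast
      linear_combination (d₁ : ℚ) * h4
    · apply hd₂
      refine ⟨p, ?_⟩
      rw [h5] at h4
      linear_combination h4
  have hfb : finrank ℚ⟮a⟯ ℚ⟮a⟯⟮b⟯ = 2 :=
    finrank_adjoin_sqrt (c := (d₂ : ℚ⟮a⟯)) (by rw [hb]; simp) hnsq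
  have hfM : finrank ℚ ℚ⟮a, b⟯ = 4 := by
    rw [← IntermediateField.adjoin_simple_adjoin_simple]
    have := Module.finrank_mul_finrank ℚ ℚ⟮a⟯ ℚ⟮a⟯⟮b⟯
    rw [hfa, hfb] at this
    exact this.symm
  have hfdM : FiniteDimensional ℚ ℚ⟮a, b⟯ := by
    refine Module.finite_of_finrank_pos ?_
    rw [hfM]
    norm_num
  refine ⟨ℚ⟮a, b⟯, ℚ⟮a * b⟯, inferInstance, ⟨⟩, inferInstance, ⟨⟩, hfM, hfab, ?_, fun σ => ?_⟩
  · refine ⟨IntermediateField.AdjoinSimple.gen ℚ (a * b), ?_⟩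
    apply Subtype.ext
    simpa using hab
  -- the count
  have : NumberField ℚ⟮a * b⟯ := ⟨⟩
  have : NumberField ℚ⟮a, b⟯ := ⟨⟩
  have ha0 : a ≠ 0 := by
    rintro rfl
    apply hd₁
    have : (d₁ : ℚ) = 0 := by
      have : ((d₁ : ℚ) : Qbar) = 0 := by
        push_cast
        rw [← ha]
        simp
      exact_mod_cast this
    rw [this]
    exact IsSquare.zero
  have hb0 : b ≠ 0 := by
    rintro rfl
    apply hd₂
    have : (d₂ : ℚ) = 0 := by
      have : ((d₂ : ℚ) : Qbar) = 0 := by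
        push_cast
        rw [← hb]
        simp
      exact_mod_cast this
    rw [this]
    exact IsSquare.zero
  have c1 := card_quad h₁ hx₁ hd₁ ha σ
  have c2 := card_quad h₂ hx₂ hd₂ hb σ
  have c3 : Nat.card {j : ℚ⟮a * b⟯ →+* Qbar // ∀ x, σ (j x) = j x} =
      if σ (a * b) = a * b then 2 else 0 := by
    refine card_quad hfab ⟨IntermediateField.AdjoinSimple.gen ℚ (a * b), ?_⟩ h12 hab σ
    apply Subtype.ext
    simpa using hab
  have hsa : σ a = a ∨ σ a = -a := sq_eq_sq_or (by rw [← map_pow, ha, map_intCast])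
  have hsb : σ b = b ∨ σ b = -b := sq_eq_sq_or (by rw [← map_pow, hb, map_intCast])
  have hamem : a ∈ ℚ⟮a, b⟯ := IntermediateField.subset_adjoin ℚ _ (by simp)
  have hbmem : b ∈ ℚ⟮a, b⟯ := IntermediateField.subset_adjoin ℚ _ (by simp)
  have hja : ∀ j : ℚ⟮a, b⟯ →+* Qbar, j ⟨a, hamem⟩ = a ∨ j ⟨a, hamem⟩ = -a := fun j => by
    refine sq_eq_sq_or ?_
    rw [← map_pow, ha, ← map_intCast j]
    congr 1
    apply Subtype.ext
    simpa using ha
  have hjb : ∀ j : ℚ⟮a, b⟯ →+* Qbar, j ⟨b, hbmem⟩ = b ∨ j ⟨b, hbmem⟩ = -b := fun j => by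
    refine sq_eq_sq_or ?_
    rw [← map_pow, hb, ← map_intCast j]
    congr 1
    apply Subtype.ext
    simpa using hb
  have cM : Nat.card {j : ℚ⟮a, b⟯ →+* Qbar // ∀ x, σ (j x) = j x} =
      if σ a = a ∧ σ b = b then 4 else 0 := by
    split_ifs with hs
    · rw [card_fix_all, hfM]
      intro j
      let φ : ℚ⟮a, b⟯ →ₐ[ℚ] Qbar := j.toRatAlgHom
      let φ' : ℚ⟮a, b⟯ →ₐ[ℚ] Qbar := (σ : Qbar →ₐ[ℚ] Qbar).comp φ
      have h1 : φ' = φ := by
        refine IntermediateField.adjoin_algHom_ext ℚ fun x hx => ?_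
        show σ (j _) = j _
        rcases hx with rfl | rfl
        · rcases hja j with e | e
          · rw [e, hs.1]
          · rw [e, map_neg, hs.1]
        · rcases hjb j with e | e
          · rw [e, hs.2]
          · rw [e, map_neg, hs.2]
      intro x
      exact DFunLike.congr_fun h1 x
    · rw [card_fix_none]
      intro j hall
      apply hs
      constructor
      · have h1 := hall ⟨a, hamem⟩
        rcases hja j with e | e
        · rwa [e] at h1
        · rw [e, map_neg] at h1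
          exact neg_injective h1
      · have h1 := hall ⟨b, hbmem⟩
        rcases hjb j with e | e
        · rwa [e] at h1
        · rw [e, map_neg] at h1
          exact neg_injective h1
  have hna : -a ≠ a := fun h => ha0 (by
    have : (2 : Qbar) * a = 0 := by linear_combination -h
    simpa using this)
  have hnb : -b ≠ b := fun h => hb0 (by
    have : (2 : Qbar) * b = 0 := by linear_combination -h
    simpa using this)
  have hnab : -(a * b) ≠ a * b := fun h => by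
    have : (2 : Qbar) * (a * b) = 0 := by linear_combination -h
    simp [ha0, hb0] at this
  rw [c1, c2, c3, cM, map_mul]
  rcases hsa with e1 | e1 <;> rcases hsb with e2 | e2 <;> rw [e1, e2]
  · simp
  · rw [mul_neg]
    simp [hnb, hnab]
  · rw [neg_mul]
    simp [hna, hnab]
  · rw [neg_mul_neg]
    simp [hna, hnb]

/-- Two quadratic fields containing a square root of the same non-square are isomorphic. -/
theorem nonempty_algEquiv {F F' : Type*} [Field F] [NumberField F] [Field F'] [NumberField F']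
    (h : finrank ℚ F = 2) (h' : finrank ℚ F' = 2) {d : ℤ} (hx : ∃ x : F, x ^ 2 = (d : F))
    (hx' : ∃ x : F', x ^ 2 = (d : F')) (hd : ¬ IsSquare (d : ℚ)) : Nonempty (F ≃ₐ[ℚ] F') := by
  obtain ⟨x, hx⟩ := hx
  obtain ⟨x', hx'⟩ := hx'
  have htop := adjoin_eq_top h hx hd
  have htop' := adjoin_eq_top h' hx' hd
  have hirr : Irreducible (Polynomial.X ^ 2 - Polynomial.C (d : ℚ)) :=
    X_pow_sub_C_irreducible_of_prime Nat.prime_two fun y hy => hd ⟨y, by rw [← hy, sq]⟩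
  have hm : minpoly ℚ x = Polynomial.X ^ 2 - Polynomial.C (d : ℚ) := by
    refine (minpoly.eq_of_irreducible_of_monic hirr ?_
      (Polynomial.monic_X_pow_sub_C _ two_ne_zero)).symm
    rw [map_sub, map_pow, Polynomial.aeval_X, Polynomial.aeval_C, hx, map_intCast, sub_self]
  have hm' : minpoly ℚ x' = Polynomial.X ^ 2 - Polynomial.C (d : ℚ) := by
    refine (minpoly.eq_of_irreducible_of_monic hirr ?_
      (Polynomial.monic_X_pow_sub_C _ two_ne_zero)).symm
    rw [map_sub, map_pow, Polynomial.aeval_X, Polynomial.aeval_C, hx', map_intCast, sub_self]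
  have hxi : IsIntegral ℚ x := Algebra.IsIntegral.isIntegral x
  have hxi' : IsIntegral ℚ x' := Algebra.IsIntegral.isIntegral x'
  have e : ℚ⟮x⟯ ≃ₐ[ℚ] ℚ⟮x'⟯ := (IntermediateField.adjoin.powerBasis hxi).equivOfMinpoly
    (IntermediateField.adjoin.powerBasis hxi') (by
      rw [IntermediateField.adjoin.powerBasis_gen, IntermediateField.adjoin.powerBasis_gen]
      exact (IntermediateField.minpoly_gen ℚ x).trans
        ((hm.trans hm'.symm).trans (IntermediateField.minpoly_gen ℚ x').symm))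
  have e1 : F ≃ₐ[ℚ] ℚ⟮x⟯ :=
    IntermediateField.topEquiv.symm.trans (IntermediateField.equivOfEq htop.symm)
  have e2 : F' ≃ₐ[ℚ] ℚ⟮x'⟯ :=
    IntermediateField.topEquiv.symm.trans (IntermediateField.equivOfEq htop'.symm)
  exact ⟨e1.trans (e.trans e2.symm)⟩

/-- Two quadratic fields with `d₁ d₂` a square are isomorphic. -/
theorem nonempty_equiv_of_isSquare_mul {K₁ K₂ : Type*} [Field K₁] [NumberField K₁] [Field K₂]
    [NumberField K₂] (h₁ : finrank ℚ K₁ = 2) (h₂ : finrank ℚ K₂ = 2) {d₁ d₂ : ℤ}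
    (hx₁ : ∃ x : K₁, x ^ 2 = (d₁ : K₁)) (hx₂ : ∃ x : K₂, x ^ 2 = (d₂ : K₂))
    (hd₁ : ¬ IsSquare (d₁ : ℚ)) (hd₂ : ¬ IsSquare (d₂ : ℚ))
    (h : IsSquare ((d₁ * d₂ : ℤ) : ℚ)) : Nonempty (K₁ ≃+* K₂) := by
  obtain ⟨r, hr⟩ := h
  obtain ⟨x, hx⟩ := hx₁
  have hd0 : (d₁ : ℚ) ≠ 0 := fun h => hd₁ (by rw [h]; exact IsSquare.zero)
  have hy : ∃ y : K₁, y ^ 2 = (d₂ : K₁) := by
    refine ⟨((r / d₁ : ℚ) : K₁) * x, ?_⟩
    rw [mul_pow, hx]
    have h1 : (r / d₁) ^ 2 * (d₁ : ℚ) = d₂ := by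
      rw [div_pow, sq r, ← hr]
      push_cast
      field_simp
    have h2 := congrArg (fun q : ℚ => (q : K₁)) h1
    push_cast at h2 ⊢
    exact h2
  obtain ⟨e⟩ := nonempty_algEquiv h₁ h₂ hy hx₂ hd₂
  exact ⟨e.toRingEquiv⟩

/-- Two quadratic fields with `d₁ d₂` a square have the same discriminant. -/
theorem discr_eq_of_isSquare_mul {K₁ K₂ : Type*} [Field K₁] [NumberField K₁] [Field K₂]
    [NumberField K₂] {d₁ d₂ : ℤ} (h₁ : finrank ℚ K₁ = 2) (h₂ : finrank ℚ K₂ = 2)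
    (hx₁ : ∃ x : K₁, x ^ 2 = (d₁ : K₁)) (hx₂ : ∃ x : K₂, x ^ 2 = (d₂ : K₂))
    (hd₁ : ¬ IsSquare (d₁ : ℚ)) (hd₂ : ¬ IsSquare (d₂ : ℚ))
    (h12 : IsSquare ((d₁ * d₂ : ℤ) : ℚ)) : discr K₁ = discr K₂ := by
  obtain ⟨e⟩ := nonempty_equiv_of_isSquare_mul h₁ h₂ hx₁ hx₂ hd₁ hd₂ h12
  exact discr_eq_discr_of_ringEquiv K₁ e

end Fermat.Agent.Cor.Siegel
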