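import Fermat.Agent.Corollaries.Siegel.Abs
import Fermat.Agent.Corollaries.Siegel.V4
import Fermat.Agent.Corollaries.Siegel.DiscThree
import Fermat.Agent.Corollaries.Siegel.Congr
import Fermat.Agent.Corollaries.Siegel.RelFin

/-!
# Siegel's theorem on the class numbers of quadratic fields, and Gauss' class number conjecture

`siegel_imaginary`: for every `ε > 0` there is `c > 0` such that the class number of every imaginary
quadratic field of discriminant `d` is at least `c |d|^(1/2 - ε)` (Siegel 1935);
`siegel_real`: the same for `h R`, for real quadratic fields;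
`exists_discr_bound`, `finite_discr_classNumber_le`, `finite_fields_classNumber_le`: there are only
finitely many imaginary quadratic fields with a given class number (conjecture of Gauss 1801, theorem
of Heilbronn 1934).
-/

set_option autoImplicit false

noncomputable section

open NumberField NumberField.InfinitePlace NumberField.Units Set Filter
open scoped Real Topology

namespace Fermat.Agent.Cor.Siegel

/-- The relation of the zeta functions in a biquadratic field. -/
theorem relStmt : RelStmt := by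
  intro K₁ K₂ _ _ _ _ h₁ h₂
  obtain ⟨hd₁, hx₁⟩ := exists_sq_eq_discr K₁ h₁
  obtain ⟨hd₂, hx₂⟩ := exists_sq_eq_discr K₂ h₂
  by_cases h : IsSquare ((discr K₁ * discr K₂ : ℤ) : ℚ)
  · obtain ⟨e⟩ := nonempty_equiv_of_isSquare_mul h₁ h₂ hx₁ hx₂ hd₁ hd₂ h
    exact Or.inl fun s hs => (zetaK_congr e hs).symm
  · obtain ⟨M, K₃, _, _, _, _, hM, h₃, hx₃, hσ⟩ := exists_v4 K₁ K₂ h₁ h₂ hx₁ hx₂ hd₁ hd₂ h
    have hb := Brauer.biquadratic hσ
    have hd₃ := abs_discr_le_of_sq K₃ h₃ h hx₃
    refine Or.inr ⟨M, K₃, _, _, _, _, hM, h₃, hb.1, hb.2.1, ?_⟩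
    rwa [abs_mul] at hd₃

/-- **Siegel's theorem** for all quadratic fields: `h 2^(r₁+r₂) R / w ≥ c(ε) |d|^(1/2 - ε)`. -/
theorem siegel {ε : ℝ} (hε : 0 < ε) : ∃ c : ℝ, 0 < c ∧
    ∀ (K : Type) [Field K] [NumberField K], Module.finrank ℚ K = 2 →
      c * |(discr K : ℝ)| ^ (1 / 2 - ε) ≤
        classNumber K * (2 ^ (nrRealPlaces K + nrComplexPlaces K) * regulator K / torsionOrder K) :=
  siegel_of relStmt hε

theorem two_le_torsionOrder (K : Type*) [Field K] [NumberField K] : 2 ≤ torsionOrder K := by
  obtain ⟨k, hk⟩ := even_torsionOrder K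
  have := torsionOrder_pos K
  omega

/-- **Siegel's theorem** for imaginary quadratic fields. -/
theorem siegel_imaginary {ε : ℝ} (hε : 0 < ε) : ∃ c : ℝ, 0 < c ∧
    ∀ (K : Type) [Field K] [NumberField K] [IsTotallyComplex K], Module.finrank ℚ K = 2 →
      c * |(discr K : ℝ)| ^ (1 / 2 - ε) ≤ classNumber K := by
  obtain ⟨c, hc, h⟩ := siegel hε
  refine ⟨c, hc, fun K _ _ _ hK => (h K hK).trans ?_⟩
  have h1 := card_add_two_mul_card_eq_rank K
  have h2 : nrRealPlaces K = 0 := nrRealPlaces_eq_zero_iff.2 inferInstance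
  have h3 := rank_add_one (K := K)
  have h4 : nrComplexPlaces K = 1 := by omega
  have h5 : rank K = 0 := by omega
  have hw := two_le_torsionOrder K
  have hw' : (2 : ℝ) ≤ torsionOrder K := by exact_mod_cast hw
  rw [regulator_of_rank_eq_zero K h5, h2, h4]
  refine mul_le_of_le_one_right (Nat.cast_nonneg _) ?_
  rw [div_le_one (by linarith)]
  norm_num
  exact hw

/-- **Siegel's theorem** for real quadratic fields. -/
theorem siegel_real {ε : ℝ} (hε : 0 < ε) : ∃ c : ℝ, 0 < c ∧
    ∀ (K : Type) [Field K] [NumberField K] [IsTotallyReal K], Module.finrank ℚ K = 2 →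
      c * |(discr K : ℝ)| ^ (1 / 2 - ε) ≤ classNumber K * regulator K := by
  obtain ⟨c, hc, h⟩ := siegel hε
  refine ⟨c / 2, by positivity, fun K _ _ _ hK => ?_⟩
  have h0 := h K hK
  have h1 := card_add_two_mul_card_eq_rank K
  have h2 : nrComplexPlaces K = 0 := nrComplexPlaces_eq_zero_iff.2 inferInstance
  have h4 : nrRealPlaces K = 2 := by omega
  have hw' : (2 : ℝ) ≤ torsionOrder K := by exact_mod_cast two_le_torsionOrder K
  have hR := regulator_pos K
  rw [h2, h4] at h0
  have h5 : (2 : ℝ) ^ (2 + 0) * regulator K / torsionOrder K ≤ 2 * regulator K := by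
    rw [div_le_iff₀ (by linarith)]
    have h7 := mul_le_mul_of_nonneg_left hw' hR.le
    have h8 : (2 : ℝ) ^ (2 + 0) * regulator K = 4 * regulator K := by norm_num
    rw [h8]
    linarith
  have h6 : (classNumber K : ℝ) * (2 ^ (2 + 0) * regulator K / torsionOrder K) ≤
      classNumber K * (2 * regulator K) :=
    mul_le_mul_of_nonneg_left h5 (Nat.cast_nonneg _)
  linarith

/-! ### Gauss' class number conjecture -/

/-- **The class number of an imaginary quadratic field tends to infinity with the absolute value of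
its discriminant** (Heilbronn 1934). -/
theorem exists_discr_bound (N : ℕ) : ∃ B : ℕ,
    ∀ (K : Type) [Field K] [NumberField K] [IsTotallyComplex K], Module.finrank ℚ K = 2 →
      classNumber K ≤ N → |discr K| ≤ B := by
  obtain ⟨c, hc, h⟩ := siegel_imaginary (ε := 1 / 4) (by norm_num)
  refine ⟨⌈(N / c) ^ (4 : ℝ)⌉₊, fun K _ _ _ hK hN => ?_⟩
  have h1 := h K hK
  have hD : 0 < |(discr K : ℝ)| := zero_lt_one.trans_le (one_le_absDisc K)
  rw [show (1 / 2 - 1 / 4 : ℝ) = 1 / 4 by norm_num] at h1
  have hN' : (classNumber K : ℝ) ≤ N := by exact_mod_cast hN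
  have h2 : |(discr K : ℝ)| ^ (1 / 4 : ℝ) ≤ N / c := by
    rw [le_div_iff₀ hc]
    linarith
  have h3 : |(discr K : ℝ)| ≤ (N / c) ^ (4 : ℝ) := by
    calc |(discr K : ℝ)| = (|(discr K : ℝ)| ^ (1 / 4 : ℝ)) ^ (4 : ℝ) := by
          rw [← Real.rpow_mul hD.le, show (1 / 4 * 4 : ℝ) = 1 by norm_num, Real.rpow_one]
      _ ≤ _ := Real.rpow_le_rpow (Real.rpow_nonneg hD.le _) h2 (by norm_num)
  have h4 : |(discr K : ℝ)| ≤ (⌈(N / c) ^ (4 : ℝ)⌉₊ : ℝ) := h3.trans (Nat.le_ceil _)
  exact_mod_cast h4

/-- **Gauss' class number conjecture** (theorem of Heilbronn): only finitely many integers are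
discriminants of imaginary quadratic fields with class number at most `N`. -/
theorem finite_discr_classNumber_le (N : ℕ) :
    {d : ℤ | ∃ (K : Type) (_ : Field K) (_ : NumberField K), Module.finrank ℚ K = 2 ∧
      IsTotallyComplex K ∧ discr K = d ∧ classNumber K ≤ N}.Finite := by
  obtain ⟨B, hB⟩ := exists_discr_bound N
  refine (Set.finite_Icc (-(B : ℤ)) B).subset ?_
  rintro d ⟨K, _, _, hK, hc, rfl, hN⟩
  exact abs_le.1 (hB K hK hN)

/-- **Gauss' class number conjecture** (theorem of Heilbronn): in a field of characteristic zero there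
are only finitely many imaginary quadratic subfields with class number at most `N`. -/
theorem finite_fields_classNumber_le (A : Type) [Field A] [CharZero A] (N : ℕ) :
    {K : {F : IntermediateField ℚ A // FiniteDimensional ℚ F} |
      haveI : NumberField K := @NumberField.mk _ _ inferInstance K.prop
      Module.finrank ℚ K = 2 ∧ IsTotallyComplex K ∧ classNumber K ≤ N}.Finite := by
  obtain ⟨B, hB⟩ := exists_discr_bound N
  refine (finite_of_discr_bdd A B).subset ?_
  rintro K ⟨hK, hc, hN⟩
  have : NumberField K := @NumberField.mk _ _ inferInstance K.prop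
  exact hB K hK hN

end Fermat.Agent.Cor.Siegel
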