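import Mathlib
import Fermat.Agent.Corollaries.Siegel.Genus

/-!
# Genus theory of imaginary quadratic fields: the lower bound `2 ^ t ≤ 2 #Cl[2]`

A prime `p` which divides the discriminant is the square of an ideal `P_p`
(`exists_sq_eq_of_dvd`). The `2 ^ t` products of these ideals give classes with `C ^ 2 = 1`, and at
most two of the products are in the same class (`le_two_mul_card_sq_eq_one`), since a product of two
units which are not squares of units is the square of a unit.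
-/

set_option autoImplicit false

noncomputable section

namespace Fermat.Agent.Cor.Siegel

open NumberField nonZeroDivisors

variable {K : Type*} [Field K] [NumberField K]

/-- A prime number which divides the discriminant lies in the square of a prime ideal. -/
theorem exists_mem_sq_of_dvd {p : ℕ} (hp : p.Prime) (hpd : (p : ℤ) ∣ discr K) :
    ∃ P : Ideal (𝓞 K), P.IsPrime ∧ (p : 𝓞 K) ∈ P ^ 2 := by
  by_contra hcon
  push Not at hcon
  have hp' : Prime (p : ℤ) := Nat.prime_iff_prime_int.mp hp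
  refine (not_dvd_discr_iff_forall_mem K (𝓞 K) hp').mpr (fun P hP hmem => ?_) hpd
  have hmem' : (p : 𝓞 K) ∈ P := by simpa using hmem
  have hover : P.LiesOver (Ideal.span {(p : ℤ)}) :=
    (Ideal.liesOver_span_iff hP.ne_top hp').mpr hmem
  have hle : (Ideal.span {(p : ℤ)}).map (algebraMap ℤ (𝓞 K)) ≤ P := by
    rw [Ideal.map_span, Set.image_singleton, Ideal.span_singleton_le_iff_mem]
    exact hmem
  have hne : (Ideal.span {(p : ℤ)}).map (algebraMap ℤ (𝓞 K)) ≠ ⊥ := by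
    rw [Ideal.map_span, Set.image_singleton, Ne, Ideal.span_singleton_eq_bot]
    simpa using hp.ne_zero
  rw [← Ideal.ramificationIdx_eq_one_iff,
    ← Ideal.ramificationIdx'_eq_ramificationIdx' (Ideal.span {(p : ℤ)}) P hne]
  by_contra h
  have h1 := (Ideal.ramificationIdx'_ne_one_iff hle).mp h
  rw [Ideal.map_span, Set.image_singleton, Ideal.span_singleton_le_iff_mem] at h1
  exact hcon P hP (by simpa using h1)

/-- In a quadratic field a prime number which divides the discriminant is the square of an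
ideal. -/
theorem exists_sq_eq_of_dvd (h2 : Module.finrank ℚ K = 2) {p : ℕ} (hp : p.Prime)
    (hpd : (p : ℤ) ∣ discr K) : ∃ P : Ideal (𝓞 K), P ^ 2 = Ideal.span {(p : 𝓞 K)} := by
  obtain ⟨P, hP, hmem⟩ := exists_mem_sq_of_dvd hp hpd
  have hr : Module.finrank ℤ (𝓞 K) = 2 := by rw [RingOfIntegers.rank, h2]
  refine ⟨P, ?_⟩
  obtain ⟨J, hJ⟩ := Ideal.dvd_span_singleton.mpr hmem
  have hN : Ideal.absNorm (Ideal.span {(p : 𝓞 K)}) = p ^ 2 := by
    rw [Ideal.absNorm_span_singleton]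
    have h1 : Algebra.norm ℤ (p : 𝓞 K) = (p : ℤ) ^ 2 := by
      have h := Algebra.norm_algebraMap_of_basis
        (Module.finBasisOfFinrankEq ℤ (𝓞 K) hr) (p : ℤ)
      simpa using h
    rw [h1]
    simp [Int.natAbs_pow]
  have h1 : p ^ 2 = Ideal.absNorm P ^ 2 * Ideal.absNorm J := by
    rw [← hN, hJ, map_mul, map_pow]
  have h3 : Ideal.absNorm P ∣ p := (Nat.pow_dvd_pow_iff two_ne_zero).mp ⟨_, h1⟩
  have h4 : Ideal.absNorm P = p := by
    rcases (Nat.dvd_prime hp).mp h3 with h | h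
    · exact absurd (Ideal.absNorm_eq_one_iff.mp h) hP.ne_top
    · exact h
  have h5 : Ideal.absNorm J = 1 := by
    rw [h4] at h1
    have h6 : 0 < p ^ 2 := pow_pos hp.pos 2
    exact (Nat.eq_of_mul_eq_mul_left h6 (by rw [mul_one, ← h1])).symm
  rw [hJ, Ideal.absNorm_eq_one_iff.mp h5, Ideal.mul_top]

/-- A positive integer which is a square in an imaginary quadratic field is a square. -/
theorem exists_sq_of_sq [IsTotallyComplex K] (h2 : Module.finrank ℚ K = 2) {x : 𝓞 K} {n : ℕ}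
    (hn : n ≠ 0) (h : x ^ 2 = (n : 𝓞 K)) : ∃ m : ℕ, n = m ^ 2 := by
  have hr : Module.finrank ℤ (𝓞 K) = 2 := by rw [RingOfIntegers.rank, h2]
  have hx : x ≠ 0 := by
    rintro rfl
    rw [zero_pow two_ne_zero] at h
    exact hn (by exact_mod_cast h.symm)
  have hpos := norm_int_pos h2 hx
  have h1 : Algebra.norm ℤ x = (n : ℤ) := by
    have h3 : Algebra.norm ℤ (n : 𝓞 K) = (n : ℤ) ^ 2 := by
      have h := Algebra.norm_algebraMap_of_basis
        (Module.finBasisOfFinrankEq ℤ (𝓞 K) hr) (n : ℤ)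
      simpa using h
    have h4 : (Algebra.norm ℤ x) ^ 2 = (n : ℤ) ^ 2 := by rw [← map_pow, h, h3]
    exact (pow_left_inj₀ hpos.le (by positivity) two_ne_zero).mp h4
  have hrel := sq_relation h2 x
  rw [h1, h] at hrel
  push_cast at hrel
  set T : ℤ := Algebra.trace ℤ (𝓞 K) x
  have h5 : (T : 𝓞 K) * x = 2 * n := by linear_combination -hrel
  have h6 : ((T ^ 2 * n : ℤ) : 𝓞 K) = ((4 * n * n : ℤ) : 𝓞 K) := by
    push_cast
    calc (T : 𝓞 K) ^ 2 * (n : 𝓞 K) = ((T : 𝓞 K) * x) ^ 2 := by rw [mul_pow, h]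
      _ = 4 * (n : 𝓞 K) * (n : 𝓞 K) := by rw [h5]; ring
  have h7 : T ^ 2 * n = 4 * n * n := by exact_mod_cast h6
  have hn' : (n : ℤ) ≠ 0 := by exact_mod_cast hn
  have h8 : T ^ 2 = 4 * n := mul_right_cancel₀ hn' h7
  have h9 : (2 : ℤ) ∣ T := Int.prime_two.dvd_of_dvd_pow ⟨2 * n, by rw [h8]; ring⟩
  obtain ⟨k, hk⟩ := h9
  refine ⟨k.natAbs, ?_⟩
  have h10 : (n : ℤ) = k ^ 2 := by
    rw [hk] at h8
    linarith
  zify
  rw [sq_abs]
  exact h10

/-- The units of an imaginary quadratic field are powers of one unit. -/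
theorem exists_units_eq_zpow [IsTotallyComplex K] (h2 : Module.finrank ℚ K = 2) :
    ∃ g : (𝓞 K)ˣ, ∀ u : (𝓞 K)ˣ, ∃ k : ℤ, u = g ^ k := by
  have h1 := InfinitePlace.card_add_two_mul_card_eq_rank K
  have h3 : InfinitePlace.nrRealPlaces K = 0 :=
    nrRealPlaces_eq_zero_iff.2 inferInstance
  have h4 : Units.rank K = 0 := by
    rw [Units.rank, InfinitePlace.card_eq_nrRealPlaces_add_nrComplexPlaces]
    omega
  have h5 := Units.closure_fundSystem_sup_torsion_eq_top (K := K)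
  have h6 : IsEmpty (Fin (Units.rank K)) := by
    rw [h4]
    exact inferInstance
  rw [Set.range_eq_empty, Subgroup.closure_empty, bot_sup_eq] at h5
  obtain ⟨g, hg⟩ := IsCyclic.exists_generator (α := Units.torsion K)
  refine ⟨g, fun u => ?_⟩
  have hu : u ∈ Units.torsion K := by rw [h5]; trivial
  obtain ⟨k, hk⟩ := Subgroup.mem_zpowers_iff.mp (hg ⟨u, hu⟩)
  refine ⟨k, ?_⟩
  have := congrArg Subtype.val hk
  simpa using this.symm

/-- The product of two units which are not squares is a square. -/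
theorem exists_mul_eq_sq [IsTotallyComplex K] (h2 : Module.finrank ℚ K = 2) {u v : (𝓞 K)ˣ}
    (hu : ¬ IsSquare u) (hv : ¬ IsSquare v) : IsSquare (u * v) := by
  obtain ⟨g, hg⟩ := exists_units_eq_zpow (K := K) h2
  obtain ⟨k, rfl⟩ := hg u
  obtain ⟨l, rfl⟩ := hg v
  have hk : Odd k := by
    rw [← Int.not_even_iff_odd]
    rintro ⟨m, rfl⟩
    exact hu ⟨g ^ m, zpow_add g m m⟩
  have hl : Odd l := by
    rw [← Int.not_even_iff_odd]
    rintro ⟨m, rfl⟩
    exact hv ⟨g ^ m, zpow_add g m m⟩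
  obtain ⟨m, hm⟩ := hk.add_odd hl
  exact ⟨g ^ m, by rw [← zpow_add, hm, zpow_add]⟩

/-- Two ideals in the same class with squares generated by positive integers. -/
theorem exists_sq_eq_unit_mul {I J : (Ideal (𝓞 K))⁰} {m n : ℕ}
    (hI : (I : Ideal (𝓞 K)) ^ 2 = Ideal.span {(m : 𝓞 K)})
    (hJ : (J : Ideal (𝓞 K)) ^ 2 = Ideal.span {(n : 𝓞 K)})
    (h : ClassGroup.mk0 I = ClassGroup.mk0 J) :
    ∃ (α : 𝓞 K) (u : (𝓞 K)ˣ), α ^ 2 = (u : 𝓞 K) * ((m * n : ℕ) : 𝓞 K) := by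
  have hJ2 : ClassGroup.mk0 J * ClassGroup.mk0 J = 1 := by
    rw [← map_mul]
    refine (ClassGroup.mk0_eq_one_iff (J * J).2).mpr ⟨⟨(n : 𝓞 K), ?_⟩⟩
    rw [Submonoid.coe_mul, ← pow_two]
    exact hJ
  have h1 : ClassGroup.mk0 (I * J) = 1 := by rw [map_mul, h, hJ2]
  obtain ⟨α, hα⟩ := (Submodule.isPrincipal_iff _).mp ((ClassGroup.mk0_eq_one_iff (I * J).2).mp h1)
  have hα' : (I : Ideal (𝓞 K)) * J = Ideal.span {α} := hα
  have h3 : Ideal.span {((m * n : ℕ) : 𝓞 K)} = Ideal.span {α ^ 2} := by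
    rw [← Ideal.span_singleton_pow, ← hα', mul_pow, hI, hJ,
      Ideal.span_singleton_mul_span_singleton, Nat.cast_mul]
  obtain ⟨u, hu⟩ := Ideal.span_singleton_eq_span_singleton.mp h3
  exact ⟨α, u, by rw [← hu, mul_comm]⟩

/-- If `α ^ 2 = v k² n` with a square `v` of a unit, then `n` is a square. -/
theorem exists_sq_of_unit_sq [IsTotallyComplex K] (h2 : Module.finrank ℚ K = 2) {k n : ℕ}
    (hk : k ≠ 0) (hn : n ≠ 0) {β : 𝓞 K} {v : (𝓞 K)ˣ} (hv : IsSquare v)
    (hβ : β ^ 2 = (v : 𝓞 K) * ((k ^ 2 * n : ℕ) : 𝓞 K)) : ∃ m : ℕ, n = m ^ 2 := by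
  obtain ⟨w, rfl⟩ := hv
  have h1 : (β * ((w⁻¹ : (𝓞 K)ˣ) : 𝓞 K)) ^ 2 = ((k ^ 2 * n : ℕ) : 𝓞 K) := by
    rw [mul_pow, hβ, Units.val_mul]
    have hw : (w : 𝓞 K) * ((w⁻¹ : (𝓞 K)ˣ) : 𝓞 K) = 1 := Units.mul_inv w
    generalize ((w⁻¹ : (𝓞 K)ˣ) : 𝓞 K) = z at hw ⊢
    linear_combination ((k ^ 2 * n : ℕ) : 𝓞 K) * ((w : 𝓞 K) * z + 1) * hw
  obtain ⟨m, hm⟩ := exists_sq_of_sq h2 (mul_ne_zero (pow_ne_zero 2 hk) hn) h1
  have h3 : k ∣ m := (Nat.pow_dvd_pow_iff two_ne_zero).mp ⟨_, hm.symm⟩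
  obtain ⟨l, rfl⟩ := h3
  refine ⟨l, ?_⟩
  rw [mul_pow] at hm
  exact Nat.eq_of_mul_eq_mul_left (pow_pos (Nat.pos_of_ne_zero hk) 2) hm

/-- Three ideals in the same class, with squares generated by the positive integers `k`, `m`,
`n`: one of `k m`, `k n`, `m n` is a square. -/
theorem exists_sq_of_three [IsTotallyComplex K] (h2 : Module.finrank ℚ K = 2)
    {I J L : (Ideal (𝓞 K))⁰} {k m n : ℕ} (hk : k ≠ 0) (hm : m ≠ 0) (hn : n ≠ 0)
    (hI : (I : Ideal (𝓞 K)) ^ 2 = Ideal.span {(k : 𝓞 K)})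
    (hJ : (J : Ideal (𝓞 K)) ^ 2 = Ideal.span {(m : 𝓞 K)})
    (hL : (L : Ideal (𝓞 K)) ^ 2 = Ideal.span {(n : 𝓞 K)})
    (hIJ : ClassGroup.mk0 I = ClassGroup.mk0 J) (hIL : ClassGroup.mk0 I = ClassGroup.mk0 L) :
    (∃ l : ℕ, k * m = l ^ 2) ∨ (∃ l : ℕ, k * n = l ^ 2) ∨ ∃ l : ℕ, m * n = l ^ 2 := by
  obtain ⟨α, u, hα⟩ := exists_sq_eq_unit_mul hI hJ hIJ
  obtain ⟨β, v, hβ⟩ := exists_sq_eq_unit_mul hI hL hIL
  by_cases hu : IsSquare u
  · exact Or.inl (exists_sq_of_unit_sq h2 (β := α) one_ne_zero (mul_ne_zero hk hm) hu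
      (by rw [one_pow, one_mul]; exact hα))
  by_cases hv : IsSquare v
  · exact Or.inr (Or.inl (exists_sq_of_unit_sq h2 (β := β) one_ne_zero (mul_ne_zero hk hn) hv
      (by rw [one_pow, one_mul]; exact hβ)))
  refine Or.inr (Or.inr (exists_sq_of_unit_sq h2 (β := α * β) hk (mul_ne_zero hm hn)
    (exists_mul_eq_sq h2 hu hv) ?_))
  rw [mul_pow, hα, hβ, Units.val_mul]
  push_cast
  ring

/-- If the product of the products of two finite sets of primes is a square, the sets are equal. -/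
theorem eq_of_prod_mul_prod_eq_sq {S T : Finset ℕ} (hS : ∀ p ∈ S, p.Prime)
    (hT : ∀ p ∈ T, p.Prime) (h : ∃ m : ℕ, (∏ p ∈ S, p) * (∏ p ∈ T, p) = m ^ 2) : S = T := by
  obtain ⟨m, hm⟩ := h
  have hn : ∀ U : Finset ℕ, (∀ p ∈ U, p.Prime) → (∏ p ∈ U, p) ≠ 0 := fun U hU =>
    Finset.prod_ne_zero_iff.mpr fun p hp => (hU p hp).ne_zero
  have hfac : ∀ U : Finset ℕ, (∀ p ∈ U, p.Prime) → ∀ p : ℕ,
      (∏ q ∈ U, q).factorization p = if p ∈ U then 1 else 0 := by
    intro U hU p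
    have h1 : (∏ q ∈ U, q).factorization = ∑ q ∈ U, Nat.factorization q :=
      Nat.factorization_prod fun q hq => (hU q hq).ne_zero
    have h3 : ∀ q ∈ U, (Nat.factorization q) p = if p = q then 1 else 0 := by
      intro q hq
      rw [(hU q hq).factorization, Finsupp.single_apply]
      simp [eq_comm]
    rw [h1, Finsupp.finsetSum_apply, Finset.sum_congr rfl h3, Finset.sum_ite_eq]
  ext p
  have h1 : ((∏ p ∈ S, p) * (∏ p ∈ T, p)).factorization p = 2 * m.factorization p := by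
    rw [hm, Nat.factorization_pow]
    simp
  rw [Nat.factorization_mul (hn S hS) (hn T hT), Finsupp.add_apply, hfac S hS p,
    hfac T hT p] at h1
  by_cases ha : p ∈ S <;> by_cases hb : p ∈ T <;> simp only [ha, hb, if_true, if_false] at h1 ⊢ <;>
    omega

/-- **Genus theory, lower bound**: in an imaginary quadratic field the number of classes with
`C ^ 2 = 1` is at least `2 ^ (t - 1)`, `t` the number of primes which divide the discriminant. -/
theorem le_two_mul_card_sq_eq_one (K : Type*) [Field K] [NumberField K] [IsTotallyComplex K]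
    (h2 : Module.finrank ℚ K = 2) :
    2 ^ (discr K).natAbs.primeFactors.card ≤
      2 * Nat.card {C : ClassGroup (𝓞 K) // C ^ 2 = 1} := by
  classical
  -- the ideal of a set of primes which divide the discriminant
  have hex : ∀ S : {S // S ∈ (discr K).natAbs.primeFactors.powerset},
      ∃ I : (Ideal (𝓞 K))⁰, (I : Ideal (𝓞 K)) ^ 2 = Ideal.span {((∏ p ∈ S.1, p : ℕ) : 𝓞 K)} := by
    intro S
    have hS := Finset.mem_powerset.mp S.2
    have hex : ∀ p ∈ S.1, ∃ P : Ideal (𝓞 K), P ^ 2 = Ideal.span {(p : 𝓞 K)} := fun p hp =>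
      exists_sq_eq_of_dvd h2 (Nat.prime_of_mem_primeFactors (hS hp))
        (Int.natCast_dvd.mpr (Nat.dvd_of_mem_primeFactors (hS hp)))
    choose! P hP using hex
    have h1 : (∏ p ∈ S.1, P p) ^ 2 = Ideal.span {((∏ p ∈ S.1, p : ℕ) : 𝓞 K)} := by
      rw [← Finset.prod_pow, Finset.prod_congr rfl hP, Ideal.prod_span_singleton, Nat.cast_prod]
    refine ⟨⟨∏ p ∈ S.1, P p, mem_nonZeroDivisors_of_ne_zero fun h0 => ?_⟩, h1⟩
    rw [h0, zero_pow two_ne_zero] at h1
    have h3 : ((∏ p ∈ S.1, p : ℕ) : 𝓞 K) = 0 := Ideal.span_singleton_eq_bot.mp h1.symm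
    have h4 : (∏ p ∈ S.1, p) ≠ 0 := Finset.prod_ne_zero_iff.mpr fun p hp =>
      (Nat.prime_of_mem_primeFactors (hS hp)).ne_zero
    exact h4 (by exact_mod_cast h3)
  choose I hI using hex
  have hpr : ∀ S : {S // S ∈ (discr K).natAbs.primeFactors.powerset}, ∀ p ∈ S.1, p.Prime :=
    fun S p hp => Nat.prime_of_mem_primeFactors (Finset.mem_powerset.mp S.2 hp)
  have hn : ∀ S : {S // S ∈ (discr K).natAbs.primeFactors.powerset}, (∏ p ∈ S.1, p) ≠ 0 :=
    fun S => Finset.prod_ne_zero_iff.mpr fun p hp => (hpr S p hp).ne_zero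
  have hc2 : ∀ S, ClassGroup.mk0 (I S) ^ 2 = 1 := by
    intro S
    rw [pow_two, ← map_mul]
    refine (ClassGroup.mk0_eq_one_iff (I S * I S).2).mpr ⟨⟨((∏ p ∈ S.1, p : ℕ) : 𝓞 K), ?_⟩⟩
    rw [Submonoid.coe_mul, ← pow_two]
    exact hI S
  let c : {S // S ∈ (discr K).natAbs.primeFactors.powerset} →
      {C : ClassGroup (𝓞 K) // C ^ 2 = 1} := fun S => ⟨ClassGroup.mk0 (I S), hc2 S⟩
  have hfib : ∀ C ∈ (Finset.univ : Finset {C : ClassGroup (𝓞 K) // C ^ 2 = 1}),
      ((Finset.univ : Finset {S // S ∈ (discr K).natAbs.primeFactors.powerset}).filter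
        fun S => c S = C).card ≤ 2 := by
    intro C _
    by_contra hcon
    rw [not_le, Finset.two_lt_card] at hcon
    obtain ⟨S₁, h₁, S₂, h₂, S₃, h₃, h12, h13, h23⟩ := hcon
    have e1 : c S₁ = C := (Finset.mem_filter.mp h₁).2
    have e2 : c S₂ = C := (Finset.mem_filter.mp h₂).2
    have e3 : c S₃ = C := (Finset.mem_filter.mp h₃).2
    have e12 : ClassGroup.mk0 (I S₁) = ClassGroup.mk0 (I S₂) :=
      congrArg Subtype.val (e1.trans e2.symm)
    have e13 : ClassGroup.mk0 (I S₁) = ClassGroup.mk0 (I S₃) :=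
      congrArg Subtype.val (e1.trans e3.symm)
    rcases exists_sq_of_three h2 (hn S₁) (hn S₂) (hn S₃) (hI S₁) (hI S₂) (hI S₃) e12 e13 with
      h | h | h
    · exact h12 (Subtype.ext (eq_of_prod_mul_prod_eq_sq (hpr S₁) (hpr S₂) h))
    · exact h13 (Subtype.ext (eq_of_prod_mul_prod_eq_sq (hpr S₁) (hpr S₃) h))
    · exact h23 (Subtype.ext (eq_of_prod_mul_prod_eq_sq (hpr S₂) (hpr S₃) h))
  have h1 := Finset.card_le_mul_card_image_of_maps_to (f := c) (s := Finset.univ)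
    (t := Finset.univ) (fun _ _ => Finset.mem_univ _) 2 hfib
  rw [Finset.card_univ, Finset.card_univ, Fintype.card_coe, Finset.card_powerset,
    ← Nat.card_eq_fintype_card] at h1
  exact h1

end Fermat.Agent.Cor.Siegel
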