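import Mathlib
import Fermat.Agent.Corollaries.Siegel.Genus

/-!
# Genus theory of imaginary quadratic fields: the upper bound `2 #Cl[2] ≤ 2 ^ t`

There is a principal ideal `(z)` with `(z) ^ 2 = (b)`, `b` a positive integer which has an odd
exponent at some prime (`exists_principal_odd`): `z = 2 x - Tr x` for an integer `x` which is not
rational, or `z = 1 + i` in the field `ℚ(i)`. Hence the parities of the exponents of `b` only give
`2 ^ (t - 1)` classes with `C ^ 2 = 1` (`two_mul_card_sq_eq_one_le`).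
-/

set_option autoImplicit false

noncomputable section

namespace Fermat.Agent.Cor.Siegel

open NumberField nonZeroDivisors

variable {K : Type*} [Field K] [NumberField K]

/-- A quadratic field has an integer which is not rational. -/
theorem exists_not_int (h2 : Module.finrank ℚ K = 2) : ∃ x : 𝓞 K, ∀ n : ℤ, x ≠ n := by
  by_contra hcon
  push Not at hcon
  have hr : Module.finrank ℤ (𝓞 K) = 2 := by rw [RingOfIntegers.rank, h2]
  let b : Module.Basis (Fin 2) ℤ (𝓞 K) := Module.finBasisOfFinrankEq ℤ (𝓞 K) hr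
  obtain ⟨m, hm⟩ := hcon (b 0)
  obtain ⟨n, hn⟩ := hcon (b 1)
  have h1 := Fintype.linearIndependent_iff.mp b.linearIndependent ![n, -m] (by
    rw [Fin.sum_univ_two, hm, hn]
    simp only [Matrix.cons_val_zero, Matrix.cons_val_one, zsmul_eq_mul, Int.cast_neg]
    ring) 0
  have h3 : n = 0 := h1
  rw [h3, Int.cast_zero] at hn
  exact b.ne_zero 1 hn

/-- In an imaginary quadratic field there is a non-zero integer `z` whose square generates the ideal
`(b)` of a positive integer with an odd exponent at some prime. -/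
theorem exists_principal_odd [IsTotallyComplex K] (h2 : Module.finrank ℚ K = 2) :
    ∃ (z : 𝓞 K) (b : ℕ) (p : ℕ), z ≠ 0 ∧ b ≠ 0 ∧ Ideal.span {z} ^ 2 = Ideal.span {(b : 𝓞 K)} ∧
      p.Prime ∧ ¬ Even (b.factorization p) := by
  obtain ⟨x, hx⟩ := exists_not_int h2
  have hr : Module.finrank ℤ (𝓞 K) = 2 := by rw [RingOfIntegers.rank, h2]
  set T : ℤ := Algebra.trace ℤ (𝓞 K) x with hT
  set z : 𝓞 K := 2 * x - T with hz
  -- the trace of `z` is zero
  have htr : Algebra.trace ℤ (𝓞 K) z = 0 := by
    have h1 : z = (2 : ℤ) • x - algebraMap ℤ (𝓞 K) T := by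
      rw [hz, zsmul_eq_mul]
      simp
    rw [h1, map_sub, map_zsmul, Algebra.trace_algebraMap, hr, ← hT]
    simp
  have hz0 : z ≠ 0 := by
    intro h0
    have h1 : 2 * x = (T : 𝓞 K) := by rw [← sub_eq_zero, ← hz, h0]
    have h3 := sq_relation h2 x
    rw [← hT, ← h1] at h3
    have h4 : (Algebra.norm ℤ x : 𝓞 K) = x ^ 2 := by linear_combination h3
    have h5 : ((T ^ 2 : ℤ) : 𝓞 K) = ((4 * Algebra.norm ℤ x : ℤ) : 𝓞 K) := by
      push_cast
      rw [h4, ← h1]
      ring
    have h6 : T ^ 2 = 4 * Algebra.norm ℤ x := by exact_mod_cast h5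
    have h7 : (2 : ℤ) ∣ T := by
      have : (2 : ℤ) ∣ T ^ 2 := ⟨2 * Algebra.norm ℤ x, by rw [h6]; ring⟩
      exact Int.prime_two.dvd_of_dvd_pow this
    obtain ⟨k, hk⟩ := h7
    apply hx k
    have h8 : (2 : 𝓞 K) * (x - k) = 0 := by
      rw [mul_sub, h1, hk]
      push_cast
      ring
    rcases mul_eq_zero.mp h8 with h9 | h9
    · exact absurd h9 two_ne_zero
    · exact sub_eq_zero.mp h9
  have hpos := norm_int_pos h2 hz0
  have hrel := sq_relation h2 z
  rw [htr] at hrel
  set n : ℕ := (Algebra.norm ℤ z).natAbs with hn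
  have hnz : (Algebra.norm ℤ z : ℤ) = (n : ℤ) := (Int.natAbs_of_nonneg hpos.le).symm
  have hn0 : n ≠ 0 := Int.natAbs_ne_zero.mpr hpos.ne'
  have hz2 : z ^ 2 = -(n : 𝓞 K) := by
    rw [hnz] at hrel
    push_cast at hrel
    linear_combination hrel
  by_cases hodd : ∀ p : ℕ, p.Prime → Even (n.factorization p)
  · -- `-1` is a square: `z = 1 + i`
    obtain ⟨m, hm⟩ := exists_sq_of_even hn0 hodd
    have hm0 : m ≠ 0 := by
      rintro rfl
      exact hn0 (by rw [hm]; rfl)
    have hmK : (m : K) ≠ 0 := by exact_mod_cast hm0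
    have hi : ((z : K) / m) ^ 2 = -1 := by
      have h1 : ((z : K)) ^ 2 = -(n : K) := by
        have := congrArg (algebraMap (𝓞 K) K) hz2
        simpa using this
      rw [div_pow, h1, hm]
      push_cast
      field_simp
    have hint : IsIntegral ℤ ((z : K) / m) := by
      refine ⟨Polynomial.X ^ 2 + 1, ?_, ?_⟩
      · monicity!
      · simp [hi]
    obtain ⟨i, hi'⟩ : ∃ i : 𝓞 K, (i : K) = (z : K) / m := ⟨⟨_, hint⟩, rfl⟩
    have hi2 : i ^ 2 = -1 := by
      apply RingOfIntegers.ext
      change ((i : K)) ^ 2 = -1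
      rw [hi', hi]
    have hiu : IsUnit i := IsUnit.of_mul_eq_one (-i) (by linear_combination -hi2)
    have h1i : (1 + i) ^ 2 = i * ((2 : ℕ) : 𝓞 K) := by
      push_cast
      linear_combination hi2
    refine ⟨1 + i, 2, 2, ?_, two_ne_zero, ?_, Nat.prime_two, ?_⟩
    · intro h0
      rw [h0, zero_pow two_ne_zero] at h1i
      exact mul_ne_zero hiu.ne_zero (Nat.cast_ne_zero.mpr two_ne_zero) h1i.symm
    · rw [Ideal.span_singleton_pow, h1i, Ideal.span_singleton_mul_left_unit hiu]
    · rw [Nat.prime_two.factorization_self]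
      decide
  · push Not at hodd
    obtain ⟨p, hp, hpo⟩ := hodd
    refine ⟨z, n, p, hz0, hn0, ?_, hp, hpo⟩
    rw [Ideal.span_singleton_pow, hz2, Ideal.span_singleton_neg]

/-- **Genus theory, sharp upper bound**: in an imaginary quadratic field the number of classes with
`C ^ 2 = 1` is at most `2 ^ (t - 1)`, `t` the number of primes which divide the discriminant. -/
theorem two_mul_card_sq_eq_one_le (K : Type*) [Field K] [NumberField K] [IsTotallyComplex K]
    (h2 : Module.finrank ℚ K = 2) :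
    2 * Nat.card {C : ClassGroup (𝓞 K) // C ^ 2 = 1} ≤
      2 ^ (discr K).natAbs.primeFactors.card := by
  classical
  choose I b hI hb hIb using fun C : {C : ClassGroup (𝓞 K) // C ^ 2 = 1} =>
    exists_sq_eq_span h2 C.1 C.2
  obtain ⟨z, c, q, hz, hc, hzc, hq, hqo⟩ := exists_principal_odd (K := K) h2
  have hZ : Ideal.span {z} ∈ (Ideal (𝓞 K))⁰ := mem_nonZeroDivisors_of_ne_zero (by simpa using hz)
  have hZ1 : ClassGroup.mk0 (⟨Ideal.span {z}, hZ⟩ : (Ideal (𝓞 K))⁰) = 1 :=
    (ClassGroup.mk0_eq_one_iff hZ).mpr ⟨⟨z, rfl⟩⟩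
  -- the ideals `I_C (z) ^ ε`
  let J : {C : ClassGroup (𝓞 K) // C ^ 2 = 1} × Bool → (Ideal (𝓞 K))⁰ :=
    fun x => I x.1 * (if x.2 then ⟨Ideal.span {z}, hZ⟩ else 1)
  let e : {C : ClassGroup (𝓞 K) // C ^ 2 = 1} × Bool → ℕ :=
    fun x => b x.1 * (if x.2 then c else 1)
  have he : ∀ x, e x ≠ 0 := by
    intro x
    refine mul_ne_zero (hb x.1) ?_
    split_ifs
    · exact hc
    · exact one_ne_zero
  have hJ1 : ∀ x, ClassGroup.mk0 (J x) = x.1.1 := by
    intro x
    have h1 : ClassGroup.mk0 (if x.2 then ⟨Ideal.span {z}, hZ⟩ else 1 : (Ideal (𝓞 K))⁰) = 1 := by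
      split_ifs
      · exact hZ1
      · exact map_one _
    rw [map_mul, h1, mul_one, hI]
  have hJ2 : ∀ x, (J x : Ideal (𝓞 K)) ^ 2 = Ideal.span {(e x : 𝓞 K)} := by
    intro x
    have h1 : ((if x.2 then ⟨Ideal.span {z}, hZ⟩ else 1 : (Ideal (𝓞 K))⁰) : Ideal (𝓞 K)) ^ 2 =
        Ideal.span {((if x.2 then c else 1 : ℕ) : 𝓞 K)} := by
      split_ifs
      · exact hzc
      · simp
    rw [Submonoid.coe_mul, mul_pow, hIb, h1, Ideal.span_singleton_mul_span_singleton,
      ← Nat.cast_mul]
  let f : {C : ClassGroup (𝓞 K) // C ^ 2 = 1} × Bool → (discr K).natAbs.primeFactors.powerset :=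
    fun x => ⟨(discr K).natAbs.primeFactors.filter fun p => Even ((e x).factorization p),
      Finset.mem_powerset.mpr (Finset.filter_subset _ _)⟩
  have hf : Function.Injective f := by
    intro x y h
    have h1 : (discr K).natAbs.primeFactors.filter (fun p => Even ((e x).factorization p)) =
        (discr K).natAbs.primeFactors.filter (fun p => Even ((e y).factorization p)) :=
      congrArg Subtype.val h
    have hpar : ∀ p : ℕ, p.Prime → (p : ℤ) ∣ discr K →
        (Even ((e x).factorization p) ↔ Even ((e y).factorization p)) := by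
      intro p hp hpd
      have hmem : p ∈ (discr K).natAbs.primeFactors :=
        Nat.mem_primeFactors.mpr ⟨hp, Int.natCast_dvd.mp hpd,
          Int.natAbs_ne_zero.mpr (discr_ne_zero K)⟩
      have h3 := Finset.ext_iff.mp h1 p
      simpa [hmem] using h3
    have hC : x.1 = y.1 := by
      apply Subtype.ext
      rw [← hJ1 x, ← hJ1 y]
      exact mk0_eq_of_even (he x) (he y) (hJ2 x) (hJ2 y) hpar
    have hqd : (q : ℤ) ∣ discr K := by
      by_contra hqd
      exact hqo (even_of_sq_eq_span hq hqd hc hzc)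
    have hpq := hpar q hq hqd
    have hE : ∀ w : {C : ClassGroup (𝓞 K) // C ^ 2 = 1} × Bool,
        (e w).factorization q = (b w.1).factorization q +
          (if w.2 then c else 1 : ℕ).factorization q := by
      intro w
      have h0 : (if w.2 then c else 1 : ℕ) ≠ 0 := by
        split_ifs
        · exact hc
        · exact one_ne_zero
      exact congrFun (congrArg DFunLike.coe (Nat.factorization_mul (hb w.1) h0)) q
    rw [hE, hE, Nat.even_add, Nat.even_add, hC] at hpq
    refine Prod.ext hC ?_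
    have h0 : Even ((1 : ℕ).factorization q) := by simp
    rcases hx : x.2 with _ | _ <;> rcases hy : y.2 with _ | _ <;> simp [hx, hy] at hpq ⊢ <;> tauto
  have h1 := Nat.card_le_card_of_injective f hf
  rw [Nat.card_prod, Nat.card_eq_fintype_card (α := (discr K).natAbs.primeFactors.powerset),
    Fintype.card_coe, Finset.card_powerset, Nat.card_eq_fintype_card (α := Bool),
    Fintype.card_bool, mul_comm] at h1
  exact h1

end Fermat.Agent.Cor.Siegel
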