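import Mathlib
import Fermat.Agent.Corollaries.Siegel.GenusUp
import Fermat.Agent.Corollaries.Siegel.GenusLow

/-!
# Gauss' genus theory for imaginary quadratic fields

`K` is an imaginary quadratic field, `t` the number of primes which divide its discriminant.

* `card_sq_eq_one`: there are exactly `2 ^ (t - 1)` classes `C` with `C ^ 2 = 1`;
* `index_squares`: there are exactly `2 ^ (t - 1)` genera (classes of ideals modulo squares);
* `two_pow_dvd_classNumber`: `2 ^ (t - 1)` divides the class number;
* `odd_classNumber_iff`: the class number is odd if and only if only one prime divides the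
  discriminant;
* `forall_sq_eq_one_iff`: the class group has exponent at most two if and only if the class number
  is `2 ^ (t - 1)`.
-/

set_option autoImplicit false

noncomputable section

namespace Fermat.Agent.Cor.Siegel

open NumberField

variable (K : Type*) [Field K] [NumberField K] [IsTotallyComplex K]

theorem two_mul_card_sq_eq_one (h2 : Module.finrank ℚ K = 2) :
    2 * Nat.card {C : ClassGroup (𝓞 K) // C ^ 2 = 1} =
      2 ^ (discr K).natAbs.primeFactors.card :=
  le_antisymm (two_mul_card_sq_eq_one_le K h2) (le_two_mul_card_sq_eq_one K h2)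

/-- The discriminant of an imaginary quadratic field has a prime factor. -/
theorem one_le_card_primeFactors (h2 : Module.finrank ℚ K = 2) :
    1 ≤ (discr K).natAbs.primeFactors.card := by
  by_contra h
  have h0 : (discr K).natAbs.primeFactors.card = 0 := by omega
  have h1 := two_mul_card_sq_eq_one K h2
  rw [h0, pow_zero] at h1
  omega

/-- **Gauss' theorem on the classes of order two**: an imaginary quadratic field has exactly
`2 ^ (t - 1)` ideal classes `C` with `C ^ 2 = 1`, where `t` is the number of primes which divide the
discriminant. -/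
theorem card_sq_eq_one (h2 : Module.finrank ℚ K = 2) :
    Nat.card {C : ClassGroup (𝓞 K) // C ^ 2 = 1} =
      2 ^ ((discr K).natAbs.primeFactors.card - 1) := by
  have h1 := two_mul_card_sq_eq_one K h2
  obtain ⟨t, ht⟩ := Nat.exists_eq_add_of_le' (one_le_card_primeFactors K h2)
  rw [ht, pow_succ] at h1
  rw [ht, Nat.add_sub_cancel]
  omega

/-- **The number of genera**: the squares have index `2 ^ (t - 1)` in the class group. -/
theorem index_squares (h2 : Module.finrank ℚ K = 2) :
    (powMonoidHom 2 : ClassGroup (𝓞 K) →* ClassGroup (𝓞 K)).range.index =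
      2 ^ ((discr K).natAbs.primeFactors.card - 1) := by
  rw [← card_sq_eq_one K h2]
  have h1 := (powMonoidHom 2 : ClassGroup (𝓞 K) →* ClassGroup (𝓞 K)).ker.card_mul_index
  rw [Subgroup.index_ker] at h1
  have h3 := (powMonoidHom 2 : ClassGroup (𝓞 K) →* ClassGroup (𝓞 K)).range.card_mul_index
  have h4 : 0 < Nat.card (powMonoidHom 2 : ClassGroup (𝓞 K) →* ClassGroup (𝓞 K)).range :=
    Nat.card_pos
  have h5 : Nat.card (powMonoidHom 2 : ClassGroup (𝓞 K) →* ClassGroup (𝓞 K)).ker =
      Nat.card {C : ClassGroup (𝓞 K) // C ^ 2 = 1} := rfl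
  rw [h5] at h1
  apply Nat.eq_of_mul_eq_mul_left h4
  rw [h3, ← h1, mul_comm]

/-- `2 ^ (t - 1)` divides the class number. -/
theorem two_pow_dvd_classNumber (h2 : Module.finrank ℚ K = 2) :
    2 ^ ((discr K).natAbs.primeFactors.card - 1) ∣ classNumber K := by
  rw [← index_squares K h2, classNumber, ← Nat.card_eq_fintype_card]
  exact Subgroup.index_dvd_card _

/-- **The class number of an imaginary quadratic field is odd if and only if exactly one prime
divides its discriminant.** -/
theorem odd_classNumber_iff (h2 : Module.finrank ℚ K = 2) :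
    Odd (classNumber K) ↔ (discr K).natAbs.primeFactors.card = 1 := by
  constructor
  · intro h
    by_contra h1
    have h3 : 2 ≤ (discr K).natAbs.primeFactors.card := by
      have := one_le_card_primeFactors K h2
      omega
    have h4 : 2 ∣ classNumber K :=
      (dvd_pow_self 2 (by omega)).trans (two_pow_dvd_classNumber K h2)
    exact Nat.not_even_iff_odd.mpr h (even_iff_two_dvd.mpr h4)
  · intro h
    rw [← Nat.not_even_iff_odd]
    intro h1
    have hcard : 2 ∣ Fintype.card (ClassGroup (𝓞 K)) := even_iff_two_dvd.mp h1
    obtain ⟨C, hC⟩ := exists_prime_orderOf_dvd_card 2 hcard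
    have h3 := card_sq_eq_one K h2
    rw [h, Nat.sub_self, pow_zero, Nat.card_eq_one_iff_unique] at h3
    have h4 : (⟨C, by rw [← hC]; exact pow_orderOf_eq_one C⟩ :
        {C : ClassGroup (𝓞 K) // C ^ 2 = 1}) = ⟨1, one_pow 2⟩ := h3.1.elim _ _
    have h5 : C = 1 := congrArg Subtype.val h4
    rw [h5, orderOf_one] at hC
    omega

/-- The class group has exponent at most two if and only if the class number is `2 ^ (t - 1)`
(one class in each genus). -/
theorem forall_sq_eq_one_iff (h2 : Module.finrank ℚ K = 2) :
    (∀ C : ClassGroup (𝓞 K), C ^ 2 = 1) ↔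
      classNumber K = 2 ^ ((discr K).natAbs.primeFactors.card - 1) := by
  rw [← card_sq_eq_one K h2, classNumber, ← Nat.card_eq_fintype_card]
  constructor
  · intro h
    exact (Nat.card_congr (Equiv.subtypeUnivEquiv h)).symm
  · intro h C
    have h1 : Function.Surjective
        (Subtype.val : {C : ClassGroup (𝓞 K) // C ^ 2 = 1} → ClassGroup (𝓞 K)) :=
      ((Nat.bijective_iff_injective_and_card _).mpr ⟨Subtype.val_injective, h.symm⟩).surjective
    obtain ⟨⟨D, hD⟩, rfl⟩ := h1 C
    exact hD

end Fermat.Agent.Cor.Siegel
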