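import Fermat.Agent.Corollaries.ZetaK.EulerK

/-!
# The Dedekind zeta function on the real axis, `σ > 1`

`1 ≤ ζ_K(σ) ≤ ζ(σ) ^ [K : ℚ] ≤ (σ / (σ - 1)) ^ [K : ℚ]`, decreasing in `σ`.
-/

set_option autoImplicit false

open NumberField IsDedekindDomain nonZeroDivisors Filter Topology

namespace Fermat.Agent.Cor.Siegel

/-! ### The Riemann zeta function -/

theorem summable_rational {σ : ℝ} (hσ : 1 < σ) :
    Summable fun n : ℕ => 1 / ((n : ℝ) + 1) ^ σ := by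
  have h := (Real.summable_one_div_nat_rpow.mpr hσ)
  have h1 := (summable_nat_add_iff 1).mpr h
  simpa only [Nat.cast_add, Nat.cast_one] using h1

theorem tsum_rational_pos {σ : ℝ} (hσ : 1 < σ) : 0 < ∑' n : ℕ, 1 / ((n : ℝ) + 1) ^ σ :=
  (summable_rational hσ).tsum_pos (fun n => by positivity) 0 (by simp)

theorem one_le_tsum_rational {σ : ℝ} (hσ : 1 < σ) : 1 ≤ ∑' n : ℕ, 1 / ((n : ℝ) + 1) ^ σ := by
  have h := (summable_rational hσ).le_tsum 0 fun n _ => by positivity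
  simpa using h

/-- `∑ n ^ (-σ) ≤ σ / (σ - 1)` -/
theorem tsum_rational_le {σ : ℝ} (hσ : 1 < σ) :
    ∑' n : ℕ, 1 / ((n : ℝ) + 1) ^ σ ≤ σ / (σ - 1) := by
  have h1 := ZetaAsymptotics.zeta_limit_aux1 hσ
  have h2 : 0 ≤ ZetaAsymptotics.termTSum σ := tsum_nonneg fun n => ZetaAsymptotics.term_nonneg _ _
  have h3 : 0 ≤ σ * ZetaAsymptotics.termTSum σ := mul_nonneg (by linarith) h2
  have h4 : σ / (σ - 1) = 1 + 1 / (σ - 1) := by
    field_simp [(show σ - 1 ≠ 0 by linarith)]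
    ring
  rw [h4]
  linarith

/-- `∏_p (1 - p ^ (-σ)) = (∑ n ^ (-σ))⁻¹` -/
theorem hasProd_rational {σ : ℝ} (hσ : 1 < σ) :
    HasProd (fun p : Nat.Primes => 1 - ((p : ℕ) : ℝ) ^ (-σ))
      (∑' n : ℕ, 1 / ((n : ℝ) + 1) ^ σ)⁻¹ := by
  have hσ0 : σ ≠ 0 := by linarith
  let f : ℕ →*₀ ℝ :=
    { toFun := fun n => (n : ℝ) ^ (-σ)
      map_zero' := by rw [Nat.cast_zero, Real.zero_rpow (neg_ne_zero.mpr hσ0)]
      map_one' := by rw [Nat.cast_one, Real.one_rpow]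
      map_mul' := fun m n => by
        rw [Nat.cast_mul, Real.mul_rpow (Nat.cast_nonneg _) (Nat.cast_nonneg _)] }
  have hf : ∀ n, f n = (n : ℝ) ^ (-σ) := fun _ => rfl
  have hs : Summable fun n : ℕ => f n := by
    simp only [hf]
    exact Real.summable_nat_rpow.mpr (by linarith)
  have hsn : Summable fun n : ℕ => ‖f n‖ := hs.norm
  have h1 := EulerProduct.eulerProduct_completely_multiplicative_hasProd hsn
  have h2 : ∑' n, f n = ∑' n : ℕ, 1 / ((n : ℝ) + 1) ^ σ := by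
    rw [hs.tsum_eq_zero_add, map_zero, zero_add]
    refine tsum_congr fun n => ?_
    rw [hf, Real.rpow_neg (Nat.cast_nonneg _), Nat.cast_add, Nat.cast_one, one_div]
  have h3 : (∑' n, f n) ≠ 0 := by
    have h4 : f 1 ≤ ∑' n, f n := hs.le_tsum 1 fun n _ => by
      rw [hf]
      positivity
    rw [map_one] at h4
    linarith
  rw [← h2]
  have h5 := h1.inv₀ h3
  refine h5.congr_fun ?_
  intro p
  simp only [hf, inv_inv]

universe u

variable (K : Type u) [Field K] [NumberField K]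

/-! ### `ζ_K(σ)` as a real series -/

theorem dedekindZeta_ofReal {σ : ℝ} (hσ : 1 < σ) :
    dedekindZeta K (σ : ℂ) = ((∑' I : (Ideal (𝓞 K))⁰, Fermat.Agent.ClassL.nrm σ I : ℝ) : ℂ) := by
  rw [← tsum_nchar (by simpa using hσ), Complex.ofReal_tsum]
  refine tsum_congr fun I => ?_
  rw [nchar_apply, Fermat.Agent.ClassL.nrm, Complex.ofReal_cpow (Nat.cast_nonneg _)]
  push_cast
  rfl

theorem dedekindZeta_re {σ : ℝ} (hσ : 1 < σ) :
    (dedekindZeta K (σ : ℂ)).re = ∑' I : (Ideal (𝓞 K))⁰, Fermat.Agent.ClassL.nrm σ I := by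
  rw [dedekindZeta_ofReal K hσ, Complex.ofReal_re]

theorem dedekindZeta_im {σ : ℝ} (hσ : 1 < σ) : (dedekindZeta K (σ : ℂ)).im = 0 := by
  rw [dedekindZeta_ofReal K hσ, Complex.ofReal_im]

/-- **`1 ≤ ζ_K(σ)`.** -/
theorem one_le_re_dedekindZeta {σ : ℝ} (hσ : 1 < σ) : 1 ≤ (dedekindZeta K (σ : ℂ)).re := by
  rw [dedekindZeta_re K hσ]
  have h1 : Fermat.Agent.ClassL.nrm σ (1 : (Ideal (𝓞 K))⁰) = 1 := by
    simp [Fermat.Agent.ClassL.nrm]
  rw [← h1]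
  exact (Fermat.Agent.ClassL.summable_nrm (K := K) hσ).le_tsum 1
    fun I _ => (Fermat.Agent.ClassL.nrm_pos σ I).le

theorem norm_dedekindZeta_eq_re {σ : ℝ} (hσ : 1 < σ) :
    ‖dedekindZeta K (σ : ℂ)‖ = (dedekindZeta K (σ : ℂ)).re := by
  rw [dedekindZeta_ofReal K hσ, Complex.norm_real, Complex.ofReal_re, Real.norm_of_nonneg]
  exact tsum_nonneg fun I => (Fermat.Agent.ClassL.nrm_pos σ I).le

/-- **`ζ_K(σ)` decreases.** -/
theorem re_dedekindZeta_antitone {σ σ' : ℝ} (hσ : 1 < σ) (h : σ ≤ σ') :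
    (dedekindZeta K (σ' : ℂ)).re ≤ (dedekindZeta K (σ : ℂ)).re := by
  rw [dedekindZeta_re K hσ, dedekindZeta_re K (hσ.trans_le h)]
  refine (Fermat.Agent.ClassL.summable_nrm (K := K) (hσ.trans_le h)).tsum_le_tsum (fun I => ?_)
    (Fermat.Agent.ClassL.summable_nrm (K := K) hσ)
  unfold Fermat.Agent.ClassL.nrm
  have h1 : (1 : ℝ) ≤ (Ideal.absNorm (I : Ideal (𝓞 K)) : ℝ) := by
    exact_mod_cast EulerK.absNorm_pos I
  exact Real.rpow_le_rpow_of_exponent_le h1 (neg_le_neg h)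

/-! ### The prime ideals above `p` -/

variable {K}

theorem le_absNorm_of_mem {p : Nat.Primes} {v : HeightOneSpectrum (𝓞 K)}
    (h : ((p : ℕ) : 𝓞 K) ∈ v.asIdeal) : (p : ℕ) ≤ Ideal.absNorm v.asIdeal := by
  have h0 : Ideal.absNorm v.asIdeal ≠ 0 := by
    rw [Ne, Ideal.absNorm_eq_zero_iff]
    exact v.ne_bot
  have h1 : Ideal.absNorm v.asIdeal ≠ 1 := by
    rw [Ne, Ideal.absNorm_eq_one_iff]
    exact v.isPrime.ne_top
  obtain ⟨q, hq, hqN⟩ := Nat.exists_prime_and_dvd h1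
  -- the norm is a power of `p`
  have h2 : Ideal.absNorm v.asIdeal ∣ (p : ℕ) ^ Module.finrank ℚ K := by
    have h3 : Ideal.absNorm v.asIdeal ∣ Ideal.absNorm (Ideal.span {((p : ℕ) : 𝓞 K)}) :=
      Ideal.absNorm_dvd_absNorm_of_le ((Ideal.span_singleton_le_iff_mem _).mpr h)
    rwa [Ideal.absNorm_span_singleton, Algebra.norm_natCast, NumberField.RingOfIntegers.rank,
      Int.natAbs_pow, Int.natAbs_natCast] at h3
  have h4 : q = p := (Nat.prime_dvd_prime_iff_eq hq p.2).mp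
    (hq.dvd_of_dvd_pow (hqN.trans h2))
  rw [← h4]
  exact Nat.le_of_dvd (Nat.pos_of_ne_zero h0) hqN

/-- at most `[K : ℚ]` primes above `p` -/
theorem card_le_finrank {p : Nat.Primes} {T : Finset (HeightOneSpectrum (𝓞 K))}
    (hT : ∀ v ∈ T, ((p : ℕ) : 𝓞 K) ∈ v.asIdeal) : T.card ≤ Module.finrank ℚ K := by
  have h1 : ∏ v ∈ T, v.asIdeal ∣ Ideal.span {((p : ℕ) : 𝓞 K)} := by
    refine Finset.prod_dvd_of_coprime ?_ fun v hv => ?_
    · intro v _ w _ hvw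
      exact Ideal.isCoprime_of_isMaximal fun h => hvw (HeightOneSpectrum.ext h)
    · exact Ideal.dvd_iff_le.mpr ((Ideal.span_singleton_le_iff_mem _).mpr (hT v hv))
  have h2 : Ideal.absNorm (∏ v ∈ T, v.asIdeal) ∣ (p : ℕ) ^ Module.finrank ℚ K := by
    have h3 := Ideal.absNorm_dvd_absNorm_of_le (Ideal.dvd_iff_le.mp h1)
    rwa [Ideal.absNorm_span_singleton, Algebra.norm_natCast, NumberField.RingOfIntegers.rank,
      Int.natAbs_pow, Int.natAbs_natCast] at h3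
  rw [map_prod] at h2
  have h4 : (p : ℕ) ^ T.card ≤ (p : ℕ) ^ Module.finrank ℚ K := by
    refine le_trans ?_ (Nat.le_of_dvd (pow_pos p.2.pos _) h2)
    rw [← Finset.prod_const]
    exact Finset.prod_le_prod' fun v hv => le_absNorm_of_mem (hT v hv)
  exact (Nat.pow_le_pow_iff_right p.2.one_lt).mp h4

/-! ### The Euler factors -/

theorem rpow_neg_lt_one {n : ℕ} (hn : 2 ≤ n) {σ : ℝ} (hσ : 1 < σ) : (n : ℝ) ^ (-σ) < 1 :=
  Real.rpow_lt_one_of_one_lt_of_neg (by exact_mod_cast (by omega : 1 < n)) (by linarith)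

theorem factor_le {p : Nat.Primes} {T : Finset (HeightOneSpectrum (𝓞 K))}
    (hT : ∀ v ∈ T, ((p : ℕ) : 𝓞 K) ∈ v.asIdeal) {σ : ℝ} (hσ : 1 < σ) :
    (1 - ((p : ℕ) : ℝ) ^ (-σ)) ^ Module.finrank ℚ K ≤
      ‖∏ v ∈ T, (1 - (Ideal.absNorm v.asIdeal : ℂ) ^ (-(σ : ℂ)))‖ := by
  have hp1 := rpow_neg_lt_one p.2.two_le hσ
  have hp0 : 0 < ((p : ℕ) : ℝ) := by exact_mod_cast p.2.pos
  have hp2 : 0 ≤ ((p : ℕ) : ℝ) ^ (-σ) := (Real.rpow_pos_of_pos hp0 _).le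
  rw [norm_prod]
  calc (1 - ((p : ℕ) : ℝ) ^ (-σ)) ^ Module.finrank ℚ K
      ≤ (1 - ((p : ℕ) : ℝ) ^ (-σ)) ^ T.card :=
        pow_le_pow_of_le_one (by linarith) (by linarith) (card_le_finrank hT)
    _ = ∏ v ∈ T, (1 - ((p : ℕ) : ℝ) ^ (-σ)) := (Finset.prod_const _).symm
    _ ≤ _ := by
      refine Finset.prod_le_prod (fun _ _ => by linarith) fun v hv => ?_
      have h1 : ((p : ℕ) : ℝ) ≤ (Ideal.absNorm v.asIdeal : ℝ) := by
        exact_mod_cast le_absNorm_of_mem (hT v hv)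
      have h2 : (Ideal.absNorm v.asIdeal : ℝ) ^ (-σ) ≤ ((p : ℕ) : ℝ) ^ (-σ) :=
        Real.rpow_le_rpow_of_nonpos hp0 h1 (by linarith)
      have h3 : (1 : ℂ) - (Ideal.absNorm v.asIdeal : ℂ) ^ (-(σ : ℂ)) =
          ((1 - (Ideal.absNorm v.asIdeal : ℝ) ^ (-σ) : ℝ) : ℂ) := by
        rw [Complex.ofReal_sub, Complex.ofReal_one, Complex.ofReal_cpow (Nat.cast_nonneg _)]
        push_cast
        rfl
      rw [h3, Complex.norm_real, Real.norm_of_nonneg (by linarith)]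
      linarith

variable (K)

/-- the finite set of the places above `p` -/
theorem exists_places : ∃ T : Nat.Primes → Finset (HeightOneSpectrum (𝓞 K)),
    ∀ p v, v ∈ T p ↔ ((p : ℕ) : 𝓞 K) ∈ v.asIdeal := by
  have h : ∀ p : Nat.Primes, {v : HeightOneSpectrum (𝓞 K) | ((p : ℕ) : 𝓞 K) ∈ v.asIdeal}.Finite := by
    intro p
    have h0 : (Ideal.span {((p : ℕ) : 𝓞 K)}) ≠ 0 := by
      rw [Ne, Ideal.zero_eq_bot, Ideal.span_singleton_eq_bot]
      exact_mod_cast p.2.ne_zero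
    refine (Ideal.finite_factors h0).subset fun v hv => ?_
    exact Ideal.dvd_iff_le.mpr ((Ideal.span_singleton_le_iff_mem _).mpr hv)
  exact ⟨fun p => (h p).toFinset, fun p v => by rw [Set.Finite.mem_toFinset]; rfl⟩

/-- **`ζ_K(σ) ≤ ζ(σ) ^ [K : ℚ]`.** -/
theorem norm_dedekindZeta_le {σ : ℝ} (hσ : 1 < σ) :
    ‖dedekindZeta K (σ : ℂ)‖ ≤ (∑' n : ℕ, 1 / ((n : ℝ) + 1) ^ σ) ^ Module.finrank ℚ K := by
  obtain ⟨T, hT⟩ := exists_places K
  have h1 := (tendsto_euler (K := K) (s := (σ : ℂ)) (by simpa using hσ) T hT).norm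
  rw [norm_one] at h1
  have h2 : Tendsto (fun S : Finset Nat.Primes => ∏ p ∈ S, (1 - ((p : ℕ) : ℝ) ^ (-σ))) atTop
      (𝓝 (∑' n : ℕ, 1 / ((n : ℝ) + 1) ^ σ)⁻¹) := hasProd_rational hσ
  have h3 := (h2.pow (Module.finrank ℚ K)).mul_const ‖dedekindZeta K (σ : ℂ)‖
  have h4 : (∑' n : ℕ, 1 / ((n : ℝ) + 1) ^ σ)⁻¹ ^ Module.finrank ℚ K *
      ‖dedekindZeta K (σ : ℂ)‖ ≤ 1 := by
    refine le_of_tendsto_of_tendsto' h3 h1 fun S => ?_
    rw [norm_mul, ← Finset.prod_pow, norm_prod]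
    refine mul_le_mul_of_nonneg_right ?_ (norm_nonneg _)
    refine Finset.prod_le_prod (fun p _ => ?_) fun p _ =>
      factor_le (fun v hv => (hT p v).mp hv) hσ
    have hp1 := rpow_neg_lt_one p.2.two_le hσ
    exact pow_nonneg (by linarith) _
  have h5 : 0 < ∑' n : ℕ, 1 / ((n : ℝ) + 1) ^ σ := tsum_rational_pos hσ
  rwa [inv_pow, inv_mul_le_iff₀ (pow_pos h5 _), mul_one] at h4

/-- **`ζ_K(σ) ≤ (σ / (σ - 1)) ^ [K : ℚ]`.** -/
theorem norm_dedekindZeta_le_div {σ : ℝ} (hσ : 1 < σ) :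
    ‖dedekindZeta K (σ : ℂ)‖ ≤ (σ / (σ - 1)) ^ Module.finrank ℚ K :=
  (norm_dedekindZeta_le K hσ).trans
    (pow_le_pow_left₀ (tsum_rational_pos hσ).le (tsum_rational_le hσ) _)

/-- **`ζ_K(σ) ≤ ζ(σ) ^ [K : ℚ]`**, real parts. -/
theorem re_dedekindZeta_le {σ : ℝ} (hσ : 1 < σ) :
    (dedekindZeta K (σ : ℂ)).re ≤ (∑' n : ℕ, 1 / ((n : ℝ) + 1) ^ σ) ^ Module.finrank ℚ K := by
  rw [← norm_dedekindZeta_eq_re K hσ]
  exact norm_dedekindZeta_le K hσ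

end Fermat.Agent.Cor.Siegel
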