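import Fermat.Agent.Corollaries.Siegel.Pair
import Fermat.Agent.Corollaries.Siegel.Mult

/-!
# A lower bound for `h R / w` from a real zero (or a non-positive value) of the zeta function

`siegel_ineq`: if `0 < b < 1` and `ζ_K(b) ≤ 0`, then
`h 2^(r₁+r₂) R / w ≥ (4/9) b (1 - b) |d|^(b/2) / (π^r₁ (2π²)^r₂)`;
`class_le`: for `σ > 1`, `h 2^(r₁+r₂) R / w ≤ σ (σ - 1) |d|^(σ/2) γ(σ) ζ_K(σ)`.
-/

set_option autoImplicit false

noncomputable section

open NumberField NumberField.InfinitePlace NumberField.Units MeasureTheory Set Filter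
open Fermat.Agent.Classic.Zeta
open scoped Real Topology

namespace Fermat.Agent.Cor.Siegel

universe u

variable (K : Type u) [Field K] [NumberField K]

/-! ### The gamma factor on the real line -/

/-- `γ(s)` for real `s` -/
def gamR (s : ℝ) : ℝ :=
  (π ^ (-s / 2) * Real.Gamma (s / 2)) ^ nrRealPlaces K *
    (2 * (2 * π) ^ (-s) * Real.Gamma s) ^ nrComplexPlaces K

theorem gam_ofReal (s : ℝ) : gam K (s : ℂ) = ((gamR K s : ℝ) : ℂ) := by
  have h1 : Complex.Gammaℝ (s : ℂ) = ((π ^ (-s / 2) * Real.Gamma (s / 2) : ℝ) : ℂ) := by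
    rw [Complex.Gammaℝ_def, Complex.ofReal_mul, Complex.ofReal_cpow Real.pi_pos.le,
      ← Complex.Gamma_ofReal]
    push_cast
    rfl
  have h2 : Complex.Gammaℂ (s : ℂ) = ((2 * (2 * π) ^ (-s) * Real.Gamma s : ℝ) : ℂ) := by
    rw [Complex.Gammaℂ_def, Complex.ofReal_mul, Complex.ofReal_mul,
      Complex.ofReal_cpow (by positivity), ← Complex.Gamma_ofReal]
    push_cast
    rfl
  rw [gam, h1, h2, gamR]
  push_cast
  rfl

theorem gamR_pos {s : ℝ} (hs : 0 < s) : 0 < gamR K s := by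
  have h1 := Real.Gamma_pos_of_pos (half_pos hs)
  have h2 := Real.Gamma_pos_of_pos hs
  unfold gamR
  positivity

theorem gamR_two : gamR K 2 = (π ^ nrRealPlaces K * (2 * π ^ 2) ^ nrComplexPlaces K)⁻¹ := by
  have h1 : (π : ℝ) ^ (-(2 : ℝ) / 2) * Real.Gamma (2 / 2) = π⁻¹ := by
    rw [div_self two_ne_zero, Real.Gamma_one, mul_one, neg_div, div_self two_ne_zero,
      Real.rpow_neg_one]
  have h2 : 2 * (2 * π : ℝ) ^ (-(2 : ℝ)) * Real.Gamma 2 = (2 * π ^ 2)⁻¹ := by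
    rw [Real.Gamma_two, mul_one, Real.rpow_neg (by positivity), Real.rpow_two]
    field_simp
  rw [gamR, h1, h2, inv_pow, inv_pow, mul_inv]

theorem gamR_three_le : gamR K 3 ≤ 1 / 2 * gamR K 2 := by
  have hpi := Real.pi_pos
  have h1 : (π : ℝ) ^ (-(3 : ℝ) / 2) * Real.Gamma (3 / 2) = 1 / 2 * π⁻¹ := by
    rw [show (3 / 2 : ℝ) = 1 / 2 + 1 by norm_num, Real.Gamma_add_one (by norm_num),
      Real.Gamma_one_half_eq, Real.sqrt_eq_rpow, mul_left_comm, ← Real.rpow_add hpi,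
      show (-(3 : ℝ) / 2 + 1 / 2) = -1 by norm_num, Real.rpow_neg_one]
  have h2 : 2 * (2 * π : ℝ) ^ (-(3 : ℝ)) * Real.Gamma 3 = π⁻¹ * (2 * π ^ 2)⁻¹ := by
    rw [show (3 : ℝ) = 2 + 1 by norm_num, Real.Gamma_add_one two_ne_zero, Real.Gamma_two, mul_one,
      show (2 + 1 : ℝ) = ((3 : ℕ) : ℝ) by norm_num, Real.rpow_neg (by positivity),
      Real.rpow_natCast]
    field_simp
  have h3 : (1 : ℝ) / 2 * π⁻¹ = 1 / 2 * (π ^ (-(2 : ℝ) / 2) * Real.Gamma (2 / 2)) := by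
    rw [div_self two_ne_zero, Real.Gamma_one, mul_one, neg_div, div_self two_ne_zero,
      Real.rpow_neg_one]
  have h4 : π⁻¹ * (2 * π ^ 2)⁻¹ ≤ 1 / 2 * (2 * π ^ 2)⁻¹ := by
    refine mul_le_mul_of_nonneg_right ?_ (by positivity)
    rw [one_div]
    exact inv_anti₀ two_pos (by linarith [Real.pi_gt_three])
  have h5 : gamR K 3 ≤ (1 / 2 : ℝ) ^ (nrRealPlaces K + nrComplexPlaces K) * gamR K 2 := by
    have h7 : (π ^ nrRealPlaces K * (2 * π ^ 2) ^ nrComplexPlaces K)⁻¹ =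
        π⁻¹ ^ nrRealPlaces K * (2 * π ^ 2)⁻¹ ^ nrComplexPlaces K := by
      rw [mul_inv, inv_pow, inv_pow]
    rw [gamR_two, gamR, h1, h2, h7, pow_add]
    calc (1 / 2 * π⁻¹) ^ nrRealPlaces K * (π⁻¹ * (2 * π ^ 2)⁻¹) ^ nrComplexPlaces K
        ≤ (1 / 2 * π⁻¹) ^ nrRealPlaces K * (1 / 2 * (2 * π ^ 2)⁻¹) ^ nrComplexPlaces K := by
          gcongr
      _ = _ := by rw [mul_pow, mul_pow]; ring
  refine h5.trans (mul_le_mul_of_nonneg_right ?_ (gamR_pos K two_pos).le)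
  rw [rank_add_one, pow_succ]
  have h6 : (1 / 2 : ℝ) ^ rank K ≤ 1 := pow_le_one₀ (by norm_num) (by norm_num)
  linarith

/-! ### The positive integral -/

/-- the positive function of `exists_rep` -/
def phi : ℝ → ℝ := (exists_rep K).choose

/-- `∫₀^∞ φ(x) x^(ns) dx/x` -/
def J (s : ℝ) : ℝ := ∫ x in Ioi (0 : ℝ), x ^ ((Module.finrank ℚ K : ℝ) * s - 1) * phi K x

theorem phi_nonneg {x : ℝ} (hx : 0 < x) : 0 ≤ phi K x := (exists_rep K).choose_spec.1 x hx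

theorem integrableOn_J (s : ℝ) : IntegrableOn (fun x : ℝ =>
    x ^ ((Module.finrank ℚ K : ℝ) * s - 1) * phi K x) (Ioi 0) :=
  (exists_rep K).choose_spec.2.1 _

theorem J_nonneg (s : ℝ) : 0 ≤ J K s :=
  setIntegral_nonneg measurableSet_Ioi fun _ hx =>
    mul_nonneg (Real.rpow_nonneg (le_of_lt hx) _) (phi_nonneg K hx)

theorem J_spec (s : ℝ) : (s : ℂ) * (1 - s) * ((J K s : ℝ) : ℂ) =
    XiF (K := K) (fun _ => 1) s + (classNumber K : ℂ) * (clConst K : ℂ) :=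
  (exists_rep K).choose_spec.2.2 s

theorem J_eq {s : ℝ} (h0 : 0 < s) (h1 : s ≠ 1) :
    J K s = |(discr K : ℝ)| ^ (s / 2) * gamR K s * (zetaK K s).re +
      classNumber K * clConst K / (s * (1 - s)) := by
  have h0' : (s : ℂ) ≠ 0 := Complex.ofReal_ne_zero.2 h0.ne'
  have h1' : (s : ℂ) ≠ 1 := fun h => h1 (by exact_mod_cast h)
  have h1'' : (1 : ℂ) - s ≠ 0 := sub_ne_zero.2 (Ne.symm h1')
  have hg : gam K (s : ℂ) ≠ 0 := by
    rw [gam_ofReal]
    exact Complex.ofReal_ne_zero.2 (gamR_pos K h0).ne'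
  have h2 := J_spec K s
  rw [XiF_eq_LF _ h0' h1' hg] at h2
  have h3 : ((J K s : ℝ) : ℂ) = (((|(discr K : ℝ)| ^ (s / 2) * gamR K s : ℝ)) : ℂ) * zetaK K s +
      ((classNumber K * clConst K / (s * (1 - s)) : ℝ) : ℂ) := by
    have h4 : (s : ℂ) * (1 - s) ≠ 0 := mul_ne_zero h0' h1''
    refine mul_left_cancel₀ h4 (h2.trans ?_)
    rw [gam_ofReal, Complex.ofReal_mul, Complex.ofReal_cpow (abs_nonneg _), zetaK]
    push_cast
    field_simp
  have h4 := congrArg Complex.re h3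
  rwa [Complex.ofReal_re, Complex.add_re, Complex.re_ofReal_mul, Complex.ofReal_re] at h4

theorem J_interp {b δ : ℝ} (hb : b ≤ 2) (hδ : 0 < δ) :
    J K 2 ≤ δ ^ (b - 2) * J K b + δ * J K 3 := by
  have hpt : ∀ y : ℝ, 0 < y → y ^ (2 : ℝ) ≤ δ ^ (b - 2) * y ^ b + δ * y ^ (3 : ℝ) := by
    intro y hy
    rcases le_total (δ * y) 1 with h | h
    · have h1 : y ^ (2 : ℝ) = y ^ b * y ^ (2 - b) := by
        rw [← Real.rpow_add hy]
        congr 1
        ring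
      have h2 : y ^ (2 - b) ≤ δ ^ (b - 2) := by
        have h3 : y ≤ δ⁻¹ := by
          rw [le_inv_comm₀ hy hδ, inv_eq_one_div, le_div_iff₀ hy]
          exact h
        calc y ^ (2 - b) ≤ δ⁻¹ ^ (2 - b) := Real.rpow_le_rpow hy.le h3 (by linarith)
          _ = δ ^ (b - 2) := by rw [Real.inv_rpow hδ.le, ← Real.rpow_neg hδ.le, neg_sub]
      have h4 : 0 ≤ δ * y ^ (3 : ℝ) := by positivity
      rw [h1]
      nlinarith [mul_le_mul_of_nonneg_left h2 (Real.rpow_nonneg hy.le b)]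
    · have h1 : y ^ (3 : ℝ) = y * y ^ (2 : ℝ) := by
        rw [show (3 : ℝ) = 1 + 2 by norm_num, Real.rpow_add hy, Real.rpow_one]
      have h2 : 0 ≤ δ ^ (b - 2) * y ^ b := by positivity
      have h3 : 0 ≤ y ^ (2 : ℝ) := by positivity
      rw [h1]
      nlinarith [mul_le_mul_of_nonneg_right h h3]
  have hsplit : ∀ (s x : ℝ), 0 < x → x ^ ((Module.finrank ℚ K : ℝ) * s - 1) =
      (x ^ (Module.finrank ℚ K : ℝ)) ^ s * x⁻¹ := by
    intro s x hx
    rw [← Real.rpow_mul hx.le, sub_eq_add_neg, Real.rpow_add hx, Real.rpow_neg_one]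
  rw [J, J, J, ← integral_const_mul, ← integral_const_mul,
    ← integral_add ((integrableOn_J K b).const_mul _) ((integrableOn_J K 3).const_mul _)]
  refine setIntegral_mono_on (integrableOn_J K 2)
    (((integrableOn_J K b).const_mul _).add ((integrableOn_J K 3).const_mul _))
    measurableSet_Ioi fun x hx => ?_
  have hx' : 0 < x := hx
  have h1 := hpt (x ^ (Module.finrank ℚ K : ℝ)) (Real.rpow_pos_of_pos hx' _)
  have h2 : 0 ≤ x⁻¹ * phi K x := mul_nonneg (inv_pos.2 hx').le (phi_nonneg K hx')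
  rw [hsplit 2 x hx', hsplit b x hx', hsplit 3 x hx']
  nlinarith [mul_le_mul_of_nonneg_right h1 h2]

/-! ### The inequalities -/

theorem one_le_absDisc : 1 ≤ |(discr K : ℝ)| := by
  have h : 1 ≤ |discr K| := Int.one_le_abs (discr_ne_zero K)
  exact_mod_cast h

theorem hk_pos : 0 < classNumber K * clConst K :=
  mul_pos (Nat.cast_pos.2 (classNumber_pos K)) (clConst_pos K)

/-- **Upper bound**: for `σ > 1`. -/
theorem class_le {σ : ℝ} (hσ : 1 < σ) : classNumber K * clConst K ≤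
    σ * (σ - 1) * (|(discr K : ℝ)| ^ (σ / 2) * gamR K σ * (dedekindZeta K σ).re) := by
  have h1 := J_nonneg K σ
  have h2 : 1 < (σ : ℂ).re := by rwa [Complex.ofReal_re]
  rw [J_eq K (zero_lt_one.trans hσ) hσ.ne', zetaK_eq K h2] at h1
  have h3 : 0 < σ * (σ - 1) := mul_pos (zero_lt_one.trans hσ) (sub_pos.2 hσ)
  have h4 : classNumber K * clConst K / (σ * (1 - σ)) =
      -(classNumber K * clConst K / (σ * (σ - 1))) := by
    rw [← div_neg]
    congr 1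
    ring
  rw [h4, ← sub_eq_add_neg, sub_nonneg, div_le_iff₀ h3] at h1
  linarith

/-- the arithmetic of the lower bound -/
theorem lower_arith {D H g2 g3 z2 z3 b J2 J3 Jb : ℝ} (hD : 1 ≤ D) (hH : 0 < H) (h0 : 0 < b)
    (h1 : b < 1) (hg2 : 0 < g2) (hg : g3 ≤ 1 / 2 * g2) (hz : z3 ≤ z2) (hz2 : 1 ≤ z2)
    (hz3 : 0 ≤ z3) (e1 : J2 = D * g2 * z2 - H / 2)
    (e2 : J3 ≤ D ^ ((3 : ℝ) / 2) * g3 * z3) (e3 : Jb ≤ H / (b * (1 - b)))
    (e4 : J2 ≤ D ^ ((2 - b) / 2) * Jb + D ^ (-(1 / 2) : ℝ) * J3) :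
    4 / 9 * (b * (1 - b)) * D ^ (b / 2) * g2 ≤ H := by
  have hD0 : 0 < D := zero_lt_one.trans_le hD
  have hbb : 0 < b * (1 - b) := mul_pos h0 (sub_pos.2 h1)
  have hE : 1 ≤ D ^ ((2 - b) / 2) := Real.one_le_rpow hD (by linarith)
  have hDD : D = D ^ ((2 - b) / 2) * D ^ (b / 2) := by
    rw [← Real.rpow_add hD0, show ((2 - b) / 2 + b / 2 : ℝ) = 1 by ring, Real.rpow_one]
  have f2 : D ^ (-(1 / 2) : ℝ) * J3 ≤ 1 / 2 * (D * g2 * z2) := by
    have g2' : D ^ (-(1 / 2) : ℝ) * (D ^ ((3 : ℝ) / 2) * g3 * z3) = D * (g3 * z3) := by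
      have : D ^ (-(1 / 2) : ℝ) * D ^ ((3 : ℝ) / 2) = D := by
        rw [← Real.rpow_add hD0, show (-(1 / 2) + 3 / 2 : ℝ) = 1 by norm_num, Real.rpow_one]
      calc _ = (D ^ (-(1 / 2) : ℝ) * D ^ ((3 : ℝ) / 2)) * (g3 * z3) := by ring
        _ = _ := by rw [this]
    have g3' : g3 * z3 ≤ (1 / 2 * g2) * z2 :=
      (mul_le_mul_of_nonneg_right hg hz3).trans (mul_le_mul_of_nonneg_left hz (by positivity))
    calc D ^ (-(1 / 2) : ℝ) * J3 ≤ _ :=
          mul_le_mul_of_nonneg_left e2 (Real.rpow_nonneg hD0.le _)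
      _ = _ := g2'
      _ ≤ D * ((1 / 2 * g2) * z2) := mul_le_mul_of_nonneg_left g3' hD0.le
      _ = _ := by ring
  have hQ : 4 * H ≤ H / (b * (1 - b)) := by
    rw [le_div_iff₀ hbb]
    nlinarith [mul_nonneg hH.le (sq_nonneg (2 * b - 1))]
  have hQ0 : 0 < H / (b * (1 - b)) := div_pos hH hbb
  have hb' : H = H / (b * (1 - b)) * (b * (1 - b)) := (div_mul_cancel₀ H hbb.ne').symm
  generalize H / (b * (1 - b)) = Q at e3 hQ hQ0 hb'
  generalize D ^ ((2 - b) / 2) = E at hE hDD e4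
  generalize D ^ (b / 2) = F at hDD ⊢
  have hE0 : 0 < E := zero_lt_one.trans_le hE
  have hF0 : 0 < F := by
    by_contra hF
    have : E * F ≤ 0 := mul_nonpos_of_nonneg_of_nonpos hE0.le (not_lt.1 hF)
    linarith
  have f4 : E * Jb ≤ E * Q := mul_le_mul_of_nonneg_left e3 hE0.le
  have hEQ : Q ≤ E * Q := le_mul_of_one_le_left hQ0.le hE
  have f5 : D * g2 * z2 ≤ 9 / 4 * (E * Q) := by linarith
  have f6 : E * (F * g2) ≤ E * (9 / 4 * Q) := by
    calc E * (F * g2) = D * g2 * 1 := by rw [hDD]; ring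
      _ ≤ D * g2 * z2 := mul_le_mul_of_nonneg_left hz2 (by positivity)
      _ ≤ _ := f5
      _ = _ := by ring
  have f7 : F * g2 ≤ 9 / 4 * Q := le_of_mul_le_mul_left f6 hE0
  have f8 : F * g2 * (b * (1 - b)) ≤ 9 / 4 * Q * (b * (1 - b)) :=
    mul_le_mul_of_nonneg_right f7 hbb.le
  nlinarith

/-- **Lower bound**: if `ζ_K(b) ≤ 0` for a real `b` with `0 < b < 1`. -/
theorem siegel_ineq {b : ℝ} (h0 : 0 < b) (h1 : b < 1) (hb : (zetaK K b).re ≤ 0) :
    4 / 9 * (b * (1 - b)) * |(discr K : ℝ)| ^ (b / 2) /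
      (π ^ nrRealPlaces K * (2 * π ^ 2) ^ nrComplexPlaces K) ≤ classNumber K * clConst K := by
  have hD := one_le_absDisc K
  have hD0 : 0 < |(discr K : ℝ)| := disc_pos K
  have hH := hk_pos K
  have h2re : 1 < ((2 : ℝ) : ℂ).re := by rw [Complex.ofReal_re]; norm_num
  have h3re : 1 < ((3 : ℝ) : ℂ).re := by rw [Complex.ofReal_re]; norm_num
  have e1 := J_eq K (s := 2) two_pos (by norm_num)
  have e2 := J_eq K (s := 3) three_pos (by norm_num)
  have e3 := J_eq K h0 h1.ne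
  rw [zetaK_eq K h2re] at e1
  rw [zetaK_eq K h3re] at e2
  have e4 := J_interp K (b := b) (δ := |(discr K : ℝ)| ^ (-(1 / 2) : ℝ)) (by linarith)
    (Real.rpow_pos_of_pos hD0 _)
  rw [← Real.rpow_mul hD0.le, show (-(1 / 2) * (b - 2) : ℝ) = (2 - b) / 2 by ring] at e4
  rw [div_eq_mul_inv, ← gamR_two]
  refine lower_arith hD hH h0 h1 (gamR_pos K two_pos) (gamR_three_le K)
    (re_dedekindZeta_antitone K (σ := 2) (σ' := 3) (by norm_num) (by norm_num))
    (one_le_re_dedekindZeta K (σ := 2) (by norm_num))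
    (zero_le_one.trans (one_le_re_dedekindZeta K (σ := 3) (by norm_num))) ?_ ?_ ?_ e4
  · rw [e1, div_self two_ne_zero, Real.rpow_one]
    ring
  · rw [e2]
    have h' : (classNumber K : ℝ) * clConst K / (3 * (1 - 3)) = -(classNumber K * clConst K / 6) := by
      ring
    rw [h']
    have h'' : 0 ≤ (classNumber K : ℝ) * clConst K / 6 := by positivity
    linarith
  · rw [e3]
    have : |(discr K : ℝ)| ^ (b / 2) * gamR K b * (zetaK K (b : ℂ)).re ≤ 0 :=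
      mul_nonpos_of_nonneg_of_nonpos (mul_nonneg (Real.rpow_nonneg hD0.le _) (gamR_pos K h0).le) hb
    linarith

end Fermat.Agent.Cor.Siegel
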