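import Fermat.Agent.Corollaries.Siegel.GenusFin
import Fermat.Agent.Corollaries.Siegel.DiscThree
import Fermat.Agent.Corollaries.Diri.QuadDisc

/-!
# Imaginary quadratic fields with odd class number

`odd_classNumber_iff_discr`: the class number of an imaginary quadratic field `K` is odd if and only
if the discriminant of `K` is `-4`, `-8` or `-p` for a prime number `p ≡ 3 mod 4`.
-/

set_option autoImplicit false

noncomputable section

namespace Fermat.Agent.Cor.Siegel

open NumberField Module

/-- The discriminant of a quadratic field is `m` or `4m`, `m ≠ 1` squarefree. -/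
theorem exists_squarefree_discr (K : Type*) [Field K] [NumberField K] (h2 : finrank ℚ K = 2) :
    ∃ m : ℤ, Squarefree m ∧ m ≠ 1 ∧ discr K = if m % 4 = 1 then m else 4 * m := by
  obtain ⟨r, hr, hr'⟩ := exists_sqrt_discr h2
  obtain ⟨m, f, hmf, hm⟩ := Nat.sq_mul_squarefree (discr K).natAbs
  have hd0 : discr K ≠ 0 := discr_ne_zero K
  have hf0 : f ≠ 0 := by
    rintro rfl
    rw [zero_pow two_ne_zero, zero_mul] at hmf
    exact hd0 (Int.natAbs_eq_zero.mp hmf.symm)
  obtain ⟨μ, hμm, hμ⟩ : ∃ μ : ℤ, μ.natAbs = m ∧ discr K = f ^ 2 * μ := by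
    rcases Int.natAbs_eq (discr K) with h | h
    · refine ⟨m, Int.natAbs_natCast m, ?_⟩
      rw [h, ← hmf]
      push_cast
      ring
    · refine ⟨-m, by rw [Int.natAbs_neg, Int.natAbs_natCast], ?_⟩
      rw [h, ← hmf]
      push_cast
      ring
  have hμs : Squarefree μ := by
    rw [← Int.squarefree_natAbs, hμm]
    exact hm
  have hfK : (f : K) ≠ 0 := Nat.cast_ne_zero.mpr hf0
  have hα : (r / f) ^ 2 = (μ : K) := by
    rw [div_pow, hr, hμ]
    push_cast
    field_simp
  have hμ1 : μ ≠ 1 := by
    rintro rfl
    apply hr'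
    have h4 : (r / f - 1) * (r / f + 1) = 0 := by
      have : (r / f) ^ 2 = 1 := by rw [hα, Int.cast_one]
      linear_combination this
    rcases mul_eq_zero.mp h4 with h5 | h5
    · refine ⟨f, ?_⟩
      rw [map_natCast]
      field_simp at h5
      linear_combination -h5
    · refine ⟨-f, ?_⟩
      rw [map_neg, map_natCast]
      field_simp at h5
      linear_combination -h5
  exact ⟨μ, hμs, hμ1, Diri.discr_eq_of_sq h2 hμs hμ1 hα⟩

variable (K : Type*) [Field K] [NumberField K] [IsTotallyComplex K]

/-- The discriminant of an imaginary quadratic field is negative. -/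
theorem discr_neg_of_quadratic (h2 : finrank ℚ K = 2) : discr K < 0 := by
  have h1 := InfinitePlace.card_add_two_mul_card_eq_rank K
  rw [IsTotallyComplex.nrRealPlaces_eq_zero K, h2] at h1
  have h3 : InfinitePlace.nrComplexPlaces K = 1 := by omega
  have h4 := sign_discr K
  rw [h3, pow_one] at h4
  exact Int.sign_eq_neg_one_iff_neg.mp h4

/-- **The imaginary quadratic fields with odd class number**: the discriminant is `-4`, `-8` or `-p`
for a prime number `p ≡ 3 mod 4`. -/
theorem odd_classNumber_iff_discr (h2 : finrank ℚ K = 2) :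
    Odd (classNumber K) ↔
      discr K = -4 ∨ discr K = -8 ∨ ∃ p : ℕ, p.Prime ∧ p % 4 = 3 ∧ discr K = -p := by
  rw [odd_classNumber_iff K h2]
  constructor
  · intro h
    have hneg := discr_neg_of_quadratic K h2
    obtain ⟨m, hm, -, hd⟩ := exists_squarefree_discr K h2
    have hmn : Squarefree m.natAbs := Int.squarefree_natAbs.mpr hm
    have hprod := Nat.prod_primeFactors_of_squarefree hmn
    obtain ⟨q, hq⟩ := Finset.card_eq_one.mp h
    split_ifs at hd with h4
    · right
      right
      rw [hd] at hq hneg
      rw [hq, Finset.prod_singleton] at hprod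
      have hqp : q.Prime := Nat.prime_of_mem_primeFactors (hq ▸ Finset.mem_singleton_self q)
      exact ⟨q, hqp, by omega, by omega⟩
    · rw [hd] at hq hneg
      have h20 : (4 * m).natAbs ≠ 0 := by omega
      have h2m : 2 ∈ (4 * m).natAbs.primeFactors := by
        rw [Nat.mem_primeFactors]
        refine ⟨Nat.prime_two, ?_, h20⟩
        omega
      rw [hq, Finset.mem_singleton] at h2m
      subst h2m
      have hsub : m.natAbs.primeFactors ⊆ {2} := by
        rw [← hq]
        refine Nat.primeFactors_mono ?_ h20
        rw [Int.natAbs_mul]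
        exact dvd_mul_left _ _
      rcases Finset.subset_singleton_iff.mp hsub with h5 | h5
      · rw [h5, Finset.prod_empty] at hprod
        left
        omega
      · rw [h5, Finset.prod_singleton] at hprod
        right
        left
        omega
  · rintro (h | h | ⟨p, hp, -, h⟩)
    · rw [h]
      have h5 : (-4 : ℤ).natAbs = 2 ^ 2 := rfl
      rw [h5, Nat.primeFactors_prime_pow two_ne_zero Nat.prime_two, Finset.card_singleton]
    · rw [h]
      have h5 : (-8 : ℤ).natAbs = 2 ^ 3 := rfl
      rw [h5, Nat.primeFactors_prime_pow three_ne_zero Nat.prime_two, Finset.card_singleton]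
    · rw [h, Int.natAbs_neg, Int.natAbs_natCast, hp.primeFactors, Finset.card_singleton]

/-- The class number of the imaginary quadratic field of prime discriminant is odd. -/
theorem odd_classNumber_of_prime (h2 : finrank ℚ K = 2) {p : ℕ} (hp : p.Prime)
    (h : discr K = -p) : Odd (classNumber K) := by
  rw [odd_classNumber_iff K h2, h, Int.natAbs_neg, Int.natAbs_natCast, hp.primeFactors,
    Finset.card_singleton]

/-- Gauss: an imaginary quadratic field of class number one has discriminant `-4`, `-8` or `-p`,
`p ≡ 3 mod 4` prime. -/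
theorem discr_of_classNumber_eq_one (h2 : finrank ℚ K = 2) (h : classNumber K = 1) :
    discr K = -4 ∨ discr K = -8 ∨ ∃ p : ℕ, p.Prime ∧ p % 4 = 3 ∧ discr K = -p :=
  (odd_classNumber_iff_discr K h2).mp (h ▸ odd_one)

end Fermat.Agent.Cor.Siegel
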