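import Fermat.Agent.Corollaries.ZetaK.ZetaOne
import Fermat.Agent.Classic.Zeta.Compare

/-!
# The completed Dedekind zeta function as a Mellin transform of a positive function

`exists_rep`: there is a function `φ ≥ 0` on `(0, ∞)` with
`∫₀^∞ φ(x) x^(ns) dx/x = |d|^(s/2) γ(s) ζ_K(s) + h κ / (s (1 - s))` for all real `s ≠ 0, 1`,
where `κ = 2^(r₁+r₂) R / w`.
-/

set_option autoImplicit false

noncomputable section

open NumberField NumberField.InfinitePlace NumberField.Units MeasureTheory Set Filter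
open NumberField.Units.dirichletUnitTheorem Fermat.Agent.Classic.Zeta
open scoped nonZeroDivisors Classical Real Topology

namespace Fermat.Agent.Cor.Siegel

universe u

variable {K : Type u} [Field K] [NumberField K]

variable (r : ClassGroup (𝓞 K) → (FractionalIdeal (𝓞 K)⁰ K)ˣ)

/-- the scaling `(√|d| N𝔟)^(1/n)` -/
def sc (A : ClassGroup (𝓞 K)) : ℝ :=
  (√|(discr K : ℝ)| * nF (r A : FractionalIdeal (𝓞 K)⁰ K)) ^ ((Module.finrank ℚ K : ℝ)⁻¹)

theorem base_pos (A : ClassGroup (𝓞 K)) :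
    0 < √|(discr K : ℝ)| * nF (r A : FractionalIdeal (𝓞 K)⁰ K) :=
  mul_pos (Real.sqrt_pos.2 (disc_pos K)) (nF_pos (r A).ne_zero)

theorem sc_pos (A : ClassGroup (𝓞 K)) : 0 < sc r A := Real.rpow_pos_of_pos (base_pos r A) _

theorem sc_pow (A : ClassGroup (𝓞 K)) : sc r A ^ (Module.finrank ℚ K) =
    √|(discr K : ℝ)| * nF (r A : FractionalIdeal (𝓞 K)⁰ K) :=
  Real.rpow_inv_natCast_pow (base_pos r A).le Module.finrank_pos.ne'

variable {β : logSpace K → ℝ} (hβ : IsBeta β) (hT : TorusStmt K) (hD : DecayStmt K)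

/-- the sum over the classes of the scaled theta functions -/
def thF (β : logSpace K → ℝ) (x : ℝ) : ℝ :=
  ∑ A : ClassGroup (𝓞 K), F β (r A : FractionalIdeal (𝓞 K)⁰ K) (x * (sc r A)⁻¹)

/-- its transform -/
def thG (β : logSpace K → ℝ) (x : ℝ) : ℝ :=
  ∑ A : ClassGroup (𝓞 K), F β (dualF (r A : FractionalIdeal (𝓞 K)⁰ K)) (x * sc r A)

/-- the constant term -/
def thB (β : logSpace K → ℝ) : ℝ := ∑ _A : ClassGroup (𝓞 K), B β

include hT hβ in
theorem thF_inv {x : ℝ} (hx : 0 < x) :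
    thF r β (1 / x) = x ^ (Module.finrank ℚ K) * thG r β x := by
  unfold thF thG
  rw [Finset.mul_sum]
  refine Finset.sum_congr rfl fun A _ => ?_
  have h1 : 0 < x * sc r A := mul_pos hx (sc_pos r A)
  have h2 := (hT.2 β hβ).2 _ (r A).ne_zero _ h1
  have h3 : 1 / x * (sc r A)⁻¹ = (x * sc r A)⁻¹ := by rw [mul_inv, one_div]
  rw [h3, h2, mul_pow, sc_pow]
  have h4 := (base_pos r A).ne'
  generalize √|(discr K : ℝ)| * nF (r A : FractionalIdeal (𝓞 K)⁰ K) = b at h4 ⊢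
  field_simp

include hβ hD in
theorem continuousOn_comp (𝔟 : FractionalIdeal (𝓞 K)⁰ K) (h𝔟 : 𝔟 ≠ 0) {t : ℝ} (ht : 0 < t) :
    ContinuousOn (fun x => F β 𝔟 (x * t)) (Ioi 0) :=
  (hD β hβ 𝔟 h𝔟).1.comp (by fun_prop) fun _ hx => mul_pos hx ht

include hβ hD in
theorem isBigO_comp (𝔟 : FractionalIdeal (𝓞 K)⁰ K) (h𝔟 : 𝔟 ≠ 0) {t : ℝ} (ht : 0 < t) (e : ℝ) :
    (fun x => F β 𝔟 (x * t) - B β) =O[atTop] fun x : ℝ => x ^ e := by
  have h1 := (hD β hβ 𝔟 h𝔟).2 e
  have h2 : Tendsto (fun x : ℝ => x * t) atTop atTop := tendsto_id.atTop_mul_const ht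
  refine (h1.comp_tendsto h2).trans (Asymptotics.IsBigO.of_bound (t ^ e) ?_)
  filter_upwards [eventually_gt_atTop 0] with x hx
  rw [Function.comp_apply, Real.mul_rpow hx.le ht.le, norm_mul, mul_comm]
  refine mul_le_mul_of_nonneg_right ?_ (norm_nonneg _)
  rw [Real.norm_of_nonneg (Real.rpow_nonneg ht.le _)]

/-- the self-dual pair -/
def pairK : WeakFEPair ℂ where
  f x := ((thF r β x : ℝ) : ℂ)
  g x := ((thG r β x : ℝ) : ℂ)
  k := Module.finrank ℚ K
  ε := 1
  f₀ := ((thB β : ℝ) : ℂ)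
  g₀ := ((thB β : ℝ) : ℂ)
  hf_int := (Complex.continuous_ofReal.comp_continuousOn
    (continuousOn_finsetSum _ fun A _ => continuousOn_comp hβ hD _ (r A).ne_zero
      (inv_pos.2 (sc_pos r A)))).locallyIntegrableOn measurableSet_Ioi
  hg_int := (Complex.continuous_ofReal.comp_continuousOn
    (continuousOn_finsetSum _ fun A _ => continuousOn_comp hβ hD _ (dualF_ne_zero (r A).ne_zero)
      (sc_pos r A))).locallyIntegrableOn measurableSet_Ioi
  hk := finrank_pos' K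
  hε := one_ne_zero
  h_feq x hx := by
    rw [thF_inv r hβ hT hx, Real.rpow_natCast, smul_eq_mul]
    push_cast
    ring
  hf_top e := by
    have h : (fun x => thF r β x - thB β) =O[atTop] fun x : ℝ => x ^ e := by
      unfold thF thB
      simp_rw [← Finset.sum_sub_distrib]
      exact Asymptotics.IsBigO.fun_sum fun A _ =>
        isBigO_comp hβ hD _ (r A).ne_zero (inv_pos.2 (sc_pos r A)) e
    refine Asymptotics.IsBigO.of_norm_left (h.norm_left.congr_left fun x => ?_)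
    rw [← Complex.ofReal_sub, Complex.norm_real]
  hg_top e := by
    have h : (fun x => thG r β x - thB β) =O[atTop] fun x : ℝ => x ^ e := by
      unfold thG thB
      simp_rw [← Finset.sum_sub_distrib]
      exact Asymptotics.IsBigO.fun_sum fun A _ =>
        isBigO_comp hβ hD _ (dualF_ne_zero (r A).ne_zero) (sc_pos r A) e
    refine Asymptotics.IsBigO.of_norm_left (h.norm_left.congr_left fun x => ?_)
    rw [← Complex.ofReal_sub, Complex.norm_real]

include hβ in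
theorem thF_sub_nonneg {x : ℝ} (hx : 0 < x) : 0 ≤ thF r β x - thB β := by
  unfold thF thB
  rw [← Finset.sum_sub_distrib]
  exact Finset.sum_nonneg fun A _ => Decay.B_le_F hβ _ (mul_pos hx (inv_pos.2 (sc_pos r A)))

include hβ in
theorem thG_sub_nonneg {x : ℝ} (hx : 0 < x) : 0 ≤ thG r β x - thB β := by
  unfold thG thB
  rw [← Finset.sum_sub_distrib]
  exact Finset.sum_nonneg fun A _ => Decay.B_le_F hβ _ (mul_pos hx (sc_pos r A))

/-- the modified function is real and non-negative -/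
theorem f_modif_eq {x : ℝ} (hx : 0 < x) :
    ∃ y : ℝ, 0 ≤ y ∧ (pairK r hβ hT hD).f_modif x = (y : ℂ) := by
  rcases lt_trichotomy x 1 with h | rfl | h
  · refine ⟨thF r β x - (x ^ (-(Module.finrank ℚ K : ℝ))) * thB β, ?_, ?_⟩
    · have h1 := thF_inv r hβ hT (x := 1 / x) (by positivity)
      rw [one_div_one_div] at h1
      rw [h1, Real.rpow_neg hx.le, Real.rpow_natCast, one_div, inv_pow, ← mul_sub]
      exact mul_nonneg (by positivity) (thG_sub_nonneg r hβ (by positivity))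
    · rw [WeakFEPair.f_modif, Pi.add_apply, indicator_of_notMem (notMem_Ioi.mpr h.le), zero_add,
        indicator_of_mem (mem_Ioo.mpr ⟨hx, h⟩)]
      change ((thF r β x : ℝ) : ℂ) - (1 * ((x ^ (-(Module.finrank ℚ K : ℝ)) : ℝ) : ℂ)) •
        ((thB β : ℝ) : ℂ) = _
      rw [one_mul, smul_eq_mul]
      push_cast
      rfl
  · exact ⟨0, le_rfl, by simp [WeakFEPair.f_modif]⟩
  · refine ⟨thF r β x - thB β, thF_sub_nonneg r hβ hx, ?_⟩
    rw [WeakFEPair.f_modif, Pi.add_apply, indicator_of_mem (mem_Ioi.mpr h),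
      indicator_of_notMem (notMem_Ioo_of_ge h.le), add_zero]
    change ((thF r β x : ℝ) : ℂ) - ((thB β : ℝ) : ℂ) = _
    push_cast
    rfl

theorem pairK_Λ {c : ℝ} (hM : ∀ β : logSpace K → ℝ, IsBeta β →
    ∀ (𝔟 : FractionalIdeal (𝓞 K)⁰ K), 𝔟 ≠ 0 → ∀ (ι : Type u) (g : ι → K), IsGen 𝔟 g →
      ∀ s : ℂ, 1 < s.re →
        Summable (fun i => (((|Algebra.norm ℚ (g i)| : ℚ) : ℂ)) ^ (-s)) ∧
        mellin (fun x : ℝ => ((F β 𝔟 x - B β : ℝ) : ℂ)) ((Module.finrank ℚ K : ℂ) * s) =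
          c * gam K s * ∑' i, (((|Algebra.norm ℚ (g i)| : ℚ) : ℂ)) ^ (-s))
    (hC : ClassStmt K) (hr : ∀ A, ClassGroup.mk K (r A) = A) {s : ℂ} (hs : 1 < s.re) :
    (pairK r hβ hT hD).Λ ((Module.finrank ℚ K : ℂ) * s) =
      c * (((|(discr K : ℝ)| : ℝ) : ℂ) ^ (s / 2) * gam K s *
        ∑ C : ClassGroup (𝓞 K), zcK C⁻¹ s) := by
  have hn := finrank_pos' K
  have hks : (Module.finrank ℚ K : ℝ) < ((Module.finrank ℚ K : ℂ) * s).re := by
    rw [← Complex.ofReal_natCast, Complex.re_ofReal_mul]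
    nlinarith
  have hA : ∀ A : ClassGroup (𝓞 K), HasMellin
      (fun x : ℝ => ((F β (r A : FractionalIdeal (𝓞 K)⁰ K) (x * (sc r A)⁻¹) - B β : ℝ) : ℂ))
      ((Module.finrank ℚ K : ℂ) * s)
      (c * (((|(discr K : ℝ)| : ℝ) : ℂ) ^ (s / 2) * gam K s * zcK A⁻¹ s)) := by
    intro A
    have hb := nF_pos (r A).ne_zero
    have ht := sc_pos r A
    have h1 := (fe hβ hT hD (r A)).hasMellin hks
    have h2 := fe_Λ hβ hT hD hM hC (r A) s hs
    rw [Complex.ofReal_natCast, hr] at h2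
    rw [h2] at h1
    have h3 : HasMellin (fun x : ℝ => ((F β (r A : FractionalIdeal (𝓞 K)⁰ K) x - B β : ℝ) : ℂ))
        ((Module.finrank ℚ K : ℂ) * s) (c * gam K s *
          (((nF (r A : FractionalIdeal (𝓞 K)⁰ K) : ℝ) : ℂ) ^ (-s) * zcK A⁻¹ s)) := by
      convert h1 using 2
      rw [Complex.ofReal_sub]
      rfl
    have h4 : (((sc r A)⁻¹ : ℝ) : ℂ) ^ (-((Module.finrank ℚ K : ℂ) * s)) =
        ((|(discr K : ℝ)| : ℝ) : ℂ) ^ (s / 2) *
          ((nF (r A : FractionalIdeal (𝓞 K)⁰ K) : ℝ) : ℂ) ^ s := by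
      have h6 : (((sc r A)⁻¹ : ℝ) : ℂ) ^ (-((Module.finrank ℚ K : ℂ) * s)) =
          (((sc r A ^ (Module.finrank ℚ K) : ℝ)) : ℂ) ^ s := by
        rw [Complex.ofReal_inv, Complex.inv_cpow _ _ (by
          rw [Complex.arg_ofReal_of_nonneg ht.le]; exact Real.pi_pos.ne), Complex.cpow_neg, inv_inv,
          Complex.cpow_nat_mul', Complex.ofReal_pow]
        · rw [Complex.arg_ofReal_of_nonneg ht.le, mul_zero]
          exact neg_lt_zero.2 Real.pi_pos
        · rw [Complex.arg_ofReal_of_nonneg ht.le, mul_zero]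
          exact Real.pi_pos.le
      rw [h6, sc_pow, Complex.ofReal_mul, Complex.mul_cpow_ofReal_nonneg (Real.sqrt_nonneg _) hb.le,
        Real.sqrt_eq_rpow, Complex.ofReal_cpow (abs_nonneg _), ← Complex.cpow_mul]
      · congr 2
        push_cast
        ring
      · rw [← Complex.ofReal_log (abs_nonneg _), Complex.im_ofReal_mul]
        norm_num
        exact Real.pi_pos
      · rw [← Complex.ofReal_log (abs_nonneg _), Complex.im_ofReal_mul]
        norm_num
        exact Real.pi_pos.le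
    have hb' : ((nF (r A : FractionalIdeal (𝓞 K)⁰ K) : ℝ) : ℂ) ^ s *
        ((nF (r A : FractionalIdeal (𝓞 K)⁰ K) : ℝ) : ℂ) ^ (-s) = 1 := by
      rw [ofReal_cpow_eq_exp hb, ofReal_cpow_eq_exp hb, ← Complex.exp_add, ← mul_add,
        add_neg_cancel, mul_zero, Complex.exp_zero]
    have h7 := (MellinConvergent.comp_mul_left (inv_pos.2 ht)).2 h3.1
    simp only [mul_comm (sc r A)⁻¹] at h7
    refine ⟨h7, ?_⟩
    rw [mellin_comp_mul_right (fun x : ℝ =>
        ((F β (r A : FractionalIdeal (𝓞 K)⁰ K) x - B β : ℝ) : ℂ))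
        ((Module.finrank ℚ K : ℂ) * s) (inv_pos.2 ht), h3.2, h4, smul_eq_mul]
    linear_combination (c * ((|(discr K : ℝ)| : ℝ) : ℂ) ^ (s / 2) * gam K s * zcK A⁻¹ s) * hb'
  have h1 := ((pairK r hβ hT hD).hasMellin hks).2
  rw [← h1]
  have h2 : ∀ T : Finset (ClassGroup (𝓞 K)), HasMellin (fun x : ℝ => ∑ A ∈ T,
      ((F β (r A : FractionalIdeal (𝓞 K)⁰ K) (x * (sc r A)⁻¹) - B β : ℝ) : ℂ))
      ((Module.finrank ℚ K : ℂ) * s)
      (∑ A ∈ T, (c * (((|(discr K : ℝ)| : ℝ) : ℂ) ^ (s / 2) * gam K s * zcK A⁻¹ s))) := by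
    intro T
    induction T using Finset.induction_on with
    | empty => 
      refine ⟨?_, ?_⟩
      · simp only [Finset.sum_empty]
        exact (by simp [MellinConvergent] : MellinConvergent (fun _ : ℝ => (0 : ℂ)) _)
      · simp [mellin]
    | insert A T hAT ih =>
      simp only [Finset.sum_insert hAT]
      rw [← (hA A).2, ← ih.2]
      exact hasMellin_add (hA A).1 ih.1
  have h3 := (h2 Finset.univ).2
  rw [← Finset.mul_sum, ← Finset.mul_sum] at h3
  rw [← h3]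
  congr 1
  ext x
  change ((thF r β x : ℝ) : ℂ) - ((thB β : ℝ) : ℂ) = _
  rw [← Complex.ofReal_sub, thF, thB, ← Finset.sum_sub_distrib, Complex.ofReal_sum]

variable (K) in
/-- **The completed zeta function as the Mellin transform of a positive function.** -/
theorem exists_rep : ∃ φ : ℝ → ℝ, (∀ x, 0 < x → 0 ≤ φ x) ∧
    (∀ w : ℝ, IntegrableOn (fun x : ℝ => x ^ (w - 1) * φ x) (Ioi 0)) ∧
    ∀ s : ℝ, (s : ℂ) * (1 - s) *
      ((∫ x in Ioi (0 : ℝ), x ^ ((Module.finrank ℚ K : ℝ) * s - 1) * φ x : ℝ) : ℂ) =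
        XiF (K := K) (fun _ => 1) s + (classNumber K : ℂ) * (clConst K : ℂ) := by
  have hT := torusStmt (thetaStmt K)
  have hD := decayStmt K
  obtain ⟨c, hc, hM⟩ := mellinStmt_of' hT hD (gammaStmt K)
  have hC := classStmt K
  obtain ⟨β, hβ⟩ := hT.1
  choose r hr using exists_mk_eq (K := K)
  have hn := finrank_pos' K
  have hn' : ((Module.finrank ℚ K : ℕ) : ℂ) ≠ 0 := by
    exact_mod_cast (Module.finrank_pos (R := ℚ) (M := K)).ne'
  have hc' : (c : ℂ) ≠ 0 := by exact_mod_cast hc.ne'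
  let P := pairK r hβ hT hD
  -- the complex identity
  have hid : ∀ s : ℂ, (c : ℂ)⁻¹ * (s * (1 - s) * P.Λ₀ ((Module.finrank ℚ K : ℂ) * s)) =
      XiF (K := K) (fun _ => 1) s + (c : ℂ)⁻¹ * ((thB β : ℝ) : ℂ) / (Module.finrank ℚ K : ℂ) := by
    refine Fermat.Agent.Classic.Zeta.eq_of_eq_re_large (σ := 1) ?_ ?_ fun s hs => ?_
    · have h1 : Differentiable ℂ fun s : ℂ => P.Λ₀ ((Module.finrank ℚ K : ℂ) * s) :=
        P.differentiable_Λ₀.comp (by fun_prop)
      have h2 : Differentiable ℂ fun s : ℂ => s * (1 - s) := by fun_prop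
      exact (h2.mul h1).const_mul _
    · exact (differentiable_XiF _).add_const _
    · have h0 := ne_zero_of_re hs
      have h1 := ne_one_of_re hs
      have h1' : 1 - s ≠ 0 := sub_ne_zero.mpr (Ne.symm h1)
      have h2 : P.Λ₀ ((Module.finrank ℚ K : ℂ) * s) =
          P.Λ ((Module.finrank ℚ K : ℂ) * s) +
            (1 / ((Module.finrank ℚ K : ℂ) * s)) • ((thB β : ℝ) : ℂ) +
            (1 / (((Module.finrank ℚ K : ℝ) : ℂ) - (Module.finrank ℚ K : ℂ) * s)) •
              ((thB β : ℝ) : ℂ) := P.Λ₀_eq _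
      have h3 := pairK_Λ r hβ hT hD hM hC hr hs
      have h4 : ∑ C : ClassGroup (𝓞 K), zcK C⁻¹ s = ∑ C : ClassGroup (𝓞 K), 1 * zcK C s := by
        simp only [one_mul]
        exact Equiv.sum_comp (Equiv.inv (ClassGroup (𝓞 K))) fun C => zcK C s
      rw [h2, h3, h4, XiF_eq _ hs, smul_eq_mul, smul_eq_mul, Complex.ofReal_natCast,
        show (Module.finrank ℚ K : ℂ) - (Module.finrank ℚ K : ℂ) * s =
          (Module.finrank ℚ K : ℂ) * (1 - s) by ring]
      field_simp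
      ring
  -- the constant
  have hconst : (c : ℂ)⁻¹ * ((thB β : ℝ) : ℂ) / (Module.finrank ℚ K : ℂ) =
      (classNumber K : ℂ) * (clConst K : ℂ) := by
    have h := hid 1
    rw [sub_self, mul_zero, zero_mul, mul_zero, XiF_at_one, sum_one_classGroup] at h
    linear_combination -h
  -- the real function
  let φ : ℝ → ℝ := fun x => c⁻¹ * (P.f_modif x).re
  have hφ : ∀ x : ℝ, 0 < x → 0 ≤ φ x ∧ ((φ x : ℝ) : ℂ) = (c : ℂ)⁻¹ * P.f_modif x := by
    intro x hx
    obtain ⟨y, hy, h⟩ := f_modif_eq r hβ hT hD hx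
    have h' : P.f_modif x = (y : ℂ) := h
    have h1 : φ x = c⁻¹ * y := by
      change c⁻¹ * (P.f_modif x).re = _
      rw [h', Complex.ofReal_re]
    refine ⟨?_, ?_⟩
    · rw [h1]
      exact mul_nonneg (inv_pos.2 hc).le hy
    · rw [h1, h', Complex.ofReal_mul, Complex.ofReal_inv]
  have hint : ∀ w : ℝ, IntegrableOn (fun x : ℝ => x ^ (w - 1) * φ x) (Ioi 0) ∧
      ((∫ x in Ioi (0 : ℝ), x ^ (w - 1) * φ x : ℝ) : ℂ) = (c : ℂ)⁻¹ * P.Λ₀ w := by
    intro w
    have h1 : MellinConvergent P.f_modif (w : ℂ) :=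
      (P.isStrongFEPair_toStrongFEPair.hasMellin w).1
    have h2 : ∀ x ∈ Ioi (0 : ℝ), ((x ^ (w - 1) * φ x : ℝ) : ℂ) =
        (c : ℂ)⁻¹ * ((x : ℂ) ^ ((w : ℂ) - 1) • P.f_modif x) := by
      intro x hx
      rw [Complex.ofReal_mul, (hφ x hx).2, Complex.ofReal_cpow (le_of_lt hx), smul_eq_mul]
      push_cast
      ring
    have h3 : IntegrableOn (fun x : ℝ => ((x ^ (w - 1) * φ x : ℝ) : ℂ)) (Ioi 0) := by
      refine IntegrableOn.congr_fun (h1.const_mul (c : ℂ)⁻¹) (fun x hx => (h2 x hx).symm)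
        measurableSet_Ioi
    refine ⟨?_, ?_⟩
    · have h4 := h3.re
      simp only [RCLike.re_to_complex, Complex.ofReal_re] at h4
      exact h4
    · rw [← integral_complex_ofReal, setIntegral_congr_fun measurableSet_Ioi h2,
        integral_const_mul]
      rfl
  refine ⟨φ, fun x hx => (hφ x hx).1, fun w => (hint w).1, fun s => ?_⟩
  rw [(hint _).2, ← hconst, ← hid s]
  push_cast
  ring

end Fermat.Agent.Cor.Siegel
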