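import Mathlib
import Fermat.Agent.Corollaries.Siegel.DiscThree
import Fermat.Agent.Corollaries.Siegel.Genus

/-!
# The theorem of Rabinowitsch (1912)

`rabinowitsch`: let `q ≥ 2` and let `K` be a quadratic field of discriminant `1 - 4 q`. Then `K` has
class number one if and only if `n² + n + q` is a prime number for `n = 0, 1, …, q - 2`.

`squarefree_of_prime`: in this case `4 q - 1` is squarefree.
`classNumber_eq_one`: the quadratic fields of discriminant `-3, -4, -7, -8, -11, -19, -43, -67, -163`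
have class number one.
-/

set_option autoImplicit false

noncomputable section

namespace Fermat.Agent.Cor.Siegel

open NumberField nonZeroDivisors

variable {K : Type*} [Field K] [NumberField K]

omit [NumberField K] in
/-- A number field which contains a square root of a negative integer is totally complex. -/
theorem isTotallyComplex_of_sq {x : K} {d : ℤ} (hd : d < 0) (hx : x ^ 2 = (d : K)) :
    IsTotallyComplex K := by
  refine ⟨fun v => ?_⟩
  rw [← InfinitePlace.not_isReal_iff_isComplex]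
  intro hv
  have h1 := congrArg (InfinitePlace.embedding_of_isReal hv) hx
  rw [map_pow, map_intCast] at h1
  have h3 : (d : ℝ) < 0 := by exact_mod_cast hd
  rw [← h1] at h3
  exact absurd (sq_nonneg _) (not_le.mpr h3)

/-- In the quadratic field of discriminant `1 - 4 q` the equation `θ² + θ + q = 0` has a
solution. -/
theorem exists_theta (h2 : Module.finrank ℚ K = 2) {q : ℕ} (hd : discr K = 1 - 4 * q) :
    ∃ θ : 𝓞 K, θ ^ 2 + θ + (q : 𝓞 K) = 0 := by
  obtain ⟨r, hr, -⟩ := exists_sqrt_discr h2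
  rw [hd] at hr
  push_cast at hr
  have h1 : ((r - 1) / 2) ^ 2 + (r - 1) / 2 + (q : K) = 0 := by
    field_simp
    linear_combination hr
  have hint : IsIntegral ℤ ((r - 1) / 2) := by
    refine ⟨Polynomial.X ^ 2 + Polynomial.X + Polynomial.C (q : ℤ), ?_, ?_⟩
    · monicity!
    · simpa using h1
  refine ⟨⟨_, hint⟩, RingOfIntegers.ext ?_⟩
  exact h1

/-- The discriminant of an integer of a quadratic field. -/
theorem disc_relation (h2 : Module.finrank ℚ K = 2) (x : 𝓞 K) :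
    (2 * x - (Algebra.trace ℤ (𝓞 K) x : 𝓞 K)) ^ 2 =
      (((Algebra.trace ℤ (𝓞 K) x) ^ 2 - 4 * Algebra.norm ℤ x : ℤ) : 𝓞 K) := by
  have h := sq_relation h2 x
  push_cast
  linear_combination 4 * h

/-- If the discriminant of the quadratic field is odd, the discriminant of an integer which is not
rational is the product of the discriminant of the field by a non-zero square. -/
theorem exists_disc (h2 : Module.finrank ℚ K = 2) (hodd : Odd (discr K)) {x : 𝓞 K}
    (hx : (x : K) ∉ Set.range (algebraMap ℚ K)) :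
    ∃ y : ℤ, y ≠ 0 ∧ (Algebra.trace ℤ (𝓞 K) x) ^ 2 - 4 * Algebra.norm ℤ x = y ^ 2 * discr K := by
  have h1 := congrArg (fun z : 𝓞 K => (z : K)) (disc_relation h2 x)
  have h3 : (2 * (x : K) - (Algebra.trace ℤ (𝓞 K) x : K)) ^ 2 =
      (((Algebra.trace ℤ (𝓞 K) x) ^ 2 - 4 * Algebra.norm ℤ x : ℤ) : K) := by
    simpa [map_ofNat] using h1
  have h4 : (2 * (x : K) - (Algebra.trace ℤ (𝓞 K) x : K)) ∉ Set.range (algebraMap ℚ K) := by
    rintro ⟨r, hr⟩
    apply hx
    refine ⟨(r + (Algebra.trace ℤ (𝓞 K) x : ℚ)) / 2, ?_⟩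
    rw [map_div₀, map_add, hr, map_intCast, map_ofNat]
    ring
  obtain ⟨m, hm0, hm⟩ := sq_mul_discr h2 h3 h4
  have h5 : (2 : ℤ) ∣ m := by
    have h6 : (2 : ℤ) ∣ m ^ 2 * discr K :=
      ⟨2 * ((Algebra.trace ℤ (𝓞 K) x) ^ 2 - 4 * Algebra.norm ℤ x), by rw [← hm]; ring⟩
    rcases Int.prime_two.dvd_or_dvd h6 with h7 | h7
    · exact Int.prime_two.dvd_of_dvd_pow h7
    · obtain ⟨k, hk⟩ := hodd
      omega
  obtain ⟨y, rfl⟩ := h5
  refine ⟨y, by rintro rfl; exact hm0 (mul_zero 2), ?_⟩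
  have h8 : (4 : ℤ) * ((Algebra.trace ℤ (𝓞 K) x) ^ 2 - 4 * Algebra.norm ℤ x) =
      4 * (y ^ 2 * discr K) := by rw [hm]; ring
  exact mul_left_cancel₀ (by norm_num) h8

section Theta

variable (h2 : Module.finrank ℚ K = 2) {q : ℕ} (hq : 2 ≤ q) (hd : discr K = 1 - 4 * q)

include hd in
theorem odd_discr : Odd (discr K) := ⟨-2 * (q : ℤ), by rw [hd]; ring⟩

include h2 hd in
/-- The prime numbers which are norms are at least `q`. -/
theorem le_of_norm_eq {α : 𝓞 K} {p : ℕ} (hp : p.Prime) (h : Algebra.norm ℤ α = p) : q ≤ p := by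
  by_cases hx : (α : K) ∈ Set.range (algebraMap ℚ K)
  · exfalso
    obtain ⟨r, hr⟩ := hx
    have h1 : Algebra.norm ℚ (α : K) = r ^ 2 := by rw [← hr, Algebra.norm_algebraMap, h2]
    rw [← Algebra.coe_norm_int, h] at h1
    have h3 : IsSquare ((p : ℕ) : ℚ) := ⟨r, by rw [← pow_two, ← h1]; norm_num⟩
    exact hp.prime.not_isSquare (Rat.isSquare_natCast_iff.mp h3)
  · obtain ⟨y, hy0, hy⟩ := exists_disc h2 (odd_discr hd) hx
    rw [h, hd] at hy
    have h3 : 1 ≤ y ^ 2 := by
      have := sq_nonneg y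
      have h4 : y ^ 2 ≠ 0 := pow_ne_zero 2 hy0
      omega
    have hq0 : (0 : ℤ) ≤ q := Int.natCast_nonneg q
    by_contra hlt
    have h5 : (p : ℤ) + 1 ≤ q := by exact_mod_cast not_le.mp hlt
    nlinarith [sq_nonneg (Algebra.trace ℤ (𝓞 K) α), mul_le_mul_of_nonneg_right h3
      (show (0 : ℤ) ≤ 4 * q - 1 by omega)]

variable {θ : 𝓞 K} (hθ : θ ^ 2 + θ + (q : 𝓞 K) = 0)

include hq hθ in
theorem theta_notMem (m : ℤ) : ((m + θ : 𝓞 K) : K) ∉ Set.range (algebraMap ℚ K) := by
  rintro ⟨r, hr⟩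
  have h1 : (θ : K) ^ 2 + (θ : K) + (q : K) = 0 := by
    have := congrArg (fun z : 𝓞 K => (z : K)) hθ
    simpa using this
  have h3 : ((m : K) + (θ : K)) = algebraMap ℚ K r := by
    rw [hr]
    simp
  have h4 : algebraMap ℚ K ((r - m) ^ 2 + (r - m) + q) = 0 := by
    rw [map_add, map_add, map_pow, map_sub, ← h3, map_intCast, map_natCast]
    linear_combination h1
  have h5 : (r - m) ^ 2 + (r - m) + (q : ℚ) = 0 := by
    rwa [map_eq_zero] at h4
  have h6 : (2 : ℚ) ≤ q := by exact_mod_cast hq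
  nlinarith [sq_nonneg (2 * (r - m) + 1)]

include h2 hq hd hθ in
/-- A prime number does not divide `m + θ`. -/
theorem not_dvd_add_theta (m : ℤ) {p : ℕ} (hp : p.Prime) : ¬ (p : 𝓞 K) ∣ (m : 𝓞 K) + θ := by
  rintro ⟨γ, hγ⟩
  have hγ' : (γ : K) ∉ Set.range (algebraMap ℚ K) := by
    rintro ⟨r, hr⟩
    apply theta_notMem hq hθ m
    refine ⟨p * r, ?_⟩
    rw [hγ, map_mul, hr, map_natCast]
    simp
  obtain ⟨y, hy0, hy⟩ := exists_disc h2 (odd_discr hd) hγ'
  have h1 := disc_relation h2 γ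
  rw [hy, hd] at h1
  set T : ℤ := Algebra.trace ℤ (𝓞 K) γ
  set k : ℤ := 2 * m - 1 - p * T with hk
  -- `(δ + k)² = p² y² d`
  have h3 : 2 * (k : 𝓞 K) * (2 * θ + 1) =
      (((p : ℤ) ^ 2 * y ^ 2 * (1 - 4 * q) - (1 - 4 * q) - k ^ 2 : ℤ) : 𝓞 K) := by
    have h4 : (2 * θ + 1 + (k : 𝓞 K)) ^ 2 = (p : 𝓞 K) ^ 2 * ((y ^ 2 * (1 - 4 * q) : ℤ) : 𝓞 K) := by
      rw [← h1, hk]
      push_cast
      have h5 : 2 * θ + 1 + (2 * (m : 𝓞 K) - 1 - (p : 𝓞 K) * (T : 𝓞 K)) =
          (p : 𝓞 K) * (2 * γ - (T : 𝓞 K)) := by linear_combination 2 * hγ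
      rw [h5]
      ring
    push_cast at h4 ⊢
    linear_combination h4 - 4 * hθ
  have hk0 : k = 0 := by
    by_contra hk0
    have hkK : (2 * (k : K)) ≠ 0 := mul_ne_zero two_ne_zero (by exact_mod_cast hk0)
    have h4 := congrArg (fun z : 𝓞 K => (z : K)) h3
    have h5 : 2 * (k : K) * (2 * (θ : K) + 1) =
        (((p : ℤ) ^ 2 * y ^ 2 * (1 - 4 * q) - (1 - 4 * q) - k ^ 2 : ℤ) : K) := by
      simpa [map_ofNat] using h4
    apply theta_notMem hq hθ 0
    refine ⟨((((p : ℤ) ^ 2 * y ^ 2 * (1 - 4 * q) - (1 - 4 * q) - k ^ 2 : ℤ) : ℚ) / (2 * k) - 1) / 2,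
      ?_⟩
    rw [map_div₀, map_sub, map_div₀, map_mul, map_intCast, map_intCast, map_one, map_ofNat, ← h5,
      mul_div_cancel_left₀ _ hkK]
    simp
  rw [hk0] at h3
  have h6 : ((p : ℤ) ^ 2 * y ^ 2 * (1 - 4 * q) - (1 - 4 * q) - 0 ^ 2 : ℤ) = 0 := by
    have h7 : (((p : ℤ) ^ 2 * y ^ 2 * (1 - 4 * q) - (1 - 4 * q) - 0 ^ 2 : ℤ) : 𝓞 K) = 0 := by
      rw [← h3]
      push_cast
      ring
    exact_mod_cast h7
  have h8 : (1 - 4 * (q : ℤ)) * ((p : ℤ) ^ 2 * y ^ 2 - 1) = 0 := by linarith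
  have h9 : (1 - 4 * (q : ℤ)) ≠ 0 := by omega
  have h10 : (p : ℤ) * (p * y ^ 2) = 1 := by
    have := (mul_eq_zero.mp h8).resolve_left h9
    linarith
  have h11 : IsUnit (p : ℤ) := IsUnit.of_mul_eq_one _ h10
  have h12 := Int.isUnit_iff.mp h11
  have := hp.two_le
  omega

end Theta

/-! ### Class number one gives prime values -/

theorem isUnit_of_norm_eq_one (h2 : Module.finrank ℚ K = 2) {a : 𝓞 K}
    (h : Algebra.norm ℤ a = 1) : IsUnit a := by
  have h1 := sq_relation h2 a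
  rw [h] at h1
  push_cast at h1
  exact IsUnit.of_mul_eq_one ((Algebra.trace ℤ (𝓞 K) a : 𝓞 K) - a) (by linear_combination -h1)

/-- If the class number of the quadratic field of discriminant `1 - 4 q` is one, the values
`n² + n + q`, `0 ≤ n ≤ q - 2`, are prime numbers. -/
theorem prime_of_classNumber_eq_one (h2 : Module.finrank ℚ K = 2) {q : ℕ} (hq : 2 ≤ q)
    (hd : discr K = 1 - 4 * q) (h : classNumber K = 1) {n : ℕ} (hn : n + 2 ≤ q) :
    (n ^ 2 + n + q).Prime := by
  have hPID : IsPrincipalIdealRing (𝓞 K) := classNumber_eq_one_iff.mp h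
  have htc : IsTotallyComplex K := by
    obtain ⟨r, hr, -⟩ := exists_sqrt_discr h2
    exact isTotallyComplex_of_sq (by rw [hd]; omega) hr
  obtain ⟨θ, hθ⟩ := exists_theta h2 hd
  by_contra hcon
  set M := n ^ 2 + n + q with hM
  have hM2 : 2 ≤ M := by omega
  set p := M.minFac with hp
  have hpp : p.Prime := Nat.minFac_prime (by omega)
  have hpsq : p ^ 2 ≤ M := Nat.minFac_sq_le_self (by omega) hcon
  have hpq : p < q := by
    have h1 : M < q ^ 2 := by
      rw [hM]
      nlinarith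
    exact lt_of_pow_lt_pow_left₀ 2 (by omega) (hpsq.trans_lt h1)
  have hpM : p ∣ M := Nat.minFac_dvd M
  -- `p` divides `(n - θ) (n + 1 + θ)`
  have hdvd : (p : 𝓞 K) ∣ (((-(n : ℤ) : ℤ) : 𝓞 K) + θ) * ((((n : ℤ) + 1 : ℤ) : 𝓞 K) + θ) := by
    obtain ⟨c, hc⟩ := hpM
    refine ⟨-(c : 𝓞 K), ?_⟩
    have h1 : ((n : 𝓞 K) ^ 2 + n + q) = (p : 𝓞 K) * c := by
      rw [← Nat.cast_mul, ← hc, hM]
      push_cast
      ring
    push_cast
    linear_combination hθ - h1
  have hp0 : (p : 𝓞 K) ≠ 0 := by exact_mod_cast hpp.ne_zero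
  have hr : Module.finrank ℤ (𝓞 K) = 2 := by rw [RingOfIntegers.rank, h2]
  have hNp : Algebra.norm ℤ (p : 𝓞 K) = (p : ℤ) ^ 2 := by
    have h := Algebra.norm_algebraMap_of_basis
      (Module.finBasisOfFinrankEq ℤ (𝓞 K) hr) (p : ℤ)
    simpa using h
  have hnotunit : ¬ IsUnit (p : 𝓞 K) := by
    intro hu
    have h1 := hu.map (Algebra.norm ℤ)
    rw [hNp, Int.isUnit_iff] at h1
    have h3 : (2 : ℤ) ≤ p := by exact_mod_cast hpp.two_le
    rcases h1 with h1 | h1 <;> nlinarith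
  have hirr : Irreducible (p : 𝓞 K) := by
    refine ⟨hnotunit, fun a b hab => ?_⟩
    by_contra hc
    push Not at hc
    have ha0 : a ≠ 0 := by
      rintro rfl
      exact hp0 (by rw [hab, zero_mul])
    have hb0 : b ≠ 0 := by
      rintro rfl
      exact hp0 (by rw [hab, mul_zero])
    have ha := norm_int_pos h2 ha0
    have hb := norm_int_pos h2 hb0
    have hmul : Algebra.norm ℤ a * Algebra.norm ℤ b = (p : ℤ) ^ 2 := by
      rw [← map_mul, ← hab, hNp]
    obtain ⟨A, hA⟩ : ∃ A : ℕ, Algebra.norm ℤ a = A := ⟨_, (Int.natAbs_of_nonneg ha.le).symm⟩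
    obtain ⟨B, hB⟩ : ∃ B : ℕ, Algebra.norm ℤ b = B := ⟨_, (Int.natAbs_of_nonneg hb.le).symm⟩
    rw [hA, hB] at hmul
    have hAB : A * B = p ^ 2 := by exact_mod_cast hmul
    obtain ⟨i, hi, hAi⟩ := (Nat.dvd_prime_pow hpp).mp ⟨B, hAB.symm⟩
    interval_cases i
    · apply hc.1
      apply isUnit_of_norm_eq_one h2
      rw [hA, hAi, pow_zero, Nat.cast_one]
    · have h1 : Algebra.norm ℤ a = p := by rw [hA, hAi, pow_one]
      exact absurd (le_of_norm_eq h2 hd hpp h1) (not_le.mpr hpq)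
    · apply hc.2
      apply isUnit_of_norm_eq_one h2
      rw [hAi] at hAB
      have hB1 : B = 1 := Nat.eq_of_mul_eq_mul_left (pow_pos hpp.pos 2) (by rw [hAB, mul_one])
      rw [hB, hB1, Nat.cast_one]
  rcases hirr.prime.dvd_or_dvd hdvd with h1 | h1
  · exact not_dvd_add_theta h2 hq hd hθ _ hpp h1
  · exact not_dvd_add_theta h2 hq hd hθ _ hpp h1

/-! ### Prime values give class number one -/

/-- A prime ideal `I` of norm `p` of a ring of integers: every element is congruent to one of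
`0, 1, …, p - 1`. -/
theorem exists_sub_mem {I : Ideal (𝓞 K)} (hI : I.IsPrime) {p : ℕ} (hp : p.Prime)
    (hpI : (p : 𝓞 K) ∈ I) (hN : Ideal.absNorm I = p) (x : 𝓞 K) :
    ∃ m : ℕ, m < p ∧ x - (m : 𝓞 K) ∈ I := by
  have hcard : Nat.card (𝓞 K ⧸ I) = p := hN
  have hinj : Function.Injective fun i : Fin p => (Ideal.Quotient.mk I) ((i : ℕ) : 𝓞 K) := by
    intro i j hij
    have h1 : (((i : ℕ) : 𝓞 K) - ((j : ℕ) : 𝓞 K)) ∈ I := Ideal.Quotient.eq.mp hij
    by_contra hne
    have h3 : ((i : ℤ) - (j : ℤ)) ≠ 0 := by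
      intro h0
      exact hne (Fin.ext (by omega))
    have h4 : ¬ (p : ℤ) ∣ ((i : ℤ) - (j : ℤ)) := by
      intro hdvd
      have h5 := Int.le_of_dvd (abs_pos.mpr h3) ((dvd_abs _ _).mpr hdvd)
      have hi := i.isLt
      have hj := j.isLt
      have h6 : |(i : ℤ) - (j : ℤ)| < p := by
        rw [abs_lt]
        constructor <;> omega
      omega
    obtain ⟨u, v, huv⟩ := (Nat.prime_iff_prime_int.mp hp).coprime_iff_not_dvd.mpr h4
    apply hI.ne_top
    rw [Ideal.eq_top_iff_one]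
    have h7 : ((u * p + v * ((i : ℤ) - (j : ℤ)) : ℤ) : 𝓞 K) ∈ I := by
      push_cast
      exact I.add_mem (I.mul_mem_left _ hpI) (I.mul_mem_left _ h1)
    rw [huv] at h7
    simpa using h7
  have : Finite (𝓞 K ⧸ I) := Nat.finite_of_card_ne_zero (by rw [hcard]; exact hp.ne_zero)
  have hbij := (Nat.bijective_iff_injective_and_card _).mpr ⟨hinj, by
    rw [Nat.card_fin, hcard]⟩
  obtain ⟨i, hi⟩ := hbij.surjective (Ideal.Quotient.mk I x)
  exact ⟨i, i.isLt, Ideal.Quotient.eq.mp hi.symm⟩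

/-- If the values `n² + n + q`, `0 ≤ n ≤ q - 2`, are prime numbers, the class number of the quadratic
field of discriminant `1 - 4 q` is one. -/
theorem classNumber_eq_one_of_prime (h2 : Module.finrank ℚ K = 2) {q : ℕ} (hq : 2 ≤ q)
    (hd : discr K = 1 - 4 * q) (h : ∀ n : ℕ, n + 2 ≤ q → (n ^ 2 + n + q).Prime) :
    classNumber K = 1 := by
  have htc : IsTotallyComplex K := by
    obtain ⟨r, hr, -⟩ := exists_sqrt_discr h2
    exact isTotallyComplex_of_sq (by rw [hd]; omega) hr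
  obtain ⟨θ, hθ⟩ := exists_theta h2 hd
  have hr : Module.finrank ℤ (𝓞 K) = 2 := by rw [RingOfIntegers.rank, h2]
  rw [classNumber_eq_one_iff]
  refine RingOfIntegers.isPrincipalIdealRing_of_isPrincipal_of_norm_le_of_isPrime
    fun I hI hle => ?_
  -- the prime number of the ideal
  have hI0 : (I : Ideal (𝓞 K)) ≠ ⊥ := nonZeroDivisors.coe_ne_zero I
  obtain ⟨p, hp, hpI⟩ : ∃ p : ℕ, p.Prime ∧ (p : 𝓞 K) ∈ (I : Ideal (𝓞 K)) := by
    have : NeZero (I : Ideal (𝓞 K)) := ⟨hI0⟩
    refine ⟨_, Nat.absNorm_under_prime (I : Ideal (𝓞 K)), ?_⟩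
    have h1 := Int.absNorm_under_mem (I : Ideal (𝓞 K))
    simpa using h1
  have hNp : Ideal.absNorm (Ideal.span {(p : 𝓞 K)}) = p ^ 2 := by
    rw [Ideal.absNorm_span_singleton]
    have h1 : Algebra.norm ℤ (p : 𝓞 K) = (p : ℤ) ^ 2 := by
      have h := Algebra.norm_algebraMap_of_basis
        (Module.finBasisOfFinrankEq ℤ (𝓞 K) hr) (p : ℤ)
      simpa using h
    rw [h1]
    simp [Int.natAbs_pow]
  obtain ⟨J, hJ⟩ := Ideal.dvd_span_singleton.mpr hpI
  have hNJ : Ideal.absNorm (I : Ideal (𝓞 K)) * Ideal.absNorm J = p ^ 2 := by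
    rw [← map_mul, ← hJ, hNp]
  obtain ⟨i, hi, hIi⟩ := (Nat.dvd_prime_pow hp).mp ⟨_, hNJ.symm⟩
  interval_cases i
  · exact absurd (Ideal.absNorm_eq_one_iff.mp (by rw [hIi, pow_zero])) hI.ne_top
  · exfalso
    rw [pow_one] at hIi
    have hpq : p < q := by
      have hc : InfinitePlace.nrComplexPlaces K = 1 := by
        have h1 := InfinitePlace.card_add_two_mul_card_eq_rank K
        have h3 : InfinitePlace.nrRealPlaces K = 0 := nrRealPlaces_eq_zero_iff.2 inferInstance
        omega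
      rw [hIi, hc, h2, hd, pow_one] at hle
      have hq' : (2 : ℝ) ≤ q := by exact_mod_cast hq
      have h3 : |((1 - 4 * (q : ℤ) : ℤ) : ℝ)| = 4 * q - 1 := by
        push_cast
        rw [abs_of_neg (by linarith)]
        ring
      have h4 : (p : ℝ) ≤ 2 / Real.pi * √(4 * q - 1) := by
        refine hle.trans (le_of_eq ?_)
        have h5 : ((Nat.factorial 2 : ℕ) : ℝ) / ((2 : ℕ) : ℝ) ^ 2 = 1 / 2 := by
          norm_num [Nat.factorial]
        rw [h5, h3]
        ring
      have h6 : (p : ℝ) ^ 2 < (q : ℝ) ^ 2 := by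
        have h7 : (p : ℝ) ^ 2 ≤ (2 / Real.pi) ^ 2 * (4 * q - 1) := by
          calc (p : ℝ) ^ 2 ≤ (2 / Real.pi * √(4 * q - 1)) ^ 2 :=
                pow_le_pow_left₀ (Nat.cast_nonneg p) h4 2
            _ = _ := by rw [mul_pow, Real.sq_sqrt (by linarith)]
        have h8 : (2 / Real.pi) ^ 2 ≤ 4 / 9 := by
          have h9 : 2 / Real.pi ≤ 2 / 3 :=
            div_le_div_of_nonneg_left (by norm_num) (by norm_num) Real.pi_gt_three.le
          calc (2 / Real.pi) ^ 2 ≤ (2 / 3 : ℝ) ^ 2 :=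
                pow_le_pow_left₀ (by positivity) h9 2
            _ = 4 / 9 := by norm_num
        nlinarith
      have h9 : (p : ℝ) < q := lt_of_pow_lt_pow_left₀ 2 (by positivity) h6
      exact_mod_cast h9
    obtain ⟨m, hmp, hm⟩ := exists_sub_mem hI hp hpI hIi θ
    have hM : ((m ^ 2 + m + q : ℕ) : 𝓞 K) ∈ (I : Ideal (𝓞 K)) := by
      have h1 : ((m ^ 2 + m + q : ℕ) : 𝓞 K) = -(θ + m + 1) * (θ - m) := by
        push_cast
        linear_combination hθ
      rw [h1]
      exact Ideal.mul_mem_left _ _ hm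
    have hdvd : p ∣ m ^ 2 + m + q := by
      by_contra hnd
      obtain ⟨u, v, huv⟩ := Nat.isCoprime_iff_coprime.mpr
        ((Nat.Prime.coprime_iff_not_dvd hp).mpr hnd)
      apply hI.ne_top
      rw [Ideal.eq_top_iff_one]
      have h7 : ((u * p + v * ((m ^ 2 + m + q : ℕ) : ℤ) : ℤ) : 𝓞 K) ∈ (I : Ideal (𝓞 K)) := by
        rw [Int.cast_add, Int.cast_mul, Int.cast_mul, Int.cast_natCast, Int.cast_natCast]
        exact (I : Ideal (𝓞 K)).add_mem (Ideal.mul_mem_left _ _ hpI) (Ideal.mul_mem_left _ _ hM)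
      rw [huv] at h7
      simpa using h7
    have h1 := (Nat.prime_dvd_prime_iff_eq hp (h m (by omega))).mp hdvd
    have h3 : 0 ≤ m ^ 2 := Nat.zero_le _
    omega
  · have hJ1 : Ideal.absNorm J = 1 := by
      rw [hIi] at hNJ
      exact Nat.eq_of_mul_eq_mul_left (pow_pos hp.pos 2) (by rw [hNJ, mul_one])
    rw [Ideal.absNorm_eq_one_iff.mp hJ1, Ideal.mul_top] at hJ
    exact ⟨⟨(p : 𝓞 K), hJ.symm⟩⟩

/-- **The theorem of Rabinowitsch** (1912): let `q ≥ 2`. The quadratic field of discriminant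
`1 - 4 q` has class number one if and only if `n² + n + q` is a prime number for
`n = 0, 1, …, q - 2`. -/
theorem rabinowitsch (h2 : Module.finrank ℚ K = 2) {q : ℕ} (hq : 2 ≤ q)
    (hd : discr K = 1 - 4 * q) :
    classNumber K = 1 ↔ ∀ n : ℕ, n + 2 ≤ q → (n ^ 2 + n + q).Prime :=
  ⟨fun h _ hn => prime_of_classNumber_eq_one h2 hq hd h hn,
    fun h => classNumber_eq_one_of_prime h2 hq hd h⟩

/-- If `n² + n + q` is a prime number for `n = 0, 1, …, q - 2`, then `4 q - 1` is squarefree. -/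
theorem squarefree_of_prime {q : ℕ} (hq : 2 ≤ q)
    (h : ∀ n : ℕ, n + 2 ≤ q → (n ^ 2 + n + q).Prime) : Squarefree (4 * q - 1) := by
  rw [Nat.squarefree_iff_prime_squarefree]
  rintro r hr ⟨m, hm⟩
  have hm0 : m ≠ 0 := by
    rintro rfl
    omega
  obtain ⟨s, hs | hs⟩ := Nat.even_or_odd' r
  · have h1 : 2 ∣ 4 * q - 1 := ⟨s * r * m, by rw [hm]; nth_rewrite 1 [hs]; ring⟩
    omega
  · have hs1 : 1 ≤ s := by
      rcases Nat.eq_zero_or_pos s with h0 | h0
      · rw [h0] at hs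
        exact absurd hr (by rw [hs]; norm_num)
      · exact h0
    have hm1 : 1 ≤ m := Nat.one_le_iff_ne_zero.mpr hm0
    have h4 : r * r * m + 1 = 4 * q := by omega
    have hle : s ^ 2 + s + 1 ≤ q := by
      have h5 : r * r ≤ r * r * m := Nat.le_mul_of_pos_right _ hm1
      have h6 : r * r = 4 * (s ^ 2 + s) + 1 := by rw [hs]; ring
      omega
    have hP := h s (by nlinarith)
    have hdvd : r * r ∣ 4 * (s ^ 2 + s + q) := ⟨m + 1, by
      have h6 : r * r = 4 * (s ^ 2 + s) + 1 := by rw [hs]; ring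
      calc 4 * (s ^ 2 + s + q) = 4 * (s ^ 2 + s) + 4 * q := by ring
        _ = 4 * (s ^ 2 + s) + (r * r * m + 1) := by rw [h4]
        _ = (4 * (s ^ 2 + s) + 1) + r * r * m := by ring
        _ = r * r * (m + 1) := by rw [← h6]; ring⟩
    have hcop : Nat.Coprime (r * r) 4 := by
      have h7 : Nat.Coprime r 2 := (Nat.coprime_primes hr Nat.prime_two).mpr (by omega)
      have h8 : Nat.Coprime r (2 * 2) := h7.mul_right h7
      exact Nat.Coprime.mul_left h8 h8
    have h9 : r * r ∣ s ^ 2 + s + q := hcop.dvd_of_dvd_mul_left hdvd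
    have h10 : r = s ^ 2 + s + q :=
      (Nat.prime_dvd_prime_iff_eq hr hP).mp ((dvd_mul_right r r).trans h9)
    rw [← h10] at h9
    have h11 := Nat.le_of_dvd hr.pos h9
    have h12 := hr.two_le
    nlinarith

/-- The quadratic fields of discriminant `-3, -4, -7, -8, -11, -19, -43, -67, -163` have class number
one. -/
theorem classNumber_eq_one (h2 : Module.finrank ℚ K = 2)
    (hd : discr K ∈ ({-3, -4, -7, -8, -11, -19, -43, -67, -163} : Set ℤ)) : classNumber K = 1 := by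
  have hsmall : (|discr K| : ℝ) ≤ 9 → discr K < 0 → classNumber K = 1 := by
    intro h9 hneg
    have htc : IsTotallyComplex K := by
      obtain ⟨r, hr, -⟩ := exists_sqrt_discr h2
      exact isTotallyComplex_of_sq hneg hr
    have hc : InfinitePlace.nrComplexPlaces K = 1 := by
      have h1 := InfinitePlace.card_add_two_mul_card_eq_rank K
      have h3 : InfinitePlace.nrRealPlaces K = 0 := nrRealPlaces_eq_zero_iff.2 inferInstance
      omega
    rw [classNumber_eq_one_iff]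
    apply RingOfIntegers.isPrincipalIdealRing_of_abs_discr_lt
    rw [hc, h2]
    have h5 : (((2 : ℕ) : ℝ) ^ 2 / ((Nat.factorial 2 : ℕ) : ℝ)) = 2 := by norm_num [Nat.factorial]
    rw [h5, pow_one]
    have h6 := Real.pi_gt_d2
    push_cast
    nlinarith
  simp only [Set.mem_insert_iff, Set.mem_singleton_iff] at hd
  rcases hd with hd | hd | hd | hd | hd | hd | hd | hd | hd
  · exact hsmall (by rw [hd]; norm_num) (by rw [hd]; norm_num)
  · exact hsmall (by rw [hd]; norm_num) (by rw [hd]; norm_num)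
  · exact hsmall (by rw [hd]; norm_num) (by rw [hd]; norm_num)
  · exact hsmall (by rw [hd]; norm_num) (by rw [hd]; norm_num)
  · exact classNumber_eq_one_of_prime h2 (q := 3) (by norm_num) (by rw [hd]; norm_num)
      fun n hn => by
        have hn' : n ≤ 1 := by omega
        interval_cases n <;> norm_num
  · exact classNumber_eq_one_of_prime h2 (q := 5) (by norm_num) (by rw [hd]; norm_num)
      fun n hn => by
        have hn' : n ≤ 3 := by omega
        interval_cases n <;> norm_num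
  · exact classNumber_eq_one_of_prime h2 (q := 11) (by norm_num) (by rw [hd]; norm_num)
      fun n hn => by
        have hn' : n ≤ 9 := by omega
        interval_cases n <;> norm_num
  · exact classNumber_eq_one_of_prime h2 (q := 17) (by norm_num) (by rw [hd]; norm_num)
      fun n hn => by
        have hn' : n ≤ 15 := by omega
        interval_cases n <;> norm_num
  · exact classNumber_eq_one_of_prime h2 (q := 41) (by norm_num) (by rw [hd]; norm_num)
      fun n hn => by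
        have hn' : n ≤ 39 := by omega
        interval_cases n <;> norm_num

end Fermat.Agent.Cor.Siegel
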