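import Fermat.Agent.Corollaries.Siegel.RelArith
import Fermat.Agent.Corollaries.ZetaK.ArithEquivInv

/-!
# Brauer relations

For two finite lists of number fields with the same sum of permutation characters of
`Gal(ℚ̄/ℚ)` on the embeddings in `ℚ̄` (`Rel l l'`): the products of the Dedekind zeta functions
are equal, and so are the products of the absolute values of the discriminants, the sums of the
numbers of real and of complex places and **the products of the numbers `h R / w`** (Brauer 1950;
Dirichlet for biquadratic fields).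
-/

set_option autoImplicit false

noncomputable section

open NumberField NumberField.InfinitePlace NumberField.Units IsDedekindDomain
open Fermat.Agent.Classic.Disc Fermat.Agent.Classic.Zeta Fermat.Agent.FrobDensity
open Fermat.Agent.Frob Fermat.Agent.Cor.ZetaK Filter Topology
open scoped LSeries.notation ArithmeticFunction

namespace Fermat.Agent.Cor.Brauer

universe u v

/-- the product of the Dedekind zeta functions -/
def pz (l : List NF.{u}) (s : ℂ) : ℂ := (l.map fun F => zetaK F.carrier s).prod

/-- the product of the functions `(s - 1) ζ(s)` -/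
def pw (l : List NF.{u}) (s : ℂ) : ℂ := (l.map fun F => WK (K := F.carrier) (fun _ => 1) s).prod

theorem pz_cons (F : NF.{u}) (l : List NF.{u}) (s : ℂ) :
    pz (F :: l) s = zetaK F.carrier s * pz l s := by
  rw [pz, List.map_cons, List.prod_cons]
  rfl

theorem pw_cons (F : NF.{u}) (l : List NF.{u}) (s : ℂ) :
    pw (F :: l) s = WK (K := F.carrier) (fun _ => 1) s * pw l s := by
  rw [pw, List.map_cons, List.prod_cons]
  rfl

theorem differentiable_pw (l : List NF.{u}) : Differentiable ℂ (pw l) := by
  induction l with
  | nil =>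
    have h : pw ([] : List NF.{u}) = fun _ => (1 : ℂ) := funext fun s => by simp [pw]
    rw [h]
    exact differentiable_const _
  | cons F l ih =>
    have h : pw (F :: l) = fun s => WK (K := F.carrier) (fun _ => 1) s * pw l s :=
      funext (pw_cons F l)
    rw [h]
    exact (differentiable_WK _).mul ih

theorem pw_eq (l : List NF.{u}) {s : ℂ} (hs : s ≠ 1) :
    pw l s = (s - 1) ^ l.length * pz l s := by
  induction l with
  | nil => simp [pw, pz]
  | cons F l ih =>
    rw [pw_cons, ih, WK_eq _ hs, pz_cons, List.length_cons, pow_succ]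
    change (s - 1) * zetaK F.carrier s * _ = _
    ring

theorem exists_hasSum (l : List NF.{u}) : ∃ σ : ℝ, 1 ≤ σ ∧ ∀ s : ℂ, σ < s.re →
    LSeriesHasSum (⇑(ZA l)) s (pz l s) := by
  induction l with
  | nil =>
    refine ⟨1, le_rfl, fun s _ => ?_⟩
    have h1 : pz ([] : List NF.{u}) s = 1 := by simp [pz]
    have h2 : ZA ([] : List NF.{u}) = 1 := rfl
    rw [h1, h2]
    unfold LSeriesHasSum
    have h3 := hasSum_single (f := LSeries.term (⇑(1 : ArithmeticFunction ℂ)) s) 1
      (fun n hn => by
        rcases eq_or_ne n 0 with h0 | h0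
        · rw [h0, LSeries.term_zero]
        · rw [LSeries.term_of_ne_zero h0, ArithmeticFunction.one_apply_ne hn, zero_div])
    rw [LSeries.term_of_ne_zero one_ne_zero] at h3
    simpa using h3
  | cons F l ih =>
    obtain ⟨σ, hσ, h⟩ := ih
    obtain ⟨k, κ, Ξ, σ', -, -, hσ', H⟩ := zetaFE F.carrier
    refine ⟨max σ σ', le_max_of_le_left hσ, fun s hs => ?_⟩
    have h1 := h s (lt_of_le_of_lt (le_max_left _ _) hs)
    have h2 := (H s (lt_of_le_of_lt (le_max_right _ _) hs)).1.LSeriesHasSum
    have h3 := h2.convolution h1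
    have h4 : pz (F :: l) s = LSeries (fun n => (Nat.card {I : Ideal (𝓞 F.carrier) //
        Ideal.absNorm I = n} : ℂ)) s * pz l s := by
      rw [pz_cons, zetaK_eq_dedekindZeta (lt_of_le_of_lt (hσ'.trans (le_max_right _ _)) hs)]
      rfl
    rw [h4]
    have h5 : (fun n => (Nat.card {I : Ideal (𝓞 F.carrier) // Ideal.absNorm I = n} : ℂ)) ⍟
        (⇑(ZA l)) = ⇑(ZA (F :: l)) := by
      have h6 : ZA (F :: l) = zcA F.carrier * ZA l := by
        rw [ZA, List.map_cons, List.prod_cons]
        rfl
      rw [h6]
      change ⇑(zcA F.carrier * toArithmeticFunction (⇑(ZA l))) = _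
      rw [toAF_coe]
    rw [← h5]
    exact h3

variable {l : List NF.{u}} {l' : List NF.{v}}

theorem Rel.pw_mul_eq (h : Rel l l') (s : ℂ) :
    pw l s * (s - 1) ^ l'.length = pw l' s * (s - 1) ^ l.length := by
  obtain ⟨σ, hσ, h1⟩ := exists_hasSum l
  obtain ⟨σ', hσ', h2⟩ := exists_hasSum l'
  refine eq_of_eq_re_large (σ := max σ σ') (f := fun s => pw l s * (s - 1) ^ l'.length)
    (g := fun s => pw l' s * (s - 1) ^ l.length)
    ((differentiable_pw l).mul ((differentiable_id.sub (differentiable_const _)).pow _))
    ((differentiable_pw l').mul ((differentiable_id.sub (differentiable_const _)).pow _))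
    (fun z hz => ?_) s
  have hz1 := lt_of_le_of_lt (le_max_left σ σ') hz
  have hz2 := lt_of_le_of_lt (le_max_right σ σ') hz
  have hz0 : z ≠ 1 := ne_one_of_re (lt_of_le_of_lt hσ hz1)
  have h3 : pz l z = pz l' z := by
    rw [← (h1 z hz1).LSeries_eq, ← (h2 z hz2).LSeries_eq, h.ZA_eq]
  change pw l z * (z - 1) ^ l'.length = pw l' z * (z - 1) ^ l.length
  rw [pw_eq l hz0, pw_eq l' hz0, h3]
  ring

/-- **Brauer relations: the products of the zeta functions.** -/
theorem Rel.pz_eq (h : Rel l l') {s : ℂ} (hs : s ≠ 1) : pz l s = pz l' s := by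
  have h1 := h.pw_mul_eq s
  rw [pw_eq l hs, pw_eq l' hs] at h1
  have h2 : (s - 1) ^ l.length * (s - 1) ^ l'.length ≠ 0 :=
    mul_ne_zero (pow_ne_zero _ (sub_ne_zero.2 hs)) (pow_ne_zero _ (sub_ne_zero.2 hs))
  apply mul_left_cancel₀ h2
  linear_combination h1

/-- the product of the residues -/
def pr (l : List NF.{u}) : ℝ := (l.map fun F => dedekindZeta_residue F.carrier).prod

theorem pw_one (l : List NF.{u}) : pw l 1 = (pr l : ℂ) := by
  induction l with
  | nil => simp [pw, pr]
  | cons F l ih =>
    have h1 : WK (K := F.carrier) (fun _ => 1) 1 = (dedekindZeta_residue F.carrier : ℂ) := by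
      rw [WK]
      exact residue_eq_XiF F.carrier
    have h2 : pr (F :: l) = dedekindZeta_residue F.carrier * pr l := by
      rw [pr, List.map_cons, List.prod_cons]
      rfl
    rw [pw_cons, ih, h1, h2]
    push_cast
    rfl

theorem pr_pos (l : List NF.{u}) : 0 < pr l := by
  rw [pr]
  refine List.prod_pos ?_
  intro x hx
  obtain ⟨F, -, rfl⟩ := List.mem_map.mp hx
  exact dedekindZeta_residue_pos F.carrier

theorem Rel.length_le (h : Rel l l') : l'.length ≤ l.length := by
  by_contra hlt
  rw [not_le] at hlt
  obtain ⟨m, hm⟩ := Nat.exists_eq_add_of_lt hlt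
  -- `pw l s * (s - 1) ^ (m + 1) = pw l' s` for `s ≠ 1`, hence at `1`
  have h1 : ∀ s : ℂ, s ≠ 1 → pw l s * (s - 1) ^ (m + 1) = pw l' s := by
    intro s hs
    have h2 := h.pw_mul_eq s
    rw [hm, show l.length + m + 1 = l.length + (m + 1) by ring, pow_add] at h2
    apply mul_right_cancel₀ (pow_ne_zero l.length (sub_ne_zero.2 hs))
    linear_combination h2
  have h2 : (fun s : ℂ => pw l s * (s - 1) ^ (m + 1)) = pw l' := by
    have c1 : Continuous fun s : ℂ => pw l s * (s - 1) ^ (m + 1) :=
      (differentiable_pw l).continuous.mul ((continuous_id.sub continuous_const).pow _)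
    refine Continuous.ext_on (dense_compl_singleton (1 : ℂ)) c1
      (differentiable_pw l').continuous fun s hs => h1 s hs
  have h3 := congrFun h2 1
  simp only [sub_self, zero_pow (Nat.succ_ne_zero m), mul_zero] at h3
  rw [pw_one] at h3
  exact (pr_pos l').ne' (by exact_mod_cast h3.symm)

theorem Rel.symm (h : Rel l l') : Rel l' l := fun σ => (h σ).symm

/-- The number of fields is the same. -/
theorem Rel.length_eq (h : Rel l l') : l.length = l'.length :=
  le_antisymm h.symm.length_le h.length_le

theorem Rel.pr_eq (h : Rel l l') : pr l = pr l' := by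
  have h1 : ∀ s : ℂ, s ≠ 1 → pw l s = pw l' s := by
    intro s hs
    rw [pw_eq l hs, pw_eq l' hs, h.length_eq, h.pz_eq hs]
  have h2 : pw l = pw l' :=
    Continuous.ext_on (dense_compl_singleton (1 : ℂ)) (differentiable_pw l).continuous
      (differentiable_pw l').continuous fun s hs => h1 s hs
  have h3 := congrFun h2 1
  rw [pw_one, pw_one] at h3
  exact_mod_cast h3

/-- the product of the numbers `h R / w` -/
def ph (l : List NF.{u}) : ℝ :=
  (l.map fun F => (classNumber F.carrier : ℝ) * regulator F.carrier /
    torsionOrder F.carrier).prod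

theorem pr_eq_ph (l : List NF.{u}) :
    pr l = (√(pd l : ℝ))⁻¹ * Real.pi ^ sc l * (2 ^ (sr l + sc l) * ph l) := by
  induction l with
  | nil => simp [pr, pd, sc, sr, ph]
  | cons F l ih =>
    have h1 : pr (F :: l) = dedekindZeta_residue F.carrier * pr l := by
      rw [pr, List.map_cons, List.prod_cons]
      rfl
    have h2 : (pd (F :: l) : ℝ) = |(discr F.carrier : ℝ)| * (pd l : ℝ) := by
      rw [pd, List.map_cons, List.prod_cons, Nat.cast_mul, Nat.cast_natAbs, Int.cast_abs]
      rfl
    have h3 : sc (F :: l) = nrComplexPlaces F.carrier + sc l := by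
      rw [sc, List.map_cons, List.sum_cons]
      rfl
    have h4 : sr (F :: l) = nrRealPlaces F.carrier + sr l := by
      rw [sr, List.map_cons, List.sum_cons]
      rfl
    have h5 : ph (F :: l) = (classNumber F.carrier : ℝ) * regulator F.carrier /
        torsionOrder F.carrier * ph l := by
      rw [ph, List.map_cons, List.prod_cons]
      rfl
    rw [h1, ih, residue_eq_clConst, clConst, h2, h3, h4, h5, Real.sqrt_mul (abs_nonneg _),
      mul_inv]
    ring

/-- **Brauer's class number relation**: the products of the numbers `h R / w` are equal. -/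
theorem Rel.ph_eq (h : Rel l l') : ph l = ph l' := by
  have h1 := h.pr_eq
  rw [pr_eq_ph, pr_eq_ph, h.pd_eq, h.sc_eq, h.sr_eq] at h1
  have h2 : (√(pd l' : ℝ))⁻¹ * Real.pi ^ sc l' ≠ 0 := by
    have h3 : pd l' ≠ 0 := by
      rw [pd]
      refine List.prod_ne_zero fun h0 => ?_
      obtain ⟨F, -, hF⟩ := List.mem_map.mp h0
      exact Int.natAbs_ne_zero.2 (discr_ne_zero F.carrier) hF
    have h4 : (0 : ℝ) < (pd l' : ℝ) := Nat.cast_pos.2 (Nat.pos_of_ne_zero h3)
    positivity
  have h3 : (2 : ℝ) ^ (sr l' + sc l') ≠ 0 := by positivity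
  exact mul_left_cancel₀ h3 (mul_left_cancel₀ h2 h1)

/-- **Brauer relations** (Brauer 1950): if two finite lists of number fields have the same sum of
permutation characters, then the products of the Dedekind zeta functions, of the absolute values of
the discriminants and of the numbers `h R / w` are equal, and so are the sums of the degrees and of
the numbers of real and of complex places. -/
theorem brauer (h : Rel l l') :
    (∀ s : ℂ, s ≠ 1 → (l.map fun F => zetaK F.carrier s).prod =
      (l'.map fun F => zetaK F.carrier s).prod) ∧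
    (l.map fun F => (discr F.carrier).natAbs).prod =
      (l'.map fun F => (discr F.carrier).natAbs).prod ∧
    (l.map fun F => (classNumber F.carrier : ℝ) * regulator F.carrier /
      torsionOrder F.carrier).prod =
      (l'.map fun F => (classNumber F.carrier : ℝ) * regulator F.carrier /
        torsionOrder F.carrier).prod ∧
    l.length = l'.length ∧
    (l.map fun F => Module.finrank ℚ F.carrier).sum =
      (l'.map fun F => Module.finrank ℚ F.carrier).sum ∧
    (l.map fun F => nrRealPlaces F.carrier).sum =
      (l'.map fun F => nrRealPlaces F.carrier).sum ∧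
    (l.map fun F => nrComplexPlaces F.carrier).sum =
      (l'.map fun F => nrComplexPlaces F.carrier).sum :=
  ⟨fun _ hs => h.pz_eq hs, h.pd_eq, h.ph_eq, h.length_eq, h.sd_eq, h.sr_eq, h.sc_eq⟩

end Fermat.Agent.Cor.Brauer

end
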