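import Fermat.Agent.Corollaries.ZetaK.ArithEquivAux
import Fermat.Agent.Classic.Level.Disc.Real
import Fermat.Agent.Classic.Zeta.Final

/-!
# Brauer relations: the arithmetic part

`Rel l l'`, for two finite lists of number fields: every automorphism of `ℚ̄` fixes the same number
of embeddings of the fields of `l` and of the fields of `l'` (equality of permutation characters).

The products of the Dedekind zeta functions then have the same coefficients, the products of the
absolute values of the discriminants are equal, and so are the sums of the degrees, of the numbers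
of real places and of the numbers of complex places.
-/

set_option autoImplicit false

noncomputable section

open NumberField NumberField.InfinitePlace IsDedekindDomain Fermat.Agent.Classic.Disc
open Fermat.Agent.Classic.Zeta Fermat.Agent.FrobDensity Fermat.Agent.Frob
open Fermat.Agent.Classic
open PowerSeries (X)
open scoped LSeries.notation ArithmeticFunction

namespace Fermat.Agent.Cor.Brauer

universe u v

/-- a number field, bundled -/
structure NF : Type (u + 1) where
  /-- the field -/
  carrier : Type u
  [field : Field carrier]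
  [numberField : NumberField carrier]

attribute [instance] NF.field NF.numberField

/-- the number of embeddings in `ℚ̄` fixed by `σ` -/
def fixEmb (σ : GQ) (F : NF.{u}) : ℕ :=
  Nat.card {j : F.carrier →+* AlgebraicClosure ℚ // ∀ x, σ (j x) = j x}

/-- **Brauer relation**: equality of the sums of the permutation characters on the embeddings. -/
def Rel (l : List NF.{u}) (l' : List NF.{v}) : Prop :=
  ∀ σ : GQ, (l.map (fixEmb σ)).sum = (l'.map (fixEmb σ)).sum

/-! ### Multisets of degrees -/

theorem sum_filter_dvd (S : Multiset ℕ) {k : ℕ} (hk : 0 < k) :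
    (S.filter (· ∣ k)).sum = ∑ d ∈ k.divisors, S.count d * d := by
  have hk0 : k ≠ 0 := hk.ne'
  induction S using Multiset.induction_on with
  | empty => simp
  | cons a S ih =>
    rw [Multiset.filter_cons]
    simp only [Multiset.count_cons, add_mul, Finset.sum_add_distrib]
    rw [Multiset.sum_add, ih, add_comm]
    congr 1
    by_cases ha : a ∣ k
    · rw [if_pos ha, Multiset.sum_singleton]
      rw [Finset.sum_eq_single a]
      · rw [if_pos rfl, one_mul]
      · intro b _ hb
        rw [if_neg hb, zero_mul]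
      · intro h
        exact absurd (Nat.mem_divisors.mpr ⟨ha, hk0⟩) h
    · rw [if_neg ha, Multiset.sum_zero]
      symm
      refine Finset.sum_eq_zero fun b hb => ?_
      rw [if_neg, zero_mul]
      rintro rfl
      exact ha (Nat.mem_divisors.mp hb).1

/-- a multiset of positive integers is determined by the sums of its elements dividing `k` -/
theorem multiset_eq_of_sum {S T : Multiset ℕ} (hS : ∀ d ∈ S, 0 < d) (hT : ∀ d ∈ T, 0 < d)
    (h : ∀ k, 0 < k → (S.filter (· ∣ k)).sum = (T.filter (· ∣ k)).sum) : S = T := by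
  refine Multiset.ext.mpr fun d => ?_
  induction d using Nat.strong_induction_on with
  | _ d ih =>
    rcases Nat.eq_zero_or_pos d with rfl | hd
    · rw [Multiset.count_eq_zero_of_notMem fun h0 => (hS 0 h0).ne rfl,
        Multiset.count_eq_zero_of_notMem fun h0 => (hT 0 h0).ne rfl]
    · have h1 := h d hd
      rw [sum_filter_dvd S hd, sum_filter_dvd T hd, ← Nat.insert_self_properDivisors hd.ne',
        Finset.sum_insert Nat.self_notMem_properDivisors,
        Finset.sum_insert Nat.self_notMem_properDivisors] at h1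
      have h2 : ∑ e ∈ d.properDivisors, S.count e * e = ∑ e ∈ d.properDivisors, T.count e * e :=
        Finset.sum_congr rfl fun e he => by rw [ih e (Nat.mem_properDivisors.mp he).2]
      rw [h2] at h1
      have h3 : S.count d * d = T.count d * d := by omega
      exact Nat.eq_of_mul_eq_mul_right hd h3

/-! ### Degrees of the places above a prime -/

/-- the degrees of the places above `p` -/
def degs (p : ℕ) (F : NF.{u}) : Multiset ℕ := (above F.carrier p).val.map fdeg

theorem pos_of_mem_degs {p : ℕ} {F : NF.{u}} {d : ℕ} (h : d ∈ degs p F) : 0 < d := by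
  rw [degs, Multiset.mem_map] at h
  obtain ⟨v, -, rfl⟩ := h
  exact fdeg_pos v

theorem sum_filter_degs (p k : ℕ) (F : NF.{u}) : ((degs p F).filter (· ∣ k)).sum =
    ∑ v ∈ above F.carrier p with fdeg v ∣ k, fdeg v := by
  rw [degs, Multiset.filter_map]
  rfl

/-- the Euler polynomial -/
def eul (p : ℕ) (F : NF.{u}) : PowerSeries ℂ := ∏ v ∈ above F.carrier p, (1 - X ^ fdeg v)

theorem eul_eq (p : ℕ) (F : NF.{u}) :
    eul p F = ((degs p F).map fun d => (1 - X ^ d : PowerSeries ℂ)).prod := by
  rw [degs, Multiset.map_map]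
  rfl

theorem prod_eul (p : ℕ) (l : List NF.{u}) : (l.map (eul p)).prod =
    (((l.map (degs p)).sum).map fun d => (1 - X ^ d : PowerSeries ℂ)).prod := by
  induction l with
  | nil => simp
  | cons F l ih =>
    rw [List.map_cons, List.prod_cons, ih, List.map_cons, List.sum_cons, Multiset.map_add,
      Multiset.prod_add, ← eul_eq]

theorem pos_of_mem_sum_degs {p : ℕ} {l : List NF.{u}} {d : ℕ} (h : d ∈ (l.map (degs p)).sum) :
    0 < d := by
  induction l with
  | nil => simp at h
  | cons F l ih =>
    rw [List.map_cons, List.sum_cons, Multiset.mem_add] at h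
    rcases h with h | h
    · exact pos_of_mem_degs h
    · exact ih h

theorem sum_filter_sum_degs (p k : ℕ) (l : List NF.{u}) :
    (((l.map (degs p)).sum).filter (· ∣ k)).sum =
      (l.map fun F => ∑ v ∈ above F.carrier p with fdeg v ∣ k, fdeg v).sum := by
  induction l with
  | nil => simp
  | cons F l ih =>
    rw [List.map_cons, List.sum_cons, Multiset.filter_add, Multiset.sum_add, ih,
      sum_filter_degs, List.map_cons, List.sum_cons]

/-- a common denominator for a list -/
theorem exists_good_list (l : List NF.{u}) : ∃ D : ℕ, D ≠ 0 ∧ ∀ p : ℕ, p.Prime → ¬ p ∣ D →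
    ∀ A : ValuationSubring (AlgebraicClosure ℚ), A.LiesOverPrime p →
    ∀ σ : GQ, A.IsFrobeniusAt σ p → ∀ k : ℕ,
      (l.map fun F => ∑ v ∈ above F.carrier p with fdeg v ∣ k, fdeg v).sum =
        (l.map (fixEmb (σ ^ k))).sum := by
  induction l with
  | nil => exact ⟨1, one_ne_zero, fun p _ _ A _ σ _ k => by simp⟩
  | cons F l ih =>
    obtain ⟨D, hD, h⟩ := ih
    obtain ⟨D', hD', h'⟩ := Emb.exists_sum_fdeg F.carrier
    refine ⟨D' * D, mul_ne_zero hD' hD, fun p hp hpD A hA σ hσ k => ?_⟩
    rw [List.map_cons, List.sum_cons, List.map_cons, List.sum_cons,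
      h p hp (fun h0 => hpD (h0.mul_left D')) A hA σ hσ k,
      h' p hp (fun h0 => hpD (h0.mul_right D)) A hA σ hσ k]
    rfl

/-- At almost all primes the products of the Euler polynomials are equal. -/
theorem exists_eul_eq {l : List NF.{u}} {l' : List NF.{v}} (h : Rel l l') :
    ∃ N : ℕ, N ≠ 0 ∧ ∀ p : ℕ, p.Prime → ¬ p ∣ N →
      (l.map (eul p)).prod = (l'.map (eul p)).prod := by
  obtain ⟨D, hD, h1⟩ := exists_good_list l
  obtain ⟨D', hD', h1'⟩ := exists_good_list l'
  refine ⟨D * D', mul_ne_zero hD hD', fun p hp hpD => ?_⟩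
  obtain ⟨A, hA, σ, hσ⟩ := Frob.exists_frobenius p hp
  rw [prod_eul, prod_eul, multiset_eq_of_sum (fun d => pos_of_mem_sum_degs)
    (fun d => pos_of_mem_sum_degs) fun k _ => ?_]
  rw [sum_filter_sum_degs, sum_filter_sum_degs,
    h1 p hp (fun h0 => hpD (h0.mul_right D')) A hA σ hσ k,
    h1' p hp (fun h0 => hpD (h0.mul_left D)) A hA σ hσ k]
  exact h (σ ^ k)

/-! ### Arithmetic functions -/

/-- the product of the Dedekind zeta functions, as an arithmetic function -/
def ZA (l : List NF.{u}) : ArithmeticFunction ℂ := (l.map fun F => zcA F.carrier).prod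

/-- the product of the Euler factors at `N` -/
def BA (N : ℕ) (l : List NF.{u}) : ArithmeticFunction ℂ := (l.map fun F => badE F.carrier N).prod

theorem isMultiplicative_listProd {α : Type*} (f : α → ArithmeticFunction ℂ)
    (hf : ∀ x, (f x).IsMultiplicative) (l : List α) : (l.map f).prod.IsMultiplicative := by
  induction l with
  | nil => exact ArithmeticFunction.isMultiplicative_one
  | cons x l ih =>
    rw [List.map_cons, List.prod_cons]
    exact (hf x).mul ih

theorem isMultiplicative_ZA (l : List NF.{u}) : (ZA l).IsMultiplicative :=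
  isMultiplicative_listProd _ (fun _ => isMultiplicative_zcA) l

theorem isMultiplicative_BA {N : ℕ} (hN : N ≠ 0) (l : List NF.{u}) :
    (BA N l).IsMultiplicative :=
  isMultiplicative_listProd _ (fun _ => isMultiplicative_badE hN) l

theorem Sp_listProd {α : Type*} {p : ℕ} (hp : p.Prime) (f : α → ArithmeticFunction ℂ)
    (l : List α) : Sp p (l.map f).prod = (l.map fun x => Sp p (f x)).prod := by
  induction l with
  | nil => exact Sp_one hp
  | cons x l ih =>
    rw [List.map_cons, List.prod_cons, Sp_mul hp, ih, List.map_cons, List.prod_cons]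

theorem Sp_ZA_mul {p : ℕ} (hp : p.Prime) (l : List NF.{u}) :
    Sp p (ZA l) * (l.map (eul p)).prod = 1 := by
  rw [ZA, Sp_listProd hp]
  induction l with
  | nil => simp
  | cons F l ih =>
    rw [List.map_cons, List.prod_cons, List.map_cons, List.prod_cons]
    have h1 : Sp p (zcA F.carrier) * eul p F = 1 := localStmt F.carrier p hp
    calc _ = (Sp p (zcA F.carrier) * eul p F) *
        ((l.map fun F => Sp p (zcA F.carrier)).prod * (l.map (eul p)).prod) := by ring
      _ = 1 := by rw [h1, ih, one_mul]

theorem Sp_BA {p N : ℕ} (hp : p.Prime) (hN : N ≠ 0) (l : List NF.{u}) :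
    Sp p (BA N l) = if p ∣ N then (l.map (eul p)).prod else 1 := by
  rw [BA, Sp_listProd hp]
  induction l with
  | nil => simp
  | cons F l ih =>
    rw [List.map_cons, List.prod_cons, ih, Sp_badE hp hN]
    split_ifs
    · rw [List.map_cons, List.prod_cons]
      rfl
    · rw [one_mul]

theorem Sp_ZA_eq {p : ℕ} (hp : p.Prime) {l : List NF.{u}} {l' : List NF.{v}}
    (h : (l.map (eul p)).prod = (l'.map (eul p)).prod) : Sp p (ZA l) = Sp p (ZA l') := by
  have h1 := Sp_ZA_mul hp l
  have h2 := Sp_ZA_mul hp l'
  rw [← h] at h2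
  calc Sp p (ZA l) = Sp p (ZA l) * (Sp p (ZA l') * (l.map (eul p)).prod) := by
        rw [h2, mul_one]
    _ = Sp p (ZA l') * (Sp p (ZA l) * (l.map (eul p)).prod) := by ring
    _ = Sp p (ZA l') := by rw [h1, mul_one]

/-- the depleted products agree -/
theorem ZA_mul_BA_eq {N : ℕ} (hN : N ≠ 0) {l : List NF.{u}} {l' : List NF.{v}}
    (h : ∀ p : ℕ, p.Prime → ¬ p ∣ N → (l.map (eul p)).prod = (l'.map (eul p)).prod) :
    ZA l * BA N l = ZA l' * BA N l' := by
  refine ext_Sp ((isMultiplicative_ZA l).mul (isMultiplicative_BA hN l))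
    ((isMultiplicative_ZA l').mul (isMultiplicative_BA hN l')) fun p hp => ?_
  rw [Sp_mul hp, Sp_mul hp, Sp_BA hp hN, Sp_BA hp hN]
  by_cases hpN : p ∣ N
  · rw [if_pos hpN, if_pos hpN, Sp_ZA_mul hp, Sp_ZA_mul hp]
  · rw [if_neg hpN, if_neg hpN, mul_one, mul_one, Sp_ZA_eq hp (h p hp hpN)]

/-! ### The functional equation of the products -/

theorem toAF_coe (f : ArithmeticFunction ℂ) : toArithmeticFunction (⇑f) = f := by
  ext n
  change (if n = 0 then 0 else f n) = f n
  split_ifs with h
  · rw [h, ArithmeticFunction.map_zero]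
  · rfl

theorem coe_mul_eq (f g : ArithmeticFunction ℂ) : ⇑(f * g) = (⇑f) ⍟ (⇑g) := by
  change ⇑(f * g) = ⇑(toArithmeticFunction (⇑f) * toArithmeticFunction (⇑g))
  rw [toAF_coe, toAF_coe]

theorem FE_listProd {α : Type*} (a a' : α → ArithmeticFunction ℂ) (D r t : α → ℕ)
    (h : ∀ x, FE (⇑(a x)) (⇑(a' x)) (D x) (r x) (t x)) (l : List α) :
    FE (⇑(l.map a).prod) (⇑(l.map a').prod) (l.map D).prod (l.map r).sum (l.map t).sum := by
  induction l with
  | nil =>
    have h1 : ∀ n : ℕ, n ≠ 0 → LSeries.delta n = (1 : ArithmeticFunction ℂ) n := by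
      intro n _
      rw [LSeries.delta, ArithmeticFunction.one_apply]
    exact FE.congr FE.one h1 h1
  | cons x l ih =>
    simp only [List.map_cons, List.prod_cons, List.sum_cons]
    rw [coe_mul_eq, coe_mul_eq]
    exact FE.mul (h x) ih

/-- the dual of the product of the Euler factors at `N` -/
def BA' (N : ℕ) (l : List NF.{u}) : ArithmeticFunction ℂ :=
  (l.map fun F => AE.tw (badE F.carrier N)).prod

theorem BA'_eq (N : ℕ) (l : List NF.{u}) : BA' N l = AE.tw (BA N l) := by
  rw [BA', BA]
  induction l with
  | nil => simp [AE.tw_one]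
  | cons F l ih =>
    rw [List.map_cons, List.prod_cons, ih, List.map_cons, List.prod_cons, AE.tw_mul]

theorem ZA_mul_BA (N : ℕ) (l : List NF.{u}) :
    ZA l * BA N l = (l.map fun F => zcA F.carrier * badE F.carrier N).prod := by
  rw [ZA, BA]
  induction l with
  | nil => simp
  | cons F l ih =>
    simp only [List.map_cons, List.prod_cons]
    rw [← ih]
    ring

theorem ZA_mul_BA' (N : ℕ) (l : List NF.{u}) :
    ZA l * BA' N l = (l.map fun F => zcA F.carrier * AE.tw (badE F.carrier N)).prod := by
  rw [ZA, BA']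
  induction l with
  | nil => simp
  | cons F l ih =>
    simp only [List.map_cons, List.prod_cons]
    rw [← ih]
    ring

theorem two_le_normList (K : Type*) [Field K] [NumberField K] {N : ℕ} (hN : N ≠ 0) :
    ∀ ν ∈ normList K N, 2 ≤ ν := by
  intro ν hν
  rw [normList, List.mem_map] at hν
  obtain ⟨v, hv, rfl⟩ := hν
  rw [Finset.mem_toList] at hv
  obtain ⟨ℓ, hℓ, -, h⟩ := exists_char v hN ((mem_above hN).mp hv)
  rw [absNorm_eq hℓ ((mem_above hℓ.ne_zero).mp h)]
  exact hℓ.two_le.trans (Nat.le_self_pow (fdeg_pos v).ne' ℓ)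

/-- the conductor of the depleted zeta function -/
def dN (N : ℕ) (F : NF.{u}) : ℕ := (discr F.carrier).natAbs * (normList F.carrier N).prod

theorem dN_ne_zero {N : ℕ} (hN : N ≠ 0) (F : NF.{u}) : dN N F ≠ 0 :=
  mul_ne_zero (Int.natAbs_ne_zero.2 (discr_ne_zero F.carrier))
    (prod_ne_zero_of_two_le (two_le_normList F.carrier hN))

theorem normList_one' (K : Type*) [Field K] [NumberField K] : normList K 1 = [] := by
  have h : above K 1 = ∅ := by
    refine Finset.eq_empty_of_forall_notMem fun v hv => ?_
    rw [mem_above one_ne_zero, Nat.cast_one] at hv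
    exact v.isPrime.ne_top ((Ideal.eq_top_iff_one _).2 hv)
  rw [normList, h, Finset.toList_empty, List.map_nil]

theorem dN_one (F : NF.{u}) : dN 1 F = (discr F.carrier).natAbs := by
  rw [dN, normList_one', List.prod_nil, mul_one]

theorem fe_one (F : NF.{u}) {N : ℕ} (hN : N ≠ 0) :
    FE (⇑(zcA F.carrier * badE F.carrier N)) (⇑(zcA F.carrier * AE.tw (badE F.carrier N)))
      (dN N F) (nrRealPlaces F.carrier) (nrComplexPlaces F.carrier) := by
  have h := FE.mul (zetaFE F.carrier) (fe_efl (two_le_normList F.carrier hN))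
  rw [add_zero, add_zero] at h
  rw [badE_eq, ← AE.toAF_efl']
  exact h

/-- sum of the numbers of real places -/
def sr (l : List NF.{u}) : ℕ := (l.map fun F => nrRealPlaces F.carrier).sum

/-- sum of the numbers of complex places -/
def sc (l : List NF.{u}) : ℕ := (l.map fun F => nrComplexPlaces F.carrier).sum

/-- sum of the degrees -/
def sd (l : List NF.{u}) : ℕ := (l.map fun F => Module.finrank ℚ F.carrier).sum

/-- product of the absolute values of the discriminants -/
def pd (l : List NF.{u}) : ℕ := (l.map fun F => (discr F.carrier).natAbs).prod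

theorem fe_list (l : List NF.{u}) {N : ℕ} (hN : N ≠ 0) :
    FE (⇑(ZA l * BA N l)) (⇑(ZA l * AE.tw (BA N l))) (l.map (dN N)).prod (sr l) (sc l) := by
  rw [← BA'_eq, ZA_mul_BA, ZA_mul_BA']
  exact FE_listProd (fun F : NF.{u} => zcA F.carrier * badE F.carrier N)
    (fun F => zcA F.carrier * AE.tw (badE F.carrier N)) (dN N)
    (fun F => nrRealPlaces F.carrier) (fun F => nrComplexPlaces F.carrier)
    (fun F => fe_one F hN) l

theorem sd_eq_add (l : List NF.{u}) : sr l + 2 * sc l = sd l := by
  rw [sr, sc, sd]
  induction l with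
  | nil => simp
  | cons F l ih =>
    simp only [List.map_cons, List.sum_cons]
    have := card_add_two_mul_card_eq_rank F.carrier
    have h1 : nrRealPlaces F.carrier + 2 * nrComplexPlaces F.carrier =
      Module.finrank ℚ F.carrier := this
    omega

theorem fixEmb_one (F : NF.{u}) : fixEmb 1 F = Module.finrank ℚ F.carrier := by
  have h : Fintype.card (F.carrier →+* AlgebraicClosure ℚ) = Module.finrank ℚ F.carrier :=
    NumberField.Embeddings.card F.carrier (AlgebraicClosure ℚ)
  rw [fixEmb, ← h, ← Nat.card_eq_fintype_card]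
  exact Nat.card_congr (Equiv.subtypeUnivEquiv fun j x => rfl)

theorem fixEmb_conj (F : NF.{u}) : fixEmb complexConjugation F = nrRealPlaces F.carrier :=
  (nrRealPlaces_eq F.carrier).symm

variable {l : List NF.{u}} {l' : List NF.{v}}

theorem Rel.sd_eq (h : Rel l l') : sd l = sd l' := by
  have h1 := h 1
  simp only [funext fixEmb_one] at h1
  exact h1

theorem Rel.sr_eq (h : Rel l l') : sr l = sr l' := by
  have h1 := h complexConjugation
  simp only [funext fixEmb_conj] at h1
  exact h1

theorem Rel.sc_eq (h : Rel l l') : sc l = sc l' := by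
  have h1 := sd_eq_add l
  have h2 := sd_eq_add l'
  have h3 := h.sd_eq
  have h4 := h.sr_eq
  omega

/-- the comparison of the functional equations -/
theorem compare {N : ℕ} (hN : N ≠ 0) (hr : sr l = sr l') (hc : sc l = sc l')
    (h : ZA l * BA N l = ZA l' * BA N l') :
    (l.map (dN N)).prod = (l'.map (dN N)).prod ∧
      ZA l * AE.tw (BA N l) = ZA l' * AE.tw (BA N l') := by
  have f1 := fe_list l hN
  have f2 := fe_list l' hN
  rw [← hr, ← hc, ← h] at f2
  have hp : (l.map (dN N)).prod ≠ 0 := by
    refine List.prod_ne_zero fun h0 => ?_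
    obtain ⟨F, -, hF⟩ := List.mem_map.mp h0
    exact dN_ne_zero hN F hF
  have hp' : (l'.map (dN N)).prod ≠ 0 := by
    refine List.prod_ne_zero fun h0 => ?_
    obtain ⟨F, -, hF⟩ := List.mem_map.mp h0
    exact dN_ne_zero hN F hF
  have m1 : (ZA l * AE.tw (BA N l)) 1 = 1 :=
    ((isMultiplicative_ZA l).mul (AE.isMultiplicative_tw (isMultiplicative_BA hN l))).1
  have m2 : (ZA l' * AE.tw (BA N l')) 1 = 1 :=
    ((isMultiplicative_ZA l').mul (AE.isMultiplicative_tw (isMultiplicative_BA hN l'))).1
  obtain ⟨h1, h2⟩ := AE.eq_of_shift hp hp' m1 m2 (FE.compare hp hp' f1 f2)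
  refine ⟨h1, ?_⟩
  ext n
  rcases eq_or_ne n 0 with rfl | hn
  · rw [ArithmeticFunction.map_zero, ArithmeticFunction.map_zero]
  · exact h2 n hn

theorem constantCoeff_eul (p : ℕ) (l : List NF.{u}) :
    PowerSeries.constantCoeff (l.map (eul p)).prod = 1 := by
  induction l with
  | nil => simp
  | cons F l ih =>
    rw [List.map_cons, List.prod_cons, map_mul, ih, mul_one, eul, map_prod]
    refine Finset.prod_eq_one fun v _ => ?_
    rw [map_sub, map_pow, map_one, PowerSeries.constantCoeff_X, zero_pow (fdeg_pos v).ne',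
      sub_zero]

/-- **Brauer relations: the products of the zeta functions have the same coefficients.** -/
theorem Rel.ZA_eq (h : Rel l l') : ZA l = ZA l' := by
  obtain ⟨N, hN, hp⟩ := exists_eul_eq h
  obtain ⟨-, hd⟩ := compare hN h.sr_eq h.sc_eq (ZA_mul_BA_eq hN hp)
  refine ext_Sp (isMultiplicative_ZA l) (isMultiplicative_ZA l') fun p hpp => ?_
  by_cases hpN : p ∣ N
  · have h1 := congrArg (Sp p) hd
    rw [Sp_mul hpp, Sp_mul hpp, AE.Sp_tw, AE.Sp_tw, Sp_BA hpp hN, Sp_BA hpp hN, if_pos hpN,
      if_pos hpN] at h1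
    exact AE.eq_of_rescale hpp (Sp_ZA_mul hpp l) (Sp_ZA_mul hpp l') h1
      (constantCoeff_eul p l) (constantCoeff_eul p l')
  · exact Sp_ZA_eq hpp (hp p hpp hpN)

theorem BA_one (l : List NF.{u}) : BA 1 l = 1 := by
  rw [BA]
  induction l with
  | nil => rfl
  | cons F l ih =>
    rw [List.map_cons, List.prod_cons, ih, mul_one, badE_eq, normList_one',
      toArithmeticFunction_efl, List.map_nil, List.prod_nil]

/-- **Brauer relations: the products of the discriminants.** -/
theorem Rel.pd_eq (h : Rel l l') : pd l = pd l' := by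
  have h1 := (compare one_ne_zero h.sr_eq h.sc_eq (by rw [BA_one, BA_one, h.ZA_eq])).1
  simp only [funext dN_one] at h1
  exact h1

end Fermat.Agent.Cor.Brauer

end
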