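import Mathlib

/-!
# Stickelberger's theorem on discriminants (1897)

`discr_mod_four`: the discriminant of a number field is congruent to `0` or `1` modulo `4`.

The discriminant is `D ^ 2` for the determinant `D` of the matrix of the conjugates of an integral
basis. Let `A` be the permanent of this matrix and `N` the sum of the terms of the odd permutations,
so `A = D + 2 N` and `D ^ 2 = A ^ 2 - 4 N (N + D)`. The automorphisms of the algebraic closure permute
the columns, so `A` is an integer, and `N (N + D)` is an integer too.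
-/

set_option autoImplicit false

noncomputable section

namespace Fermat.Agent.Cor.Siegel

open NumberField Equiv

/-- The permanent is the determinant plus twice the sum of the terms of the odd permutations. -/
theorem perm_eq_det_add {ι : Type*} [Fintype ι] [DecidableEq ι] {E : Type*} [CommRing E]
    (M : Matrix ι ι E) : (∑ π : Perm ι, ∏ i, M (π i) i) =
      M.det + 2 * ∑ π : Perm ι with Perm.sign π = -1, ∏ i, M (π i) i := by
  rw [Matrix.det_apply, Finset.sum_filter, Finset.mul_sum, ← Finset.sum_add_distrib]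
  refine Finset.sum_congr rfl fun π _ => ?_
  rcases Int.units_eq_one_or (Perm.sign π) with h | h
  · rw [h, one_smul, if_neg (by decide)]
    ring
  · rw [h, if_pos rfl, Units.neg_smul, one_smul]
    ring

/-- An algebraic integer which is fixed by all automorphisms is an integer. -/
theorem exists_int_of_fixed {x : AlgebraicClosure ℚ} (hx : IsIntegral ℤ x)
    (h : ∀ g : AlgebraicClosure ℚ ≃ₐ[ℚ] AlgebraicClosure ℚ, g x = x) : ∃ a : ℤ, x = a := by
  have hA : Algebra.IsAlgebraic ℚ (AlgebraicClosure ℚ) := AlgebraicClosure.isAlgebraic ℚ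
  have hC : IsAlgClosure ℚ (AlgebraicClosure ℚ) := ⟨AlgebraicClosure.isAlgClosed ℚ, hA⟩
  have hG : IsGalois ℚ (AlgebraicClosure ℚ) := IsAlgClosure.isGalois ℚ (AlgebraicClosure ℚ)
  obtain ⟨r, hr⟩ := (InfiniteGalois.mem_range_algebraMap_iff_fixed x).mpr h
  have h1 : IsIntegral ℤ r := by
    rw [← hr] at hx
    exact (isIntegral_algebraMap_iff (algebraMap ℚ (AlgebraicClosure ℚ)).injective).mp hx
  obtain ⟨a, ha⟩ := IsIntegrallyClosed.isIntegral_iff.mp h1
  refine ⟨a, ?_⟩
  rw [← hr, ← ha]
  simp

/-- The discriminant of a number field is of the form `a ^ 2 - 4 c`. -/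
theorem exists_discr_eq_sq_sub (K : Type*) [Field K] [NumberField K] :
    ∃ a c : ℤ, discr K = a ^ 2 - 4 * c := by
  classical
  let b := integralBasis K
  have hcard : Fintype.card (Module.Free.ChooseBasisIndex ℤ (𝓞 K)) =
      Fintype.card (K →ₐ[ℚ] AlgebraicClosure ℚ) := by
    rw [AlgHom.card, ← Module.finrank_eq_card_basis b]
  let e := Fintype.equivOfCardEq hcard
  let M := Algebra.embeddingsMatrixReindex ℚ (AlgebraicClosure ℚ) b e
  have hM : ∀ i j, M i j = e j (b i) := fun i j => rfl
  have hMint : ∀ i j, IsIntegral ℤ (M i j) := by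
    intro i j
    rw [hM]
    have h1 : IsIntegral ℤ (b i) := by
      change IsIntegral ℤ (integralBasis K i)
      rw [integralBasis_apply]
      exact RingOfIntegers.isIntegral_coe _
    exact h1.map ((e j).restrictScalars ℤ)
  let t : Perm (Module.Free.ChooseBasisIndex ℤ (𝓞 K)) → AlgebraicClosure ℚ :=
    fun π => ∏ i, M (π i) i
  have htint : ∀ π, IsIntegral ℤ (t π) := fun π => IsIntegral.prod _ fun i _ => hMint _ _
  let A := ∑ π, t π
  let N := ∑ π : Perm (Module.Free.ChooseBasisIndex ℤ (𝓞 K)) with Perm.sign π = -1, t π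
  have hAint : IsIntegral ℤ A := IsIntegral.sum _ fun π _ => htint π
  have hNint : IsIntegral ℤ N := IsIntegral.sum _ fun π _ => htint π
  have hDint : IsIntegral ℤ M.det := by
    have h1 : M.det = A - 2 * N := by
      have := perm_eq_det_add M
      change A = M.det + 2 * N at this
      rw [this]
      ring
    rw [h1]
    have h2 : IsIntegral ℤ (2 : AlgebraicClosure ℚ) := by
      have := isIntegral_algebraMap (R := ℤ) (A := AlgebraicClosure ℚ) (x := 2)
      simpa using this
    exact hAint.sub (h2.mul hNint)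
  have hAD : A = M.det + 2 * N := perm_eq_det_add M
  have hD : M.det ^ 2 = ((discr K : ℤ) : AlgebraicClosure ℚ) := by
    have h1 := Algebra.discr_eq_det_embeddingsMatrixReindex_pow_two ℚ (AlgebraicClosure ℚ) b e
    rw [← coe_discr] at h1
    rw [← h1]
    simp
  -- the permanent is fixed
  have hfix : ∀ g : AlgebraicClosure ℚ ≃ₐ[ℚ] AlgebraicClosure ℚ, g A = A := by
    intro g
    let τ : Perm (Module.Free.ChooseBasisIndex ℤ (𝓞 K)) :=
      (e.trans (AlgEquiv.refl.arrowCongr g)).trans e.symm
    have hτ : ∀ i (x : K), g (e i x) = e (τ i) x := by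
      intro i x
      change _ = (e (e.symm ((AlgEquiv.refl.arrowCongr g) (e i)))) x
      rw [e.apply_symm_apply]
      rfl
    have ht : ∀ π, g (t π) = t (π * τ⁻¹) := by
      intro π
      change g (∏ i, M (π i) i) = ∏ i, M ((π * τ⁻¹) i) i
      rw [map_prod, ← Equiv.prod_comp τ fun j => M ((π * τ⁻¹) j) j]
      refine Finset.prod_congr rfl fun i _ => ?_
      have h1 : (π * τ⁻¹) (τ i) = π i := by simp
      rw [hM, hM, hτ, h1]
    change g (∑ π, t π) = ∑ π, t π
    rw [map_sum, Finset.sum_congr rfl fun π _ => ht π]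
    exact Equiv.sum_comp (Equiv.mulRight τ⁻¹) t
  obtain ⟨a, ha⟩ := exists_int_of_fixed hAint hfix
  have hQ : 4 * (N * (N + M.det)) = ((a ^ 2 - discr K : ℤ) : AlgebraicClosure ℚ) := by
    push_cast
    rw [← hD, ← ha, hAD]
    ring
  obtain ⟨c, hc⟩ := exists_int_of_fixed (hNint.mul (hNint.add hDint)) (fun g => by
    have h4 : (4 : AlgebraicClosure ℚ) ≠ 0 := by norm_num
    apply mul_left_cancel₀ h4
    have h5 : (4 : AlgebraicClosure ℚ) * g (N * (N + M.det)) = g (4 * (N * (N + M.det))) := by
      rw [map_mul g 4, map_ofNat]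
    rw [h5, hQ, map_intCast])
  refine ⟨a, c, ?_⟩
  rw [hc] at hQ
  have h6 : (4 : ℤ) * c = a ^ 2 - discr K := by exact_mod_cast hQ
  linarith

/-- **Stickelberger's theorem** (1897): the discriminant of a number field is congruent to `0` or `1`
modulo `4`. -/
theorem discr_mod_four (K : Type*) [Field K] [NumberField K] :
    discr K % 4 = 0 ∨ discr K % 4 = 1 := by
  obtain ⟨a, c, h⟩ := exists_discr_eq_sq_sub K
  rcases Int.even_or_odd' a with ⟨k, hk | hk⟩
  · left
    have h1 : discr K = 4 * (k ^ 2 - c) := by rw [h, hk]; ring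
    omega
  · right
    have h1 : discr K = 4 * (k ^ 2 + k - c) + 1 := by rw [h, hk]; ring
    omega

end Fermat.Agent.Cor.Siegel
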